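/-
T1B (row 38), brick Phi4 DESC' (owner helper1), slice HUB GLUE, file 2 (helper8):
EFFECTIVE REDUCTION.

* `msCls c0 s` : the product of the point classes over a multiset of points;
* `exists_multisets_of_mem_picPt` : every element of `PicPt A` is `msCls sP / msCls sN`;
* `twistIdx_one/mul`, `galPic_msCls`;
* `normMs G s` (the `G`-norm of a multiset of points), `normMs_stable`, `le_normMs`;
* `exists_effective` : a `G`-invariant `y ∈ PicPt A` is `msCls sP / msCls sN` with `sN` a
  `G`-STABLE multiset and `msCls sP` a `G`-INVARIANT class (the `G`-norm trick);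
* base change of points `ptIdxMap`, `map_ptCls`, `map_msCls`, `twistIdx_ptIdxMap`;
* **`stableMultisetStatement_of_effective`** : `Desc1.StableMultisetStatement` follows from its
  effective case.
-/
import Mathlib
import Fermat.Agent.T1B.Desc1.Iface

set_option autoImplicit false
set_option linter.unusedSectionVars false
set_option linter.style.haveILetI false

open TensorProduct

namespace Fermat.Agent.T1B.Desc8.Effective

open Fermat.Agent.Jac Fermat.Agent.Jac.JSmooth85Alg Fermat.Agent.Jac.JGroup85Pic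
open Fermat.Agent.Jac.BaseChange75 Fermat.Agent.Jac.LineOps39 Fermat.Agent.T1.RedIface75
open Fermat.Agent.T1.PtLine75 Fermat.Agent.T1.GalAct44 Fermat.Agent.T1.CentresClass47
open Fermat.Agent.T1B.Desc1
open scoped Fermat.Agent.Jac.BaseChange75

universe u

variable {W B0 B1 B01 : Type u} [CommRing W] [CommRing B0] [CommRing B1] [CommRing B01]
  [Algebra W B0] [Algebra W B1] [Algebra W B01] [Algebra B0 B01] [Algebra B1 B01]
  [IsScalarTower W B0 B01] [IsScalarTower W B1 B01]
  (c0 : TwoChart W B0 B1 B01) {A : Type u} [CommRing A] [Algebra W A]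

/-! ### Classes of multisets of points -/

/-- The product of the point classes over a multiset of points. -/
noncomputable def msCls (s : Multiset (PtIdx c0 A)) : PicX c0 A := (s.map (ptCls c0)).prod

@[simp] theorem msCls_zero : msCls c0 (0 : Multiset (PtIdx c0 A)) = 1 := by
  simp [msCls]

theorem msCls_add (s t : Multiset (PtIdx c0 A)) :
    msCls c0 (s + t) = msCls c0 s * msCls c0 t := by
  simp [msCls, Multiset.map_add, Multiset.prod_add]

@[simp] theorem msCls_singleton (x : PtIdx c0 A) : msCls c0 {x} = ptCls c0 x := by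
  simp [msCls]

theorem msCls_sum {ι : Type*} (t : Finset ι) (f : ι → Multiset (PtIdx c0 A)) :
    msCls c0 (∑ i ∈ t, f i) = ∏ i ∈ t, msCls c0 (f i) := by
  classical
  induction t using Finset.induction_on with
  | empty => simp
  | insert i t hi ih => rw [Finset.sum_insert hi, Finset.prod_insert hi, msCls_add, ih]

/-- **(ER1)** every element of `PicPt A` is a quotient of two products of point classes. -/
theorem exists_multisets_of_mem_picPt {y : PicX c0 A} (hy : y ∈ (pointClasses c0).PicPt A) :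
    ∃ sP sN : Multiset (PtIdx c0 A), y = msCls c0 sP / msCls c0 sN := by
  change y ∈ Subgroup.closure {x | IsPtClass c0 A x} at hy
  induction hy using Subgroup.closure_induction with
  | mem x hx =>
    rcases hx with ⟨q, h, rfl⟩ | ⟨q, h, rfl⟩
    · let x : PtIdx c0 A := Sum.inl ⟨q, h⟩
      refine ⟨({x} : Multiset (PtIdx c0 A)), 0, ?_⟩
      rw [msCls_singleton, msCls_zero, div_one]
      rfl
    · let x : PtIdx c0 A := Sum.inr ⟨q, h⟩
      refine ⟨({x} : Multiset (PtIdx c0 A)), 0, ?_⟩
      rw [msCls_singleton, msCls_zero, div_one]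
      rfl
  | one => exact ⟨0, 0, by simp⟩
  | mul x y _ _ hx hy =>
    obtain ⟨p, n, rfl⟩ := hx
    obtain ⟨p', n', rfl⟩ := hy
    refine ⟨p + p', n + n', ?_⟩
    rw [msCls_add, msCls_add, div_mul_div_comm]
  | inv x _ hx =>
    obtain ⟨p, n, rfl⟩ := hx
    exact ⟨n, p, by rw [inv_div]⟩

/-! ### The action on points -/

theorem twistIdx_one (x : PtIdx c0 A) : twistIdx c0 (1 : A ≃ₐ[W] A) x = x := by
  rcases x with q | q
  · exact congrArg Sum.inl (Subtype.ext (AlgHom.ext fun _ => rfl))
  · exact congrArg Sum.inr (Subtype.ext (AlgHom.ext fun _ => rfl))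

theorem twistIdx_mul (σ τ : A ≃ₐ[W] A) (x : PtIdx c0 A) :
    twistIdx c0 (σ * τ) x = twistIdx c0 σ (twistIdx c0 τ x) := by
  rcases x with q | q
  · exact congrArg Sum.inl (Subtype.ext (AlgHom.ext fun _ => rfl))
  · exact congrArg Sum.inr (Subtype.ext (AlgHom.ext fun _ => rfl))

theorem galPic_msCls (τ : A ≃ₐ[W] A) (s : Multiset (PtIdx c0 A)) :
    galPic c0 τ (msCls c0 s) = msCls c0 (s.map (twistIdx c0 τ)) := by
  unfold msCls
  rw [map_multiset_prod, Multiset.map_map, Multiset.map_map]
  congr 1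
  refine Multiset.map_congr rfl fun x _ => ?_
  exact galPic_ptCls c0 τ x

/-! ### The `G`-norm of a multiset of points -/

variable (G : Subgroup (A ≃ₐ[W] A))

/-- The `G`-norm of a multiset of points. -/
noncomputable def normMs [Fintype G] (s : Multiset (PtIdx c0 A)) : Multiset (PtIdx c0 A) :=
  ∑ τ : G, s.map (twistIdx c0 (τ : A ≃ₐ[W] A))

theorem normMs_stable [Fintype G] (s : Multiset (PtIdx c0 A)) (σ : A ≃ₐ[W] A) (hσ : σ ∈ G) :
    (normMs c0 G s).map (twistIdx c0 σ) = normMs c0 G s := by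
  classical
  unfold normMs
  have hsum : ∀ (f : PtIdx c0 A → PtIdx c0 A) (g : G → Multiset (PtIdx c0 A)),
      (∑ τ : G, g τ).map f = ∑ τ : G, (g τ).map f := by
    intro f g
    exact map_sum (Multiset.mapAddMonoidHom f) g Finset.univ
  rw [hsum]
  have h1 : ∀ τ : G, (s.map (twistIdx c0 (τ : A ≃ₐ[W] A))).map (twistIdx c0 σ) =
      s.map (twistIdx c0 (((⟨σ, hσ⟩ : G) * τ : G) : A ≃ₐ[W] A)) := by
    intro τ
    rw [Multiset.map_map]
    refine Multiset.map_congr rfl fun x _ => ?_
    rw [Function.comp_apply, Subgroup.coe_mul, twistIdx_mul]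
  simp only [h1]
  exact Fintype.sum_equiv (Equiv.mulLeft (⟨σ, hσ⟩ : G)) _ _ fun τ => rfl

theorem le_normMs [Fintype G] (s : Multiset (PtIdx c0 A)) : s ≤ normMs c0 G s := by
  classical
  unfold normMs
  have h1 : s = s.map (twistIdx c0 (((1 : G) : G) : A ≃ₐ[W] A)) := by
    rw [Subgroup.coe_one]
    conv_lhs => rw [← Multiset.map_id s]
    refine Multiset.map_congr rfl fun x _ => ?_
    rw [twistIdx_one]
    rfl
  conv_lhs => rw [h1]
  exact Finset.single_le_sum (f := fun τ : G => s.map (twistIdx c0 (τ : A ≃ₐ[W] A)))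
    (fun _ _ => Multiset.zero_le _) (Finset.mem_univ (1 : G))

/-- **(ER2) The `G`-norm trick**: a `G`-invariant `y ∈ PicPt A` is `msCls sP / msCls sN` with `sN`
`G`-stable and `msCls sP` `G`-invariant. -/
theorem exists_effective [Finite G] {y : PicX c0 A} (hy : y ∈ (pointClasses c0).PicPt A)
    (hinv : ∀ τ ∈ G, galPic c0 τ y = y) :
    ∃ sP sN : Multiset (PtIdx c0 A), y = msCls c0 sP / msCls c0 sN ∧
      (∀ τ ∈ G, sN.map (twistIdx c0 τ) = sN) ∧
      (∀ τ ∈ G, galPic c0 τ (msCls c0 sP) = msCls c0 sP) := by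
  classical
  haveI := Fintype.ofFinite G
  obtain ⟨P, N, rfl⟩ := exists_multisets_of_mem_picPt c0 hy
  obtain ⟨R, hR⟩ := Multiset.le_iff_exists_add.1 (le_normMs c0 G N)
  have hy' : msCls c0 P / msCls c0 N = msCls c0 (P + R) / msCls c0 (normMs c0 G N) := by
    rw [hR, msCls_add, msCls_add, mul_div_mul_right_eq_div]
  refine ⟨P + R, normMs c0 G N, hy', fun τ hτ => normMs_stable c0 G N τ hτ, fun τ hτ => ?_⟩
  have h1 : msCls c0 (P + R) = (msCls c0 P / msCls c0 N) * msCls c0 (normMs c0 G N) := by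
    rw [hy', div_mul_cancel]
  rw [h1, map_mul, hinv τ hτ, galPic_msCls, normMs_stable c0 G N τ hτ]

/-! ### Base change of points -/

section BC

variable (A' : Type u) [CommRing A'] [Algebra W A'] [Algebra A A'] [IsScalarTower W A A']

/-- Base change of a point. -/
noncomputable def ptIdxMap : PtIdx c0 A → PtIdx c0 A'
  | Sum.inl q => Sum.inl ⟨ptComp A' q.1, invertible_ptIdeal_ptComp0 c0 A' q.1 q.2⟩
  | Sum.inr q => Sum.inr ⟨ptComp A' q.1, invertible_ptIdeal_ptComp1 c0 A' q.1 q.2⟩

theorem map_ptCls (x : PtIdx c0 A) :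
    PicX.map c0 A A' (ptCls c0 x) = ptCls c0 (ptIdxMap c0 A' x) := by
  rcases x with q | q
  · exact map_ptClass0 c0 A' q.1 q.2 (invertible_ptIdeal_ptComp0 c0 A' q.1 q.2)
  · exact map_ptClass1 c0 A' q.1 q.2 (invertible_ptIdeal_ptComp1 c0 A' q.1 q.2)

theorem map_msCls (s : Multiset (PtIdx c0 A)) :
    PicX.map c0 A A' (msCls c0 s) = msCls c0 (s.map (ptIdxMap c0 A')) := by
  unfold msCls
  rw [map_multiset_prod, Multiset.map_map, Multiset.map_map]
  congr 1
  refine Multiset.map_congr rfl fun x _ => ?_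
  exact map_ptCls c0 A' x

theorem twistIdx_ptIdxMap (γ : A' ≃ₐ[W] A') (τ : A ≃ₐ[W] A)
    (h : ∀ a : A, γ (algebraMap A A' a) = algebraMap A A' (τ a)) (x : PtIdx c0 A) :
    twistIdx c0 γ (ptIdxMap c0 A' x) = ptIdxMap c0 A' (twistIdx c0 τ x) := by
  rcases x with q | q
  · exact congrArg Sum.inl (Subtype.ext (AlgHom.ext fun b => h (q.1 b)))
  · exact congrArg Sum.inr (Subtype.ext (AlgHom.ext fun b => h (q.1 b)))

end BC

/-! ### Reduction of the target statement to the effective case -/

/-- **(ER4)** `Desc1.StableMultisetStatement` follows from its effective case: for every multiset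
`sP` of `L`-points whose class is `G`-invariant, the base change of `msCls sP` to `Ω` is the class
of a multiset of `Ω`-points stable under all `γ` inducing an element of `G` on `L`. -/
theorem stableMultisetStatement_of_effective (L Ω : Type u) [Field L] [Field Ω] [Algebra W L]
    [Algebra W Ω] [Algebra L Ω] [IsScalarTower W L Ω] (G : Subgroup (L ≃ₐ[W] L)) [Finite G]
    (heff : ∀ sP : Multiset (PtIdx c0 L),
      (∀ τ ∈ G, galPic c0 τ (msCls c0 sP) = msCls c0 sP) →
      ∃ s : Multiset (PtIdx c0 Ω), PicX.map c0 L Ω (msCls c0 sP) = msCls c0 s ∧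
        ∀ (γ : Ω ≃ₐ[W] Ω) (τ : L ≃ₐ[W] L), τ ∈ G →
          (∀ a : L, γ (algebraMap L Ω a) = algebraMap L Ω (τ a)) →
          s.map (twistIdx c0 γ) = s) :
    StableMultisetStatement c0 L Ω G := by
  intro y hy hinv
  obtain ⟨sP, sN, rfl, hN, hP⟩ := exists_effective c0 G hy hinv
  obtain ⟨s, hs, hsγ⟩ := heff sP hP
  refine ⟨s, sN.map (ptIdxMap c0 Ω), ?_, fun γ τ hτ hγ => ⟨hsγ γ τ hτ hγ, ?_⟩⟩
  · rw [map_div, hs, map_msCls]
    rfl
  · rw [Multiset.map_map]
    conv_rhs => rw [← hN τ hτ, Multiset.map_map]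
    refine Multiset.map_congr rfl fun x _ => ?_
    exact twistIdx_ptIdxMap c0 Ω γ τ hγ x

end Fermat.Agent.T1B.Desc8.Effective
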