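/-
T1B (row 38), brick Phi4 DESC' (owner helper1), slice HUB GLUE, file 4 (helper8):
EFFECTIVE REDUCTION of the final target `Desc1.DescStatement` (with the finite-level complement).

* `ptIdxMap_eq_bcIdx`, `bcIdx_bcIdx` (transitivity), `bcIdx_injective` (over fields);
* **`descStatement_of_effective`** : `Desc1.DescStatement` follows from its effective case.
-/
import Mathlib
import Fermat.Agent.T1B.Desc8.Effective

set_option autoImplicit false
set_option linter.unusedSectionVars false
set_option linter.style.haveILetI false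

open TensorProduct

namespace Fermat.Agent.T1B.Desc8.DescEff

open Fermat.Agent.Jac Fermat.Agent.Jac.JSmooth85Alg Fermat.Agent.Jac.JGroup85Pic
open Fermat.Agent.Jac.BaseChange75 Fermat.Agent.Jac.LineOps39 Fermat.Agent.T1.RedIface75
open Fermat.Agent.T1.PtLine75 Fermat.Agent.T1.GalAct44 Fermat.Agent.T1.CentresClass47
open Fermat.Agent.T1B.Desc1
open scoped Fermat.Agent.Jac.BaseChange75

universe u

variable {W B0 B1 B01 : Type u} [CommRing W] [CommRing B0] [CommRing B1] [CommRing B01]
  [Algebra W B0] [Algebra W B1] [Algebra W B01] [Algebra B0 B01] [Algebra B1 B01]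
  [IsScalarTower W B0 B01] [IsScalarTower W B1 B01]
  (c0 : TwoChart W B0 B1 B01)

section BC

variable {A : Type u} [CommRing A] [Algebra W A]
  (A' : Type u) [CommRing A'] [Algebra W A'] [Algebra A A'] [IsScalarTower W A A']

theorem ptIdxMap_eq_bcIdx (x : PtIdx c0 A) : Effective.ptIdxMap c0 A' x = bcIdx c0 A' x := by
  rcases x with q | q <;> rfl

theorem map_ptIdxMap_eq (s : Multiset (PtIdx c0 A)) :
    s.map (Effective.ptIdxMap c0 A') = s.map (bcIdx c0 A') :=
  Multiset.map_congr rfl fun x _ => ptIdxMap_eq_bcIdx c0 A' x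

/-- Transitivity of the base change of points. -/
theorem bcIdx_bcIdx (A'' : Type u) [CommRing A''] [Algebra W A''] [Algebra A A'']
    [Algebra A' A''] [IsScalarTower W A A''] [IsScalarTower W A' A''] [IsScalarTower A A' A'']
    (x : PtIdx c0 A) : bcIdx c0 A'' (bcIdx c0 A' x) = bcIdx c0 A'' x := by
  rcases x with q | q
  · exact congrArg Sum.inl (Subtype.ext (AlgHom.ext fun b =>
      (IsScalarTower.algebraMap_apply A A' A'' (q.1 b)).symm))
  · exact congrArg Sum.inr (Subtype.ext (AlgHom.ext fun b =>
      (IsScalarTower.algebraMap_apply A A' A'' (q.1 b)).symm))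

/-- Base change of points along an injective map is injective. -/
theorem bcIdx_injective (h : Function.Injective (algebraMap A A')) :
    Function.Injective (bcIdx c0 A' : PtIdx c0 A → PtIdx c0 A') := by
  rintro (q | q) (q' | q') hqq
  · have h1 : ptComp A' q.1 = ptComp A' q'.1 := congrArg Subtype.val (Sum.inl.inj hqq)
    exact congrArg Sum.inl (Subtype.ext (AlgHom.ext fun b => h (DFunLike.congr_fun h1 b)))
  · exact absurd hqq (by simp [bcIdx])
  · exact absurd hqq (by simp [bcIdx])
  · have h1 : ptComp A' q.1 = ptComp A' q'.1 := congrArg Subtype.val (Sum.inr.inj hqq)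
    exact congrArg Sum.inr (Subtype.ext (AlgHom.ext fun b => h (DFunLike.congr_fun h1 b)))

end BC

/-! ### Reduction of the final target to the effective case -/

/-- **(ER4')** `Desc1.DescStatement` follows from its effective case: for every multiset `sP` of
`L`-points whose class is `G`-invariant, the base change of `msCls sP` to `Ω` is the class of a
multiset `s` of `Ω`-points, stable under all `γ` inducing an element of `G` on `L`, and such that
over every intermediate field `L'` over which the points of `s` are defined, the class identity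
already holds. -/
theorem descStatement_of_effective (L Ω : Type u) [Field L] [Field Ω] [Algebra W L]
    [Algebra W Ω] [Algebra L Ω] [IsScalarTower W L Ω] (G : Subgroup (L ≃ₐ[W] L)) [Finite G]
    (heff : ∀ sP : Multiset (PtIdx c0 L),
      (∀ τ ∈ G, galPic c0 τ (Effective.msCls c0 sP) = Effective.msCls c0 sP) →
      ∃ s : Multiset (PtIdx c0 Ω),
        PicX.map c0 L Ω (Effective.msCls c0 sP) = Effective.msCls c0 s ∧
        (∀ (γ : Ω ≃ₐ[W] Ω) (τ : L ≃ₐ[W] L), τ ∈ G →
          (∀ a : L, γ (algebraMap L Ω a) = algebraMap L Ω (τ a)) →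
          s.map (twistIdx c0 γ) = s) ∧
        ∀ (L' : Type u) [Field L'] [Algebra W L'] [Algebra L L'] [Algebra L' Ω]
          [IsScalarTower W L L'] [IsScalarTower W L' Ω] [IsScalarTower L L' Ω]
          (s' : Multiset (PtIdx c0 L')), s'.map (bcIdx c0 Ω) = s →
          PicX.map c0 L L' (Effective.msCls c0 sP) = Effective.msCls c0 s') :
    DescStatement c0 L Ω G := by
  intro y hy hinv
  obtain ⟨sP, sN, rfl, hN, hP⟩ := Effective.exists_effective c0 G hy hinv
  obtain ⟨s, hs, hsγ, hs'⟩ := heff sP hP
  refine ⟨s, sN.map (bcIdx c0 Ω), ?_, fun γ τ hτ hγ => ⟨hsγ γ τ hτ hγ, ?_⟩, ?_⟩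
  · rw [map_div, hs, Effective.map_msCls, map_ptIdxMap_eq]
    rfl
  · rw [← map_ptIdxMap_eq, Multiset.map_map]
    conv_rhs => rw [← hN τ hτ, Multiset.map_map]
    refine Multiset.map_congr rfl fun x _ => ?_
    exact Effective.twistIdx_ptIdxMap c0 Ω γ τ hγ x
  · intro L' _ _ _ _ _ _ _ sP' sN' hP' hN'
    have hN'' : sN' = sN.map (bcIdx c0 L') := by
      apply Multiset.map_injective (bcIdx_injective c0 Ω (algebraMap L' Ω).injective)
      rw [hN', Multiset.map_map]
      exact Multiset.map_congr rfl fun x _ => (bcIdx_bcIdx c0 L' Ω x).symm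
    rw [map_div, hs' L' sP' hP', Effective.map_msCls, map_ptIdxMap_eq, ← hN'']
    rfl

end Fermat.Agent.T1B.Desc8.DescEff
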