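/-
Programme T1B (S44 / row 38), NODE/PHI cell, brick Phi4 DESC' (owner helper1), slice POINTS OVER Ω
(helper8).

`c0 : TwoChart W B0 B1 B01`, `Ω` an algebraically closed field over `W`, the charts of `X_Ω` being
Dedekind domains of finite type.  Every ideal pair `D` of `X_Ω` with nonzero ideals is, in a unique
way, the product of the ideal pairs of a multiset of `Ω`-points in *canonical form*
(`IsCanon`: chart 0 whenever possible, i.e. a chart-1 index `inr q` only when the point does not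
lie in chart 0):

* `ptPairIdx_twistIdx` : `ptPairIdx (twistIdx γ x) = idealPairGal γ (ptPairIdx x)` (any `A`);
* `IsCanon`, `isCanon_twistIdx`, `ptPairIdx_injOn`;
* `exists_canon_multiset`, `canon_multiset_unique`;
* **`ptsOf c0 Ω D : Multiset (PtIdx c0 Ω)`**, `ptsOf_isCanon`,
  **(P1)** `ptsOf_prod_I0`, `ptsOf_prod_I1`, `ptsOf_eq_of_canon` (uniqueness),
  **(P2)** `ptsOf_gal : ptsOf (idealPairGal c0 γ D) = (ptsOf D).map (twistIdx c0 γ)`.
-/
import Mathlib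
import Fermat.Agent.T1B.Desc1.Iface
import Fermat.Agent.T1B.Desc43.Unique
import Fermat.Agent.T1B.Desc43.Null
import Fermat.Agent.Jac.CurveBaseChange98Point

set_option autoImplicit false
set_option linter.unusedSectionVars false
set_option linter.style.haveILetI false

open TensorProduct

namespace Fermat.Agent.T1B.Desc8.Points

open Fermat.Agent.Jac Fermat.Agent.Jac.JSmooth85Alg Fermat.Agent.Jac.JGroup85Pic
open Fermat.Agent.Jac.BaseChange75 Fermat.Agent.Jac.LineOps39 Fermat.Agent.T1.RedIface75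
open Fermat.Agent.T1.PtLine75 Fermat.Agent.T1.GalAct44 Fermat.Agent.T1.CentresClass47
open Fermat.Agent.T1B.Desc1
open scoped Fermat.Agent.Jac.BaseChange75

universe u

/-! ### Multisets and functions injective on a set -/

theorem multiset_eq_of_map_eq_of_injOn {α β : Type*} (f : α → β) (S : Set α)
    (hf : Set.InjOn f S) (s s' : Multiset α) (hs : ∀ x ∈ s, x ∈ S) (hs' : ∀ x ∈ s', x ∈ S)
    (h : s.map f = s'.map f) : s = s' := by
  classical
  rcases s.empty_or_exists_mem with rfl | ⟨x0, -⟩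
  · rw [Multiset.map_zero] at h
    exact (Multiset.map_eq_zero.1 h.symm).symm
  · haveI : Nonempty α := ⟨x0⟩
    have key : ∀ t : Multiset α, (∀ x ∈ t, x ∈ S) →
        (t.map f).map (Function.invFunOn f S) = t := by
      intro t ht
      rw [Multiset.map_map]
      conv_rhs => rw [← Multiset.map_id t]
      exact Multiset.map_congr rfl fun x hx => hf.leftInvOn_invFunOn (ht x hx)
    rw [← key s hs, h, key s' hs']

variable {W B0 B1 B01 : Type u} [CommRing W] [CommRing B0] [CommRing B1] [CommRing B01]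
  [Algebra W B0] [Algebra W B1] [Algebra W B01] [Algebra B0 B01] [Algebra B1 B01]
  [IsScalarTower W B0 B01] [IsScalarTower W B1 B01]
  (c0 : TwoChart W B0 B1 B01)

/-! ### Semilinear transport of the ideal pair of a point -/

section Semi

variable (S : ChartAut c0) {A A' : Type u} [CommRing A] [CommRing A'] [Algebra W A]
  [Algebra W A'] (f : A →+* A') (hf : ∀ (w : W) (a : A), f (w • a) = S.σW w • f a)

theorem ptPair0_semi (hσ0 : Function.Surjective S.σ0)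
    (q : B0 →ₐ[W] A) (q' : B0 →ₐ[W] A') (hq : ∀ b, q' (S.σ0 b) = f (q b)) :
    (ptPair0 c0 q').I0 = (ptPair0 c0 q).I0.map (semiTensor S.σW f S.σ0 hf S.semi0) ∧
      (ptPair0 c0 q').I1 = (ptPair0 c0 q).I1.map (semiTensor S.σW f S.σ1 hf S.semi1) := by
  letI : Algebra A A' := f.toAlgebra
  letI : Algebra (A ⊗[W] B0) (A' ⊗[W] B0) := (semiTensor S.σW f S.σ0 hf S.semi0).toAlgebra
  letI : Algebra (A ⊗[W] B1) (A' ⊗[W] B1) := (semiTensor S.σW f S.σ1 hf S.semi1).toAlgebra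
  letI : Algebra (A ⊗[W] B01) (A' ⊗[W] B01) := (semiTensor S.σW f S.σ01 hf S.semi01).toAlgebra
  have hs : algebraMap (A ⊗[W] B1) (A' ⊗[W] B1) (c0.baseChange A).s = (c0.baseChange A').s := by
    show semiTensor S.σW f S.σ1 hf S.semi1 ((1 : A) ⊗ₜ[W] c0.s) = (1 : A') ⊗ₜ[W] c0.s
    rw [semiTensor_tmul, map_one, S.map_s]
  have hbc := IdealPair.isBC_ofChart0 (A := A) (A' := A') (S.square0 f hf) (S.square1 f hf)
    (c0.baseChange A) (c0.baseChange A') hs (ptIdeal q) _ (unit_mod_ptPair0 c0 q)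
  have hI : (ptIdeal q).map (algebraMap (A ⊗[W] B0) (A' ⊗[W] B0)) = ptIdeal q' :=
    ptIdeal_map_semi S.σW f S.σ0 hf S.semi0 hσ0 q q' hq
  rw [hI] at hbc
  have hbc' : (ptPair0 c0 q).IsBC (ptPair0 c0 q') := hbc
  exact ⟨hbc'.h0, hbc'.h1⟩

theorem ptPair1_semi (hσ1 : Function.Surjective S.σ1)
    (q : B1 →ₐ[W] A) (q' : B1 →ₐ[W] A') (hq : ∀ b, q' (S.σ1 b) = f (q b)) :
    (ptPair1 c0 q').I0 = (ptPair1 c0 q).I0.map (semiTensor S.σW f S.σ0 hf S.semi0) ∧
      (ptPair1 c0 q').I1 = (ptPair1 c0 q).I1.map (semiTensor S.σW f S.σ1 hf S.semi1) := by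
  letI : Algebra A A' := f.toAlgebra
  letI : Algebra (A ⊗[W] B0) (A' ⊗[W] B0) := (semiTensor S.σW f S.σ0 hf S.semi0).toAlgebra
  letI : Algebra (A ⊗[W] B1) (A' ⊗[W] B1) := (semiTensor S.σW f S.σ1 hf S.semi1).toAlgebra
  letI : Algebra (A ⊗[W] B01) (A' ⊗[W] B01) := (semiTensor S.σW f S.σ01 hf S.semi01).toAlgebra
  have ht : algebraMap (A ⊗[W] B0) (A' ⊗[W] B0) (c0.baseChange A).t = (c0.baseChange A').t := by
    show semiTensor S.σW f S.σ0 hf S.semi0 ((1 : A) ⊗ₜ[W] c0.t) = (1 : A') ⊗ₜ[W] c0.t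
    rw [semiTensor_tmul, map_one, S.map_t]
  have hbc := IdealPair.isBC_ofChart1 (A := A) (A' := A') (S.square0 f hf) (S.square1 f hf)
    (c0.baseChange A) (c0.baseChange A') ht (ptIdeal q) _ (unit_mod_ptPair1 c0 q)
  have hI : (ptIdeal q).map (algebraMap (A ⊗[W] B1) (A' ⊗[W] B1)) = ptIdeal q' :=
    ptIdeal_map_semi S.σW f S.σ1 hf S.semi1 hσ1 q q' hq
  rw [hI] at hbc
  have hbc' : (ptPair1 c0 q).IsBC (ptPair1 c0 q') := hbc
  exact ⟨hbc'.h0, hbc'.h1⟩

end Semi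

/-! ### Equivariance of the ideal pair of a point, canonical indices -/

section Canon

variable {A : Type u} [CommRing A] [Algebra W A]

/-- **The ideal pair of the twisted point is the twisted ideal pair.** -/
theorem ptPairIdx_twistIdx (γ : A ≃ₐ[W] A) (x : PtIdx c0 A) :
    ptPairIdx c0 (twistIdx c0 γ x) = idealPairGal c0 γ (ptPairIdx c0 x) := by
  rcases x with q | q
  · have h := ptPair0_semi c0 (chartAutRefl c0) (γ : A →+* A) (fun w a => map_smul γ w a)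
      Function.surjective_id q.1
      (twistPt0 (trivAction c0 (A ≃ₐ[W] A)) (algSemi c0 A) γ q.1) (fun b => rfl)
    exact AbelJacobi73.idealPair_ext h.1 h.2
  · have h := ptPair1_semi c0 (chartAutRefl c0) (γ : A →+* A) (fun w a => map_smul γ w a)
      Function.surjective_id q.1
      (twistPt1 (trivAction c0 (A ≃ₐ[W] A)) (algSemi c0 A) γ q.1) (fun b => rfl)
    exact AbelJacobi73.idealPair_ext h.1 h.2

/-- Canonical form of a point index: chart 0 whenever possible (a chart-1 index is canonical when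
the point does not lie in chart 0, i.e. the chart-0 ideal of its closure is the unit ideal). -/
def IsCanon : PtIdx c0 A → Prop
  | Sum.inl _ => True
  | Sum.inr q => (ptPair1 c0 q.1).I0 = ⊤

theorem isCanon_inl (q : {q : B0 →ₐ[W] A // Module.Invertible (A ⊗[W] B0) (ptIdeal q)}) :
    IsCanon c0 (Sum.inl q : PtIdx c0 A) := trivial

theorem isCanon_inr_iff (q : {q : B1 →ₐ[W] A // Module.Invertible (A ⊗[W] B1) (ptIdeal q)}) :
    IsCanon c0 (Sum.inr q : PtIdx c0 A) ↔ (ptPair1 c0 q.1).I0 = ⊤ := Iff.rfl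

/-- A chart-1 point with `s = 0` is canonical. -/
theorem isCanon_inr_of_s_eq_zero
    (q : {q : B1 →ₐ[W] A // Module.Invertible (A ⊗[W] B1) (ptIdeal q)}) (h : q.1 c0.s = 0) :
    IsCanon c0 (Sum.inr q : PtIdx c0 A) := by
  rw [isCanon_inr_iff]
  have h1 := unit_mod_ptPair1 c0 q.1
  rw [h, map_zero, zero_mul, zero_sub] at h1
  exact (Ideal.eq_top_iff_one _).2 (by simpa using Ideal.neg_mem_iff _ |>.1 h1)

theorem isCanon_twistIdx (γ : A ≃ₐ[W] A) (x : PtIdx c0 A) (hx : IsCanon c0 x) :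
    IsCanon c0 (twistIdx c0 γ x) := by
  rcases x with q | q
  · trivial
  · have h := congrArg IdealPair.I0 (ptPairIdx_twistIdx c0 γ (Sum.inr q))
    change (ptPair1 c0 _).I0 = ((ptPair1 c0 q.1).I0).map (galTensorHom γ B0) at h
    show (ptPair1 c0 _).I0 = ⊤
    rw [h, (isCanon_inr_iff c0 q).1 hx, Ideal.map_top]

end Canon

/-! ### Over a field -/

section Field

variable (Ω : Type u) [Field Ω] [Algebra W Ω]

theorem isPointPair_ptPairIdx (x : PtIdx c0 Ω) :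
    AbelJacobi73.IsPointPair (c0.baseChange Ω) (ptPairIdx c0 x) := by
  rcases x with q | q
  · exact Or.inl ⟨ptIdeal q.1, Desc43.ptIdeal_isMaximal q.1, rfl⟩
  · exact Or.inr ⟨ptIdeal q.1, Desc43.ptIdeal_isMaximal q.1, rfl⟩

/-- On canonical indices, the ideal pair determines the index. -/
theorem ptPairIdx_injOn :
    Set.InjOn (ptPairIdx c0 (A := Ω)) {x | IsCanon c0 x} := by
  rintro (q | q) hx (q' | q') hx' h
  · have h0 : ptIdeal q.1 = ptIdeal q'.1 := congrArg IdealPair.I0 h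
    exact congrArg Sum.inl (Subtype.ext (Desc43.ptIdeal_injective h0))
  · exfalso
    have h0 : ptIdeal q.1 = (ptPair1 c0 q'.1).I0 := congrArg IdealPair.I0 h
    rw [(isCanon_inr_iff c0 q').1 hx'] at h0
    exact (Desc43.ptIdeal_isMaximal q.1).ne_top h0
  · exfalso
    have h0 : (ptPair1 c0 q.1).I0 = ptIdeal q'.1 := congrArg IdealPair.I0 h
    rw [(isCanon_inr_iff c0 q).1 hx] at h0
    exact (Desc43.ptIdeal_isMaximal q'.1).ne_top h0.symm
  · have h1 : ptIdeal q.1 = ptIdeal q'.1 := congrArg IdealPair.I1 h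
    exact congrArg Sum.inr (Subtype.ext (Desc43.ptIdeal_injective h1))

end Field

/-! ### Over an algebraically closed field, Dedekind charts -/

section AlgClosed

variable (Ω : Type u) [Field Ω] [IsAlgClosed Ω] [Algebra W Ω]
  [Algebra.FiniteType W B0] [Algebra.FiniteType W B1]
  [IsDedekindDomain (Ω ⊗[W] B0)] [IsDedekindDomain (Ω ⊗[W] B1)] [IsDomain (Ω ⊗[W] B01)]

/-- Every point pair of `X_Ω` (with nonzero ideals) is the pair of a canonical point index. -/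
theorem exists_idx_of_isPointPair {P : IdealPair (Ω ⊗[W] B0) (Ω ⊗[W] B1) (Ω ⊗[W] B01)}
    (hP : AbelJacobi73.IsPointPair (c0.baseChange Ω) P) (h0 : P.I0 ≠ ⊥) (h1 : P.I1 ≠ ⊥) :
    ∃ x : PtIdx c0 Ω, IsCanon c0 x ∧ ptPairIdx c0 x = P := by
  rcases Desc43.isPointPair_cases0 (c0.baseChange Ω) hP h0 with
    ⟨hmax, hPeq⟩ | ⟨htop, hmax, hPeq⟩
  · haveI := hmax
    obtain ⟨q, hq⟩ := Desc43.exists_eq_ptIdeal_of_isMaximal P.I0
    have hinv : Module.Invertible (Ω ⊗[W] B0) (ptIdeal q) := by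
      rw [← hq]
      exact CurveBaseChange98Point.invertible_of_ne_bot P.I0 h0
    refine ⟨Sum.inl ⟨q, hinv⟩, trivial, ?_⟩
    calc ptPairIdx c0 (Sum.inl ⟨q, hinv⟩)
        = IdealPair.ofChart0 (c0.baseChange Ω) (ptIdeal q) := rfl
      _ = IdealPair.ofChart0 (c0.baseChange Ω) P.I0 := by rw [← hq]
      _ = P := hPeq.symm
  · haveI := hmax
    obtain ⟨q, hq⟩ := Desc43.exists_eq_ptIdeal_of_isMaximal P.I1
    have hinv : Module.Invertible (Ω ⊗[W] B1) (ptIdeal q) := by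
      rw [← hq]
      exact CurveBaseChange98Point.invertible_of_ne_bot P.I1 h1
    have hPq : ptPair1 c0 q = P :=
      calc ptPair1 c0 q = IdealPair.ofChart1 (c0.baseChange Ω) (ptIdeal q) := rfl
        _ = IdealPair.ofChart1 (c0.baseChange Ω) P.I1 := by rw [← hq]
        _ = P := hPeq.symm
    refine ⟨Sum.inr ⟨q, hinv⟩, ?_, hPq⟩
    show (ptPair1 c0 q).I0 = ⊤
    rw [hPq, htop]

/-- Lists of point pairs lift to lists of canonical indices. -/
theorem exists_idx_list (l : List (IdealPair (Ω ⊗[W] B0) (Ω ⊗[W] B1) (Ω ⊗[W] B01)))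
    (h : ∀ P ∈ l, AbelJacobi73.IsPointPair (c0.baseChange Ω) P ∧ P.I0 ≠ ⊥ ∧ P.I1 ≠ ⊥) :
    ∃ l' : List (PtIdx c0 Ω), (∀ x ∈ l', IsCanon c0 x) ∧ l'.map (ptPairIdx c0) = l := by
  induction l with
  | nil => exact ⟨[], by simp, rfl⟩
  | cons P t ih =>
    have hP := h P List.mem_cons_self
    obtain ⟨x, hx, hxP⟩ := exists_idx_of_isPointPair c0 Ω hP.1 hP.2.1 hP.2.2
    obtain ⟨t', ht', htt⟩ := ih fun Q hQ => h Q (List.mem_cons_of_mem _ hQ)
    refine ⟨x :: t', ?_, by rw [List.map_cons, hxP, htt]⟩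
    intro y hy
    rcases List.mem_cons.1 hy with rfl | hy
    · exact hx
    · exact ht' y hy

theorem pairProd_map_I0 (l : List (PtIdx c0 Ω)) :
    (AbelJacobi73.pairProd (l.map (ptPairIdx c0))).I0 =
      ((l : Multiset (PtIdx c0 Ω)).map fun x => (ptPairIdx c0 x).I0).prod := by
  rw [Desc43.pairProd_I0, List.map_map, Multiset.map_coe, Multiset.prod_coe]
  rfl

theorem pairProd_map_I1 (l : List (PtIdx c0 Ω)) :
    (AbelJacobi73.pairProd (l.map (ptPairIdx c0))).I1 =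
      ((l : Multiset (PtIdx c0 Ω)).map fun x => (ptPairIdx c0 x).I1).prod := by
  rw [Desc43.pairProd_I1, List.map_map, Multiset.map_coe, Multiset.prod_coe]
  rfl

/-- **Existence**: an ideal pair of `X_Ω` with nonzero ideals is the product of the ideal pairs of
a multiset of canonical point indices. -/
theorem exists_canon_multiset (D : IdealPair (Ω ⊗[W] B0) (Ω ⊗[W] B1) (Ω ⊗[W] B01))
    (h0 : D.I0 ≠ ⊥) (h1 : D.I1 ≠ ⊥) :
    ∃ s : Multiset (PtIdx c0 Ω), (∀ x ∈ s, IsCanon c0 x) ∧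
      D.I0 = (s.map fun x => (ptPairIdx c0 x).I0).prod ∧
      D.I1 = (s.map fun x => (ptPairIdx c0 x).I1).prod := by
  obtain ⟨l, hl, hD⟩ := AbelJacobi73.exists_pointPair_factorisation (c0.baseChange Ω) D h0 h1
  obtain ⟨l', hl', hmap⟩ := exists_idx_list c0 Ω l fun P hP =>
    ⟨hl P hP, Desc43.ne_bot_of_mem_of_pairProd_ne_bot (hD ▸ h0) (hD ▸ h1) hP⟩
  refine ⟨(l' : Multiset (PtIdx c0 Ω)), fun x hx => hl' x (Multiset.mem_coe.1 hx), ?_, ?_⟩
  · rw [← pairProd_map_I0, hmap, ← hD]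
  · rw [← pairProd_map_I1, hmap, ← hD]

/-- **Uniqueness**: two multisets of canonical point indices with the same (nonzero) product ideals
are equal. -/
theorem canon_multiset_unique (s s' : Multiset (PtIdx c0 Ω))
    (hs : ∀ x ∈ s, IsCanon c0 x) (hs' : ∀ x ∈ s', IsCanon c0 x)
    (hne0 : (s.map fun x => (ptPairIdx c0 x).I0).prod ≠ ⊥)
    (hne1 : (s.map fun x => (ptPairIdx c0 x).I1).prod ≠ ⊥)
    (h0 : (s.map fun x => (ptPairIdx c0 x).I0).prod = (s'.map fun x => (ptPairIdx c0 x).I0).prod)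
    (h1 : (s.map fun x => (ptPairIdx c0 x).I1).prod =
      (s'.map fun x => (ptPairIdx c0 x).I1).prod) : s = s' := by
  induction s using Quotient.inductionOn with
  | h l =>
  induction s' using Quotient.inductionOn with
  | h l' =>
  change ((l : Multiset (PtIdx c0 Ω)).map fun x => (ptPairIdx c0 x).I0).prod ≠ ⊥ at hne0
  change ((l : Multiset (PtIdx c0 Ω)).map fun x => (ptPairIdx c0 x).I1).prod ≠ ⊥ at hne1
  change ((l : Multiset (PtIdx c0 Ω)).map fun x => (ptPairIdx c0 x).I0).prod =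
    ((l' : Multiset (PtIdx c0 Ω)).map fun x => (ptPairIdx c0 x).I0).prod at h0
  change ((l : Multiset (PtIdx c0 Ω)).map fun x => (ptPairIdx c0 x).I1).prod =
    ((l' : Multiset (PtIdx c0 Ω)).map fun x => (ptPairIdx c0 x).I1).prod at h1
  rw [← pairProd_map_I0] at hne0
  rw [← pairProd_map_I1] at hne1
  rw [← pairProd_map_I0, ← pairProd_map_I0] at h0
  rw [← pairProd_map_I1, ← pairProd_map_I1] at h1
  have hpp : ∀ l : List (PtIdx c0 Ω), ∀ P ∈ l.map (ptPairIdx c0),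
      AbelJacobi73.IsPointPair (c0.baseChange Ω) P := by
    intro l P hP
    obtain ⟨x, -, rfl⟩ := List.mem_map.1 hP
    exact isPointPair_ptPairIdx c0 Ω x
  have hcoe := Desc43.coe_eq_coe_of_pairProd_eq (c0.baseChange Ω) (l.map (ptPairIdx c0))
    (l'.map (ptPairIdx c0)) (hpp l) (hpp l') hne0 hne1 (AbelJacobi73.idealPair_ext h0 h1)
  refine multiset_eq_of_map_eq_of_injOn (ptPairIdx c0) _ (ptPairIdx_injOn c0 Ω) _ _ hs hs' ?_
  rw [Multiset.quot_mk_to_coe, Multiset.quot_mk_to_coe, Multiset.map_coe, Multiset.map_coe]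
  exact hcoe

/-! ### The multiset of points of an ideal pair -/

open Classical in
/-- **The multiset of (canonical indices of the) points of an ideal pair of `X_Ω`**, with
multiplicities; `0` when one of the two ideals is zero. -/
noncomputable def ptsOf (D : IdealPair (Ω ⊗[W] B0) (Ω ⊗[W] B1) (Ω ⊗[W] B01)) :
    Multiset (PtIdx c0 Ω) :=
  if h : D.I0 ≠ ⊥ ∧ D.I1 ≠ ⊥ then Classical.choose (exists_canon_multiset c0 Ω D h.1 h.2) else 0

theorem ptsOf_spec (D : IdealPair (Ω ⊗[W] B0) (Ω ⊗[W] B1) (Ω ⊗[W] B01))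
    (h0 : D.I0 ≠ ⊥) (h1 : D.I1 ≠ ⊥) :
    (∀ x ∈ ptsOf c0 Ω D, IsCanon c0 x) ∧
      D.I0 = ((ptsOf c0 Ω D).map fun x => (ptPairIdx c0 x).I0).prod ∧
      D.I1 = ((ptsOf c0 Ω D).map fun x => (ptPairIdx c0 x).I1).prod := by
  have h : D.I0 ≠ ⊥ ∧ D.I1 ≠ ⊥ := ⟨h0, h1⟩
  rw [ptsOf, dif_pos h]
  exact Classical.choose_spec (exists_canon_multiset c0 Ω D h.1 h.2)

theorem ptsOf_of_eq_bot (D : IdealPair (Ω ⊗[W] B0) (Ω ⊗[W] B1) (Ω ⊗[W] B01))
    (h : D.I0 = ⊥ ∨ D.I1 = ⊥) : ptsOf c0 Ω D = 0 := by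
  rw [ptsOf, dif_neg]
  rintro ⟨h0, h1⟩
  rcases h with h | h
  · exact h0 h
  · exact h1 h

theorem ptsOf_isCanon (D : IdealPair (Ω ⊗[W] B0) (Ω ⊗[W] B1) (Ω ⊗[W] B01))
    (x : PtIdx c0 Ω) (hx : x ∈ ptsOf c0 Ω D) : IsCanon c0 x := by
  by_cases h : D.I0 ≠ ⊥ ∧ D.I1 ≠ ⊥
  · exact (ptsOf_spec c0 Ω D h.1 h.2).1 x hx
  · rw [ptsOf, dif_neg h] at hx
    exact absurd hx (Multiset.notMem_zero x)

/-- **(P1), chart 0.** -/
theorem ptsOf_prod_I0 (D : IdealPair (Ω ⊗[W] B0) (Ω ⊗[W] B1) (Ω ⊗[W] B01))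
    (h0 : D.I0 ≠ ⊥) (h1 : D.I1 ≠ ⊥) :
    D.I0 = ((ptsOf c0 Ω D).map fun x => (ptPairIdx c0 x).I0).prod :=
  (ptsOf_spec c0 Ω D h0 h1).2.1

/-- **(P1), chart 1.** -/
theorem ptsOf_prod_I1 (D : IdealPair (Ω ⊗[W] B0) (Ω ⊗[W] B1) (Ω ⊗[W] B01))
    (h0 : D.I0 ≠ ⊥) (h1 : D.I1 ≠ ⊥) :
    D.I1 = ((ptsOf c0 Ω D).map fun x => (ptPairIdx c0 x).I1).prod :=
  (ptsOf_spec c0 Ω D h0 h1).2.2

/-- **(P1)** in the form asked for. -/
theorem ptsOf_prod (D : IdealPair (Ω ⊗[W] B0) (Ω ⊗[W] B1) (Ω ⊗[W] B01))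
    (h0 : D.I0 ≠ ⊥) (h1 : D.I1 ≠ ⊥) :
    D.I0 = ((ptsOf c0 Ω D).map fun x => (ptPairIdx c0 x).I0).prod ∧
      D.I1 = ((ptsOf c0 Ω D).map fun x => (ptPairIdx c0 x).I1).prod :=
  (ptsOf_spec c0 Ω D h0 h1).2

/-- **Uniqueness of `ptsOf`.** -/
theorem ptsOf_eq_of_canon (D : IdealPair (Ω ⊗[W] B0) (Ω ⊗[W] B1) (Ω ⊗[W] B01))
    (h0 : D.I0 ≠ ⊥) (h1 : D.I1 ≠ ⊥) (s : Multiset (PtIdx c0 Ω))
    (hs : ∀ x ∈ s, IsCanon c0 x)
    (e0 : D.I0 = (s.map fun x => (ptPairIdx c0 x).I0).prod)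
    (e1 : D.I1 = (s.map fun x => (ptPairIdx c0 x).I1).prod) : ptsOf c0 Ω D = s := by
  obtain ⟨hc, p0, p1⟩ := ptsOf_spec c0 Ω D h0 h1
  exact canon_multiset_unique c0 Ω _ _ hc hs (p0 ▸ h0) (p1 ▸ h1) (p0.symm.trans e0)
    (p1.symm.trans e1)

theorem map_galTensorHom_eq_bot_iff {B : Type u} [CommRing B] [Algebra W B] (γ : Ω ≃ₐ[W] Ω)
    (I : Ideal (Ω ⊗[W] B)) : I.map (galTensorHom γ B) = ⊥ ↔ I = ⊥ :=
  Ideal.map_eq_bot_iff_of_injective (f := galTensorHom γ B) (galTensor γ B).injective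

theorem map_prod_galTensorHom {B : Type u} [CommRing B] [Algebra W B] (γ : Ω ≃ₐ[W] Ω)
    (s : Multiset (PtIdx c0 Ω)) (F : PtIdx c0 Ω → Ideal (Ω ⊗[W] B)) :
    ((s.map F).prod).map (galTensorHom γ B) =
      (s.map fun x => (F x).map (galTensorHom γ B)).prod := by
  have h := map_multiset_prod (Ideal.mapHom (galTensorHom γ B)) (s.map F)
  rw [Multiset.map_map] at h
  exact h

/-- **(P2)**: the points of the twisted ideal pair are the twisted points. -/
theorem ptsOf_gal (γ : Ω ≃ₐ[W] Ω) (D : IdealPair (Ω ⊗[W] B0) (Ω ⊗[W] B1) (Ω ⊗[W] B01)) :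
    ptsOf c0 Ω (idealPairGal c0 γ D) = (ptsOf c0 Ω D).map (twistIdx c0 γ) := by
  by_cases h : D.I0 ≠ ⊥ ∧ D.I1 ≠ ⊥
  · obtain ⟨h0, h1⟩ := h
    have g0 : (idealPairGal c0 γ D).I0 ≠ ⊥ := fun e =>
      h0 ((map_galTensorHom_eq_bot_iff Ω γ D.I0).1 e)
    have g1 : (idealPairGal c0 γ D).I1 ≠ ⊥ := fun e =>
      h1 ((map_galTensorHom_eq_bot_iff Ω γ D.I1).1 e)
    obtain ⟨hc, p0, p1⟩ := ptsOf_spec c0 Ω D h0 h1
    refine ptsOf_eq_of_canon c0 Ω _ g0 g1 _ ?_ ?_ ?_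
    · intro y hy
      obtain ⟨x, hx, rfl⟩ := Multiset.mem_map.1 hy
      exact isCanon_twistIdx c0 γ x (hc x hx)
    · rw [idealPairGal_I0, Multiset.map_map]
      conv_lhs => rw [p0]
      rw [map_prod_galTensorHom]
      refine congrArg Multiset.prod (Multiset.map_congr rfl fun x _ => ?_)
      exact (congrArg IdealPair.I0 (ptPairIdx_twistIdx c0 γ x)).symm
    · rw [idealPairGal_I1, Multiset.map_map]
      conv_lhs => rw [p1]
      rw [map_prod_galTensorHom]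
      refine congrArg Multiset.prod (Multiset.map_congr rfl fun x _ => ?_)
      exact (congrArg IdealPair.I1 (ptPairIdx_twistIdx c0 γ x)).symm
  · have hb : D.I0 = ⊥ ∨ D.I1 = ⊥ := by
      by_contra hcon
      exact h ⟨fun e => hcon (Or.inl e), fun e => hcon (Or.inr e)⟩
    rw [ptsOf_of_eq_bot c0 Ω D hb, Multiset.map_zero]
    apply ptsOf_of_eq_bot
    rcases hb with hb | hb
    · left
      rw [idealPairGal_I0, hb, Ideal.map_bot]
    · right
      rw [idealPairGal_I1, hb, Ideal.map_bot]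

end AlgClosed

end Fermat.Agent.T1B.Desc8.Points
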