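/-
T1B (row 38), brick Phi4 DESC' (owner helper1), slice HUB GLUE, file 5 (helper8):
THE BRIDGE from the `Ω`-form `Desc1.DescStatement` (at `L = ↥N`, `Ω = ℚ̄`, `G` = the image of the
inertia group) to the number-field form `Node45.DescIface.DescAt` consumed by Φ6.

* `divClass_zero/add/neg/sub/single0/single1` : `divClass` is a homomorphism in the divisor;
* `div0/div1`, `msDiv0/msDiv1` : the point divisor of a multiset of point indices,
  `divClass_msDiv`, `msDiv0_map_apply`, `msDiv1_map_apply` (invariance);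
* `twistIdx_bcIdx` : compatibility of twists with base change of points;
* `invertible_ptIdeal_of_isDedekindDomain` : a provider for the hypotheses `hinv0/hinv1` below;
* `descPt`, `DefinedOver`, `descIdx`, `bcIdx_descIdx`, `exists_field_definedOver` : points of
  `ℚ̄` descend to a finite normal subfield;
* `resW`, `galW`, `inertiaHom`, `inertiaImage` : the inertia group acting `A ∩ K`-linearly;
* **`descAt_of_descStatement`**.
-/
import Mathlib
import Fermat.Agent.T1B.Desc8.DescEff
import Fermat.Agent.T1B.Node45.DescIface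
import Fermat.Agent.T1.Centres94.FieldChoice
import Fermat.Agent.Jac.CurveBaseChange98Point

set_option autoImplicit false
set_option linter.unusedSectionVars false
set_option linter.style.haveILetI false

open TensorProduct

namespace Fermat.Agent.T1B.Desc8.DescAt

open Fermat.Agent.Jac Fermat.Agent.Jac.JSmooth85Alg Fermat.Agent.Jac.JGroup85Pic
open Fermat.Agent.Jac.BaseChange75 Fermat.Agent.Jac.LineOps39 Fermat.Agent.T1.RedIface75
open Fermat.Agent.T1.PtLine75 Fermat.Agent.T1.GalAct44 Fermat.Agent.T1.CentresClass47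
open Fermat.Agent.T1B.Desc1 Fermat.Agent.T1B.Node45.DescIface
open Fermat.Agent.T1.HubInst98 Fermat.Agent.RED.Interface4
open scoped Fermat.Agent.Jac.BaseChange75

universe u

section General

variable {W B0 B1 B01 : Type u} [CommRing W] [CommRing B0] [CommRing B1] [CommRing B01]
  [Algebra W B0] [Algebra W B1] [Algebra W B01] [Algebra B0 B01] [Algebra B1 B01]
  [IsScalarTower W B0 B01] [IsScalarTower W B1 B01]
  (c0 : TwoChart W B0 B1 B01) {A : Type u} [CommRing A] [Algebra W A]

/-! ### `divClass` is a homomorphism -/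

theorem divClass_zero : divClass c0 (0 : (B0 →ₐ[W] A) →₀ ℤ) (0 : (B1 →ₐ[W] A) →₀ ℤ) = 1 := by
  unfold divClass
  rw [Finsupp.prod_zero_index, Finsupp.prod_zero_index, mul_one]

theorem divClass_add (D0 E0 : (B0 →ₐ[W] A) →₀ ℤ) (D1 E1 : (B1 →ₐ[W] A) →₀ ℤ) :
    divClass c0 (D0 + E0) (D1 + E1) = divClass c0 D0 D1 * divClass c0 E0 E1 := by
  unfold divClass
  rw [Finsupp.prod_add_index' (fun _ => zpow_zero _) (fun _ _ _ => zpow_add _ _ _),
    Finsupp.prod_add_index' (fun _ => zpow_zero _) (fun _ _ _ => zpow_add _ _ _)]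
  exact mul_mul_mul_comm _ _ _ _

theorem divClass_neg (D0 : (B0 →ₐ[W] A) →₀ ℤ) (D1 : (B1 →ₐ[W] A) →₀ ℤ) :
    divClass c0 (-D0) (-D1) = (divClass c0 D0 D1)⁻¹ := by
  apply eq_inv_of_mul_eq_one_left
  rw [← divClass_add, neg_add_cancel, neg_add_cancel, divClass_zero]

theorem divClass_sub (D0 E0 : (B0 →ₐ[W] A) →₀ ℤ) (D1 E1 : (B1 →ₐ[W] A) →₀ ℤ) :
    divClass c0 (D0 - E0) (D1 - E1) = divClass c0 D0 D1 / divClass c0 E0 E1 := by
  rw [sub_eq_add_neg, sub_eq_add_neg, divClass_add, divClass_neg, div_eq_mul_inv]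

theorem divClass_single0 (q : B0 →ₐ[W] A) :
    divClass c0 (Finsupp.single q 1) (0 : (B1 →ₐ[W] A) →₀ ℤ) = ptCls0 c0 q := by
  unfold divClass
  rw [Finsupp.prod_single_index (zpow_zero _), Finsupp.prod_zero_index, mul_one, zpow_one]

theorem divClass_single1 (q : B1 →ₐ[W] A) :
    divClass c0 (0 : (B0 →ₐ[W] A) →₀ ℤ) (Finsupp.single q 1) = ptCls1 c0 q := by
  unfold divClass
  rw [Finsupp.prod_single_index (zpow_zero _), Finsupp.prod_zero_index, one_mul, zpow_one]

/-! ### The point divisor of a multiset of point indices -/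

/-- Chart-0 part of the divisor of a point index. -/
noncomputable def div0 : PtIdx c0 A → ((B0 →ₐ[W] A) →₀ ℤ)
  | Sum.inl q => Finsupp.single q.1 1
  | Sum.inr _ => 0

/-- Chart-1 part of the divisor of a point index. -/
noncomputable def div1 : PtIdx c0 A → ((B1 →ₐ[W] A) →₀ ℤ)
  | Sum.inl _ => 0
  | Sum.inr q => Finsupp.single q.1 1

/-- Chart-0 part of the divisor of a multiset of point indices. -/
noncomputable def msDiv0 (s : Multiset (PtIdx c0 A)) : (B0 →ₐ[W] A) →₀ ℤ := (s.map (div0 c0)).sum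

/-- Chart-1 part of the divisor of a multiset of point indices. -/
noncomputable def msDiv1 (s : Multiset (PtIdx c0 A)) : (B1 →ₐ[W] A) →₀ ℤ := (s.map (div1 c0)).sum

theorem divClass_div (x : PtIdx c0 A) : divClass c0 (div0 c0 x) (div1 c0 x) = ptCls c0 x := by
  rcases x with q | q
  · exact (divClass_single0 c0 q.1).trans (ptCls0_eq c0 q.1 q.2)
  · exact (divClass_single1 c0 q.1).trans (ptCls1_eq c0 q.1 q.2)

theorem divClass_msDiv (s : Multiset (PtIdx c0 A)) :
    divClass c0 (msDiv0 c0 s) (msDiv1 c0 s) = (s.map (ptCls c0)).prod := by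
  induction s using Multiset.induction_on with
  | empty =>
    show divClass c0 ((Multiset.map (div0 c0) 0).sum) ((Multiset.map (div1 c0) 0).sum) = _
    rw [Multiset.map_zero, Multiset.map_zero, Multiset.map_zero, Multiset.sum_zero,
      Multiset.sum_zero, Multiset.prod_zero, divClass_zero]
  | cons x s ih =>
    show divClass c0 ((Multiset.map (div0 c0) (x ::ₘ s)).sum)
      ((Multiset.map (div1 c0) (x ::ₘ s)).sum) = _
    rw [Multiset.map_cons, Multiset.map_cons, Multiset.map_cons, Multiset.sum_cons,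
      Multiset.sum_cons, Multiset.prod_cons, divClass_add, divClass_div]
    exact congrArg _ ih

theorem msDiv0_apply (s : Multiset (PtIdx c0 A)) (q : B0 →ₐ[W] A) :
    msDiv0 c0 s q = (s.map fun x => div0 c0 x q).sum := by
  have h := map_multiset_sum (Finsupp.applyAddHom q : ((B0 →ₐ[W] A) →₀ ℤ) →+ ℤ)
    (s.map (div0 c0))
  rw [Multiset.map_map] at h
  exact h

theorem msDiv1_apply (s : Multiset (PtIdx c0 A)) (q : B1 →ₐ[W] A) :
    msDiv1 c0 s q = (s.map fun x => div1 c0 x q).sum := by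
  have h := map_multiset_sum (Finsupp.applyAddHom q : ((B1 →ₐ[W] A) →₀ ℤ) →+ ℤ)
    (s.map (div1 c0))
  rw [Multiset.map_map] at h
  exact h

theorem msDiv0_map_apply (s : Multiset (PtIdx c0 A)) (σ : PtIdx c0 A → PtIdx c0 A)
    (q q' : B0 →ₐ[W] A) (h : ∀ x, div0 c0 (σ x) q' = div0 c0 x q) :
    msDiv0 c0 (s.map σ) q' = msDiv0 c0 s q := by
  rw [msDiv0_apply, msDiv0_apply, Multiset.map_map]
  exact congrArg Multiset.sum (Multiset.map_congr rfl fun x _ => h x)

theorem msDiv1_map_apply (s : Multiset (PtIdx c0 A)) (σ : PtIdx c0 A → PtIdx c0 A)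
    (q q' : B1 →ₐ[W] A) (h : ∀ x, div1 c0 (σ x) q' = div1 c0 x q) :
    msDiv1 c0 (s.map σ) q' = msDiv1 c0 s q := by
  rw [msDiv1_apply, msDiv1_apply, Multiset.map_map]
  exact congrArg Multiset.sum (Multiset.map_congr rfl fun x _ => h x)

/-- The divisor of a twisted index at a twisted point. -/
theorem div0_twistIdx (τ : A ≃ₐ[W] A) (x : PtIdx c0 A) (q q' : B0 →ₐ[W] A)
    (hq : ∀ b, q' b = τ (q b)) : div0 c0 (twistIdx c0 τ x) q' = div0 c0 x q := by
  classical
  rcases x with p | p
  · show (Finsupp.single (twistPt0 (trivAction c0 (A ≃ₐ[W] A)) (algSemi c0 A) τ p.1) (1 : ℤ)) q' =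
      (Finsupp.single p.1 (1 : ℤ)) q
    rw [Finsupp.single_apply, Finsupp.single_apply]
    have hiff : twistPt0 (trivAction c0 (A ≃ₐ[W] A)) (algSemi c0 A) τ p.1 = q' ↔ p.1 = q := by
      constructor
      · intro h
        ext b
        apply τ.injective
        rw [← hq b, ← h]
        rfl
      · rintro rfl
        ext b
        rw [hq b]
        rfl
    by_cases hp : p.1 = q
    · rw [if_pos hp, if_pos (hiff.2 hp)]
    · rw [if_neg hp, if_neg (fun h => hp (hiff.1 h))]
  · rfl

theorem div1_twistIdx (τ : A ≃ₐ[W] A) (x : PtIdx c0 A) (q q' : B1 →ₐ[W] A)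
    (hq : ∀ b, q' b = τ (q b)) : div1 c0 (twistIdx c0 τ x) q' = div1 c0 x q := by
  classical
  rcases x with p | p
  · rfl
  · show (Finsupp.single (twistPt1 (trivAction c0 (A ≃ₐ[W] A)) (algSemi c0 A) τ p.1) (1 : ℤ)) q' =
      (Finsupp.single p.1 (1 : ℤ)) q
    rw [Finsupp.single_apply, Finsupp.single_apply]
    have hiff : twistPt1 (trivAction c0 (A ≃ₐ[W] A)) (algSemi c0 A) τ p.1 = q' ↔ p.1 = q := by
      constructor
      · intro h
        ext b
        apply τ.injective
        rw [← hq b, ← h]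
        rfl
      · rintro rfl
        ext b
        rw [hq b]
        rfl
    by_cases hp : p.1 = q
    · rw [if_pos hp, if_pos (hiff.2 hp)]
    · rw [if_neg hp, if_neg (fun h => hp (hiff.1 h))]

/-- Invariance of the divisor of a stable multiset (chart 0). -/
theorem msDiv0_stable (τ : A ≃ₐ[W] A) (s : Multiset (PtIdx c0 A))
    (hs : s.map (twistIdx c0 τ) = s) (q q' : B0 →ₐ[W] A) (hq : ∀ b, q' b = τ (q b)) :
    msDiv0 c0 s q' = msDiv0 c0 s q := by
  conv_lhs => rw [← hs]
  exact msDiv0_map_apply c0 s _ q q' fun x => div0_twistIdx c0 τ x q q' hq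

/-- Invariance of the divisor of a stable multiset (chart 1). -/
theorem msDiv1_stable (τ : A ≃ₐ[W] A) (s : Multiset (PtIdx c0 A))
    (hs : s.map (twistIdx c0 τ) = s) (q q' : B1 →ₐ[W] A) (hq : ∀ b, q' b = τ (q b)) :
    msDiv1 c0 s q' = msDiv1 c0 s q := by
  conv_lhs => rw [← hs]
  exact msDiv1_map_apply c0 s _ q q' fun x => div1_twistIdx c0 τ x q q' hq

/-! ### Twists and base change of points -/

theorem twistIdx_bcIdx (A' : Type u) [CommRing A'] [Algebra W A'] [Algebra A A']
    [IsScalarTower W A A'] (γ : A' ≃ₐ[W] A') (τ : A ≃ₐ[W] A)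
    (h : ∀ a : A, γ (algebraMap A A' a) = algebraMap A A' (τ a)) (x : PtIdx c0 A) :
    twistIdx c0 γ (bcIdx c0 A' x) = bcIdx c0 A' (twistIdx c0 τ x) := by
  rcases x with q | q
  · exact congrArg Sum.inl (Subtype.ext (AlgHom.ext fun b => h (q.1 b)))
  · exact congrArg Sum.inr (Subtype.ext (AlgHom.ext fun b => h (q.1 b)))

/-- A multiset of points whose base change is stable is stable (base change being injective). -/
theorem stable_of_bcIdx_stable (A' : Type u) [CommRing A'] [Algebra W A'] [Algebra A A']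
    [IsScalarTower W A A'] (hinj : Function.Injective (algebraMap A A'))
    (γ : A' ≃ₐ[W] A') (τ : A ≃ₐ[W] A)
    (h : ∀ a : A, γ (algebraMap A A' a) = algebraMap A A' (τ a)) (s : Multiset (PtIdx c0 A))
    (hs : (s.map (bcIdx c0 A')).map (twistIdx c0 γ) = s.map (bcIdx c0 A')) :
    s.map (twistIdx c0 τ) = s := by
  apply Multiset.map_injective (DescEff.bcIdx_injective c0 A' hinj)
  rw [← hs, Multiset.map_map, Multiset.map_map]
  exact Multiset.map_congr rfl fun x _ => (twistIdx_bcIdx c0 A' γ τ h x).symm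

end General

/-! ### Invertibility of point ideals over Dedekind charts -/

/-- Over a field `A`, if `A ⊗[W] B` is a Dedekind domain which is not a field, every point ideal
is an invertible module. -/
theorem invertible_ptIdeal_of_isDedekindDomain {W A B : Type u} [CommRing W] [Field A]
    [CommRing B] [Algebra W A] [Algebra W B] [IsDedekindDomain (A ⊗[W] B)]
    (hnf : ¬ IsField (A ⊗[W] B)) (q : B →ₐ[W] A) :
    Module.Invertible (A ⊗[W] B) (ptIdeal q) := by
  apply CurveBaseChange98Point.invertible_of_ne_bot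
  intro hbot
  apply hnf
  have hinj : Function.Injective (ptEval q) :=
    (RingHom.injective_iff_ker_eq_bot (ptEval q)).2 hbot
  exact MulEquiv.isField (Field.toIsField A)
    (RingEquiv.ofBijective (ptEval q) ⟨hinj, ptEval_surjective q⟩).toMulEquiv

/-! ### Descent of `ℚ̄`-points to a finite normal subfield -/

section Descend

variable {W : Type} [CommRing W] [Algebra W Qbar]

section OnePoint

variable {B : Type} [CommRing B] [Algebra W B]
  (N' : IntermediateField ℚ Qbar) [Algebra W N'] [IsScalarTower W N' Qbar]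

/-- A point with values in the intermediate field `N'` descends to `N'`. -/
noncomputable def descPt (q : B →ₐ[W] Qbar) (h : ∀ b, q b ∈ N') : B →ₐ[W] N' where
  toFun b := ⟨q b, h b⟩
  map_one' := Subtype.ext (map_one q)
  map_mul' a b := Subtype.ext (map_mul q a b)
  map_zero' := Subtype.ext (map_zero q)
  map_add' a b := Subtype.ext (map_add q a b)
  commutes' w := Subtype.ext (by
    show q (algebraMap W B w) = algebraMap N' Qbar (algebraMap W N' w)
    rw [q.commutes, ← IsScalarTower.algebraMap_apply])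

theorem ptComp_descPt (q : B →ₐ[W] Qbar) (h : ∀ b, q b ∈ N') :
    ptComp Qbar (descPt N' q h) = q :=
  AlgHom.ext fun _ => rfl

end OnePoint

variable {B0 B1 B01 : Type} [CommRing B0] [CommRing B1] [CommRing B01]
  [Algebra W B0] [Algebra W B1] [Algebra W B01] [Algebra B0 B01] [Algebra B1 B01]
  [IsScalarTower W B0 B01] [IsScalarTower W B1 B01]
  (c0 : TwoChart W B0 B1 B01)

/-- The point index has all its values in `N'`. -/
def DefinedOver (N' : IntermediateField ℚ Qbar) : PtIdx c0 Qbar → Prop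
  | Sum.inl q => ∀ b, q.1 b ∈ N'
  | Sum.inr q => ∀ b, q.1 b ∈ N'

/-- Descent of a point index defined over `N'`. -/
noncomputable def descIdx (N' : IntermediateField ℚ Qbar) [Algebra W N'] [IsScalarTower W N' Qbar]
    (hinv0 : ∀ q : B0 →ₐ[W] N', Module.Invertible (N' ⊗[W] B0) (ptIdeal q))
    (hinv1 : ∀ q : B1 →ₐ[W] N', Module.Invertible (N' ⊗[W] B1) (ptIdeal q)) :
    (x : PtIdx c0 Qbar) → DefinedOver c0 N' x → PtIdx c0 N'
  | Sum.inl q, h => Sum.inl ⟨descPt N' q.1 h, hinv0 _⟩
  | Sum.inr q, h => Sum.inr ⟨descPt N' q.1 h, hinv1 _⟩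

theorem bcIdx_descIdx (N' : IntermediateField ℚ Qbar) [Algebra W N'] [IsScalarTower W N' Qbar]
    (hinv0 : ∀ q : B0 →ₐ[W] N', Module.Invertible (N' ⊗[W] B0) (ptIdeal q))
    (hinv1 : ∀ q : B1 →ₐ[W] N', Module.Invertible (N' ⊗[W] B1) (ptIdeal q))
    (x : PtIdx c0 Qbar) (h : DefinedOver c0 N' x) :
    bcIdx c0 Qbar (descIdx c0 N' hinv0 hinv1 x h) = x := by
  rcases x with q | q
  · exact congrArg Sum.inl (Subtype.ext (ptComp_descPt N' q.1 h))
  · exact congrArg Sum.inr (Subtype.ext (ptComp_descPt N' q.1 h))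

/-- Every multiset of `ℚ̄`-points is defined over a finite normal extension of a given number
field containing the constants. -/
theorem exists_field_definedOver [Algebra.FiniteType W B0] [Algebra.FiniteType W B1]
    (N : IntermediateField ℚ Qbar) [FiniteDimensional ℚ N]
    (hW : ∀ w : W, algebraMap W Qbar w ∈ N) (s : Multiset (PtIdx c0 Qbar)) :
    ∃ N' : IntermediateField ℚ Qbar, FiniteDimensional ℚ N' ∧ Normal ℚ N' ∧ N ≤ N' ∧
      ∀ x ∈ s, DefinedOver c0 N' x := by
  classical
  have hT : ∀ x : PtIdx c0 Qbar, ∃ T : Finset Qbar, ∀ L : IntermediateField ℚ Qbar,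
      (∀ w : W, algebraMap W Qbar w ∈ L) → (∀ t ∈ T, t ∈ L) → DefinedOver c0 L x := by
    rintro (q | q)
    · obtain ⟨T, hT⟩ := Fermat.Agent.T1.Centres94.FieldChoice.exists_finset_values q.1
      exact ⟨T, fun L hWL hTL => hT L.toSubfield hWL hTL⟩
    · obtain ⟨T, hT⟩ := Fermat.Agent.T1.Centres94.FieldChoice.exists_finset_values q.1
      exact ⟨T, fun L hWL hTL => hT L.toSubfield hWL hTL⟩
  choose T hT using hT
  obtain ⟨N', hfd, hnorm, hle, hmem⟩ :=
    Fermat.Agent.T1.Centres94.FieldChoice.exists_normal_field N (s.toFinset.biUnion T)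
  refine ⟨N', hfd, hnorm, hle, fun x hx => hT x N' (fun w => hle (hW w)) fun t ht => ?_⟩
  exact hmem t (Finset.mem_biUnion.2 ⟨x, Multiset.mem_toFinset.2 hx, ht⟩)

end Descend

/-! ### The inertia group acting `A ∩ K`-linearly -/

section NumberField

variable (A : ValuationSubring Qbar) {K : IntermediateField ℚ Qbar}

/-- The restriction to a normal `N ⊇ K` of an automorphism of `ℚ̄` fixing `K` pointwise, as an
`A ∩ K`-algebra automorphism. -/
noncomputable def resW {N : IntermediateField ℚ Qbar} [Normal ℚ N] (hle : K ≤ N) (τ : Qbar ≃ₐ[ℚ] Qbar)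
    (hτ : ∀ x ∈ K, τ x = x) :
    letI := algAKL A hle
    ↥N ≃ₐ[AK A K] ↥N :=
  letI := algAKL A hle
  AlgEquiv.ofRingEquiv (f := (resL N τ).toRingEquiv) fun w => by
    apply jL_injective
    show jL N (resL N τ (algebraMap (AK A K) N w)) = jL N (algebraMap (AK A K) N w)
    rw [jL_resL]
    exact hτ _ (w : K).2

theorem resW_apply {N : IntermediateField ℚ Qbar} [Normal ℚ N] (hle : K ≤ N)
    (τ : Qbar ≃ₐ[ℚ] Qbar) (hτ : ∀ x ∈ K, τ x = x) (x : N) :
    letI := algAKL A hle
    resW A hle τ hτ x = resL N τ x := rfl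

/-- An automorphism of `ℚ̄` fixing `K` pointwise, as an `A ∩ K`-algebra automorphism. -/
noncomputable def galW (τ : Qbar ≃ₐ[ℚ] Qbar) (hτ : ∀ x ∈ K, τ x = x) : Qbar ≃ₐ[AK A K] Qbar :=
  AlgEquiv.ofRingEquiv (f := τ.toRingEquiv) fun w => hτ _ (w : K).2

theorem galW_apply (τ : Qbar ≃ₐ[ℚ] Qbar) (hτ : ∀ x ∈ K, τ x = x) (x : Qbar) :
    galW A τ hτ x = τ x := rfl

variable (hK : ∀ τ ∈ A.inertiaSubgroupIn ℚ, ∀ x ∈ K, τ x = x)
  (N : IntermediateField ℚ Qbar) [Normal ℚ N] (hle : K ≤ N)

/-- The inertia group acting on `N`. -/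
noncomputable def inertiaHom :
    letI := algAKL A hle
    (A.inertiaSubgroupIn ℚ) →* (↥N ≃ₐ[AK A K] ↥N) :=
  letI := algAKL A hle
  { toFun := fun τ => resW A hle τ.1 (hK τ.1 τ.2)
    map_one' := AlgEquiv.ext fun x => by
      apply jL_injective
      show jL N (resL N 1 x) = jL N x
      rw [jL_resL]
      rfl
    map_mul' := fun σ τ => AlgEquiv.ext fun x => by
      apply jL_injective
      show jL N (resL N (σ.1 * τ.1) x) = jL N (resL N σ.1 (resL N τ.1 x))
      rw [jL_resL, jL_resL, jL_resL]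
      rfl }

/-- **The image of the inertia group in `Aut_{A ∩ K}(N)`.** -/
noncomputable def inertiaImage :
    letI := algAKL A hle
    Subgroup (↥N ≃ₐ[AK A K] ↥N) :=
  letI := algAKL A hle
  (inertiaHom A hK N hle).range

theorem resW_mem_inertiaImage (τ : Qbar ≃ₐ[ℚ] Qbar) (hτ : τ ∈ A.inertiaSubgroupIn ℚ) :
    resW A hle τ (hK τ hτ) ∈ inertiaImage A hK N hle :=
  ⟨⟨τ, hτ⟩, rfl⟩

theorem finite_algEquiv [FiniteDimensional ℚ N] :
    letI := algAKL A hle
    Finite (↥N ≃ₐ[AK A K] ↥N) := by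
  letI := algAKL A hle
  refine Finite.of_injective
    (fun e : ↥N ≃ₐ[AK A K] ↥N => (e.toRingEquiv.toRatAlgEquiv : ↥N ≃ₐ[ℚ] ↥N)) ?_
  intro e e' h
  exact AlgEquiv.ext fun x => DFunLike.congr_fun h x

theorem finite_inertiaImage [FiniteDimensional ℚ N] : Finite (inertiaImage A hK N hle) := by
  letI := algAKL A hle
  haveI := finite_algEquiv A N hle
  exact Subtype.finite

variable {B0 B1 B01 : Type} [CommRing B0] [CommRing B1] [CommRing B01]
  [Algebra (AK A K) B0] [Algebra (AK A K) B1] [Algebra (AK A K) B01] [Algebra B0 B01]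
  [Algebra B1 B01] [IsScalarTower (AK A K) B0 B01] [IsScalarTower (AK A K) B1 B01]

/-- **The bridge**: `DescAt` follows from `DescStatement` at `L = ↥N`, `Ω = ℚ̄`, `G` the image of
the inertia group, given that the point ideals over the finite normal extensions of `N` are
invertible. -/
theorem descAt_of_descStatement (c0 : TwoChart (AK A K) B0 B1 B01)
    [Algebra.FiniteType (AK A K) B0] [Algebra.FiniteType (AK A K) B1]
    [FiniteDimensional ℚ N]
    (hinv0 : ∀ (N' : IntermediateField ℚ Qbar) (_ : FiniteDimensional ℚ N') (_ : Normal ℚ N')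
      (hN : N ≤ N'),
      letI := algAKL A (hle.trans hN)
      ∀ q : B0 →ₐ[AK A K] ↥N', Module.Invertible (↥N' ⊗[AK A K] B0) (ptIdeal q))
    (hinv1 : ∀ (N' : IntermediateField ℚ Qbar) (_ : FiniteDimensional ℚ N') (_ : Normal ℚ N')
      (hN : N ≤ N'),
      letI := algAKL A (hle.trans hN)
      ∀ q : B1 →ₐ[AK A K] ↥N', Module.Invertible (↥N' ⊗[AK A K] B1) (ptIdeal q))
    (hdesc :
      letI := algAKL A hle
      haveI : IsScalarTower (AK A K) ↥N Qbar := IsScalarTower.of_algebraMap_eq' rfl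
      DescStatement c0 ↥N Qbar (inertiaImage A hK N hle)) :
    DescAt A c0 hK N hle := by
  letI := algAKL A hle
  haveI tN : IsScalarTower (AK A K) ↥N Qbar := IsScalarTower.of_algebraMap_eq' rfl
  intro y hy hyinv
  have hG : ∀ τ' ∈ inertiaImage A hK N hle, galPic c0 τ' y = y := by
    rintro _ ⟨τ, rfl⟩
    exact hyinv τ.1 τ.2
  obtain ⟨sP, sN, hcls, hstab, hfin⟩ := hdesc y hy hG
  have hW : ∀ w : AK A K, algebraMap (AK A K) Qbar w ∈ N := fun w => hle (w : K).2
  obtain ⟨N', hfd, hnorm, hN, hdef⟩ := exists_field_definedOver c0 N hW (sP + sN)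
  refine ⟨N', hfd, hnorm, hN, ?_⟩
  letI := algAKL A (hle.trans hN)
  letI := algKL hN
  haveI t1 : IsScalarTower (AK A K) ↥N ↥N' := IsScalarTower.of_algebraMap_eq' rfl
  haveI t2 : IsScalarTower (AK A K) ↥N' Qbar := IsScalarTower.of_algebraMap_eq' rfl
  haveI t3 : IsScalarTower ↥N ↥N' Qbar := IsScalarTower.of_algebraMap_eq' rfl
  have i0 := hinv0 N' hfd hnorm hN
  have i1 := hinv1 N' hfd hnorm hN
  -- the descended multisets
  let sP' : Multiset (PtIdx c0 ↥N') := sP.attach.map fun x =>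
    descIdx c0 N' i0 i1 x.1 (hdef x.1 (Multiset.mem_add.2 (Or.inl x.2)))
  let sN' : Multiset (PtIdx c0 ↥N') := sN.attach.map fun x =>
    descIdx c0 N' i0 i1 x.1 (hdef x.1 (Multiset.mem_add.2 (Or.inr x.2)))
  have hP' : sP'.map (bcIdx c0 Qbar) = sP := by
    show (sP.attach.map _).map (bcIdx c0 Qbar) = sP
    rw [Multiset.map_map]
    conv_rhs => rw [← Multiset.attach_map_val sP]
    exact Multiset.map_congr rfl fun x _ => bcIdx_descIdx c0 N' i0 i1 x.1 _
  have hN' : sN'.map (bcIdx c0 Qbar) = sN := by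
    show (sN.attach.map _).map (bcIdx c0 Qbar) = sN
    rw [Multiset.map_map]
    conv_rhs => rw [← Multiset.attach_map_val sN]
    exact Multiset.map_congr rfl fun x _ => bcIdx_descIdx c0 N' i0 i1 x.1 _
  have hclass := hfin ↥N' sP' sN' hP' hN'
  -- stability at the level `N'`
  have hst : ∀ (τ : Qbar ≃ₐ[ℚ] Qbar) (hτ : τ ∈ A.inertiaSubgroupIn ℚ),
      sP'.map (twistIdx c0 (resW A (hle.trans hN) τ (hK τ hτ))) = sP' ∧
        sN'.map (twistIdx c0 (resW A (hle.trans hN) τ (hK τ hτ))) = sN' := by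
    intro τ hτ
    have h1 := hstab (galW A τ (hK τ hτ)) (resW A hle τ (hK τ hτ))
      (resW_mem_inertiaImage A hK N hle τ hτ) (fun a => (coe_resL N τ a).symm)
    have hcomp : ∀ a : ↥N', galW A τ (hK τ hτ) (algebraMap ↥N' Qbar a) =
        algebraMap ↥N' Qbar (resW A (hle.trans hN) τ (hK τ hτ) a) :=
      fun a => (coe_resL N' τ a).symm
    constructor
    · apply stable_of_bcIdx_stable c0 Qbar (algebraMap ↥N' Qbar).injective _ _ hcomp
      rw [hP']
      exact h1.1
    · apply stable_of_bcIdx_stable c0 Qbar (algebraMap ↥N' Qbar).injective _ _ hcomp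
      rw [hN']
      exact h1.2
  refine ⟨msDiv0 c0 sP' - msDiv0 c0 sN', msDiv1 c0 sP' - msDiv1 c0 sN', ?_, ?_, ?_⟩
  · intro τ hτ q
    rw [Finsupp.sub_apply, Finsupp.sub_apply,
      msDiv0_stable c0 _ sP' (hst τ hτ).1 q _ (fun _ => rfl),
      msDiv0_stable c0 _ sN' (hst τ hτ).2 q _ (fun _ => rfl)]
  · intro τ hτ q
    rw [Finsupp.sub_apply, Finsupp.sub_apply,
      msDiv1_stable c0 _ sP' (hst τ hτ).1 q _ (fun _ => rfl),
      msDiv1_stable c0 _ sN' (hst τ hτ).2 q _ (fun _ => rfl)]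
  · rw [divClass_sub, divClass_msDiv, divClass_msDiv]
    exact hclass

end NumberField

end Fermat.Agent.T1B.Desc8.DescAt
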