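/-
T1B (row 38), brick Phi4 DESC' (owner helper1), slice HUB GLUE, file 6 (helper8):
`Node45.DescIface.DescAt` FROM THE GENERIC-FIBRE HYPOTHESES ON THE HUB
(= `Desc1.Final.descStatement` at `L = ↥N`, `Ω = ℚ̄`, `G` = image of inertia, composed with the
bridge `Desc8.DescAt.descAt_of_descStatement`).
-/
import Mathlib
import Fermat.Agent.T1B.Desc1.Final
import Fermat.Agent.T1B.Desc8.DescAt

set_option autoImplicit false
set_option linter.unusedSectionVars false
set_option linter.style.haveILetI false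

open TensorProduct

namespace Fermat.Agent.T1B.Desc8.DescAtFinal

open Fermat.Agent.Jac Fermat.Agent.Jac.JSmooth85Alg Fermat.Agent.Jac.JGroup85Pic
open Fermat.Agent.Jac.BaseChange75 Fermat.Agent.Jac.LineOps39 Fermat.Agent.T1.RedIface75
open Fermat.Agent.T1.PtLine75 Fermat.Agent.T1.GalAct44 Fermat.Agent.T1.CentresClass47
open Fermat.Agent.T1.Red68
open Fermat.Agent.T1B.Desc1 Fermat.Agent.T1B.Node45.DescIface Fermat.Agent.T1B.Desc8.DescAt
open Fermat.Agent.T1.HubInst98 Fermat.Agent.RED.Interface4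
open scoped Fermat.Agent.Jac.BaseChange75

variable (A : ValuationSubring Qbar) {K : IntermediateField ℚ Qbar}
  (hK : ∀ τ ∈ A.inertiaSubgroupIn ℚ, ∀ x ∈ K, τ x = x)
  (N : IntermediateField ℚ Qbar) [FiniteDimensional ℚ N] [Normal ℚ N] (hle : K ≤ N)
  {B0 B1 B01 : Type} [CommRing B0] [CommRing B1] [CommRing B01]
  [Algebra (AK A K) B0] [Algebra (AK A K) B1] [Algebra (AK A K) B01] [Algebra B0 B01]
  [Algebra B1 B01] [IsScalarTower (AK A K) B0 B01] [IsScalarTower (AK A K) B1 B01]

/-- **Φ4 DESC′ at the number-field level, from the generic-fibre hypotheses on the hub.**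
`hd*` : the charts of `X_N` are Dedekind domains with a domain as overlap; `hq*` : the same over
`ℚ̄`; `hH0` : global functions on `X_N` are constants; `lc` : a normalisation (leading coefficient
at a rational point) which is equivariant under the inertia group; `hinv*` : the point ideals over
the finite normal extensions of `N` are invertible. -/
theorem descAt_of_hub (c0 : TwoChart (AK A K) B0 B1 B01)
    [Algebra.FiniteType (AK A K) B0] [Algebra.FiniteType (AK A K) B1]
    (hd0 : letI := algAKL A hle; IsDedekindDomain (↥N ⊗[AK A K] B0))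
    (hd1 : letI := algAKL A hle; IsDedekindDomain (↥N ⊗[AK A K] B1))
    (hd01 : letI := algAKL A hle; IsDomain (↥N ⊗[AK A K] B01))
    (hq0 : IsDedekindDomain (Qbar ⊗[AK A K] B0))
    (hq1 : IsDedekindDomain (Qbar ⊗[AK A K] B1))
    (hq01 : IsDomain (Qbar ⊗[AK A K] B01))
    (hH0 : letI := algAKL A hle; H0Const (c0.baseChange ↥N))
    (lc : letI := algAKL A hle; (↥N ⊗[AK A K] B01) →*₀ ↥N)
    (hlc0 : letI := algAKL A hle; ∀ x, x ≠ 0 → lc x ≠ 0)
    (hlcL : letI := algAKL A hle; ∀ a : ↥N, lc (a ⊗ₜ[AK A K] (1 : B01)) = a)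
    (hlcG : letI := algAKL A hle;
      ∀ (τ : Qbar ≃ₐ[ℚ] Qbar) (hτ : τ ∈ A.inertiaSubgroupIn ℚ) (x : ↥N ⊗[AK A K] B01),
        lc (galTensorHom (resW A hle τ (hK τ hτ)) B01 x) = resL N τ (lc x))
    (hinv0 : ∀ (N' : IntermediateField ℚ Qbar) (_ : FiniteDimensional ℚ N') (_ : Normal ℚ N')
      (hN : N ≤ N'),
      letI := algAKL A (hle.trans hN)
      ∀ q : B0 →ₐ[AK A K] ↥N', Module.Invertible (↥N' ⊗[AK A K] B0) (ptIdeal q))
    (hinv1 : ∀ (N' : IntermediateField ℚ Qbar) (_ : FiniteDimensional ℚ N') (_ : Normal ℚ N')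
      (hN : N ≤ N'),
      letI := algAKL A (hle.trans hN)
      ∀ q : B1 →ₐ[AK A K] ↥N', Module.Invertible (↥N' ⊗[AK A K] B1) (ptIdeal q)) :
    DescAt A c0 hK N hle := by
  letI := algAKL A hle
  haveI tN : IsScalarTower (AK A K) ↥N Qbar := IsScalarTower.of_algebraMap_eq' rfl
  haveI := hd0
  haveI := hd1
  haveI := hd01
  haveI := hq0
  haveI := hq1
  haveI := hq01
  haveI : Finite (inertiaImage A hK N hle) := finite_inertiaImage A hK N hle
  haveI : IsAlgClosed Qbar := inferInstance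
  refine descAt_of_descStatement A hK N hle c0 hinv0 hinv1 ?_
  refine Final.descStatement c0 ↥N Qbar hH0 (inertiaImage A hK N hle) lc hlc0 hlcL ?_
  rintro _ ⟨τ, rfl⟩ x
  exact hlcG τ.1 τ.2 x

end Fermat.Agent.T1B.Desc8.DescAtFinal
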