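/-
T1B (row 38), brick Phi4 DESC' (owner helper1), slice HUB GLUE, file 7 (helper8):
`Node45.DescIface.DescAt` FROM BASE-LEVEL HYPOTHESES ON THE HUB.

Compared with `Desc8/DescAtFinal.descAt_of_hub`, the Dedekind hypotheses over `↥N`, over `ℚ̄` and
the invertibility of the point ideals over all finite normal `N' ⊇ N` are replaced by:
`K ⊗[W] B_j` Dedekind and not a field (base level `K = Frac W`), `B_j → B01` injective, and
`L ⊗[W] B01` a domain for `L = ↥N'` (all finite normal `N' ⊇ N`) and `L = ℚ̄`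
(`DescGen8.Chart` = directed unions + helper1's separable base change).
-/
import Mathlib
import Fermat.Agent.T1B.Desc8.DescAtFinal
import Fermat.Agent.T1B.DescGen8.Chart

set_option autoImplicit false
set_option linter.unusedSectionVars false
set_option linter.style.haveILetI false

open TensorProduct

namespace Fermat.Agent.T1B.Desc8.DescAtBase

open Fermat.Agent.Jac Fermat.Agent.Jac.JSmooth85Alg Fermat.Agent.Jac.JGroup85Pic
open Fermat.Agent.Jac.BaseChange75 Fermat.Agent.Jac.LineOps39 Fermat.Agent.T1.RedIface75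
open Fermat.Agent.T1.PtLine75 Fermat.Agent.T1.GalAct44 Fermat.Agent.T1.CentresClass47
open Fermat.Agent.T1.Red68
open Fermat.Agent.T1B.Desc1 Fermat.Agent.T1B.Node45.DescIface Fermat.Agent.T1B.Desc8.DescAt
open Fermat.Agent.T1.HubInst98 Fermat.Agent.RED.Interface4
open scoped Fermat.Agent.Jac.BaseChange75

variable (A : ValuationSubring Qbar) {K : IntermediateField ℚ Qbar}

/-- `ℚ̄` is algebraic over `K`. -/
theorem isAlgebraic_Qbar : Algebra.IsAlgebraic ↥K Qbar :=
  haveI : Algebra.IsAlgebraic ℚ Qbar := AlgebraicClosure.isAlgebraic ℚ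
  Algebra.IsAlgebraic.tower_top (K := ℚ) ↥K

/-- An intermediate field `N ⊇ K` is algebraic over `K`. -/
theorem isAlgebraic_of_le {N : IntermediateField ℚ Qbar} (hle : K ≤ N) :
    letI := algKL hle
    Algebra.IsAlgebraic ↥K ↥N := by
  letI := algKL hle
  haveI : IsScalarTower ↥K ↥N Qbar := IsScalarTower.of_algebraMap_eq' rfl
  haveI := isAlgebraic_Qbar (K := K)
  refine ⟨fun x => ?_⟩
  have h : IsAlgebraic ↥K (algebraMap ↥N Qbar x) := Algebra.IsAlgebraic.isAlgebraic _
  exact (isAlgebraic_algebraMap_iff (algebraMap ↥N Qbar).injective).1 h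

variable {B0 B1 B01 : Type} [CommRing B0] [CommRing B1] [CommRing B01]
  [Algebra (AK A K) B0] [Algebra (AK A K) B1] [Algebra (AK A K) B01] [Algebra B0 B01]
  [Algebra B1 B01] [IsScalarTower (AK A K) B0 B01] [IsScalarTower (AK A K) B1 B01]

/-- The charts over a field `N ⊇ K` inside `ℚ̄` are Dedekind, and their point ideals are
invertible. -/
theorem chart_facts {N : IntermediateField ℚ Qbar} (hle : K ≤ N) {B : Type} [CommRing B]
    [Algebra (AK A K) B] [Algebra B B01] [IsScalarTower (AK A K) B B01]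
    [Algebra.FiniteType (AK A K) B]
    (hdK : IsDedekindDomain (↥K ⊗[AK A K] B)) (hnf : ¬ IsField (↥K ⊗[AK A K] B))
    (hinj : Function.Injective (algebraMap B B01))
    (hdom : letI := algAKL A hle; IsDomain (↥N ⊗[AK A K] B01)) :
    letI := algAKL A hle
    IsDedekindDomain (↥N ⊗[AK A K] B) ∧
      ∀ q : B →ₐ[AK A K] ↥N, Module.Invertible (↥N ⊗[AK A K] B) (ptIdeal q) := by
  letI := algAKL A hle
  letI := algKL hle
  haveI : IsScalarTower (AK A K) ↥K ↥N := isScalarTower_AK_K A hle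
  haveI := isAlgebraic_of_le hle
  haveI := hdK
  haveI := hdom
  have hD : IsDedekindDomain (↥N ⊗[AK A K] B) :=
    DescGen8.Chart.isDedekindDomain_chart (W := AK A K) (L := ↥N) (B := B) (B01 := B01) ↥K hinj
  have hF : ¬ IsField (↥N ⊗[AK A K] B) :=
    DescGen8.Chart.not_isField_chart (W := AK A K) (L := ↥N) (B := B) (B01 := B01) ↥K hinj hnf
  haveI := hD
  exact ⟨hD, fun q => invertible_ptIdeal_of_isDedekindDomain hF q⟩

/-- The charts over `ℚ̄` are Dedekind. -/
theorem chart_facts_Qbar {B : Type} [CommRing B]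
    [Algebra (AK A K) B] [Algebra B B01] [IsScalarTower (AK A K) B B01]
    [Algebra.FiniteType (AK A K) B]
    (hdK : IsDedekindDomain (↥K ⊗[AK A K] B))
    (hinj : Function.Injective (algebraMap B B01))
    (hdom : IsDomain (Qbar ⊗[AK A K] B01)) :
    IsDedekindDomain (Qbar ⊗[AK A K] B) := by
  haveI : IsScalarTower (AK A K) ↥K Qbar := IsScalarTower.of_algebraMap_eq' rfl
  haveI := isAlgebraic_Qbar (K := K)
  haveI := hdK
  haveI := hdom
  exact DescGen8.Chart.isDedekindDomain_chart (W := AK A K) (L := Qbar) (B := B) (B01 := B01)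
    ↥K hinj

variable (hK : ∀ τ ∈ A.inertiaSubgroupIn ℚ, ∀ x ∈ K, τ x = x)
  (N : IntermediateField ℚ Qbar) [FiniteDimensional ℚ N] [Normal ℚ N] (hle : K ≤ N)

/-- **Φ4 DESC′ at the number-field level, from base-level hypotheses on the hub.** -/
theorem descAt_of_base (c0 : TwoChart (AK A K) B0 B1 B01)
    [Algebra.FiniteType (AK A K) B0] [Algebra.FiniteType (AK A K) B1]
    (hd0K : IsDedekindDomain (↥K ⊗[AK A K] B0)) (hd1K : IsDedekindDomain (↥K ⊗[AK A K] B1))
    (hnf0 : ¬ IsField (↥K ⊗[AK A K] B0)) (hnf1 : ¬ IsField (↥K ⊗[AK A K] B1))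
    (hinj0 : Function.Injective (algebraMap B0 B01))
    (hinj1 : Function.Injective (algebraMap B1 B01))
    (hdom : ∀ (N' : IntermediateField ℚ Qbar) (_ : FiniteDimensional ℚ N') (_ : Normal ℚ N')
      (hN : N ≤ N'),
      letI := algAKL A (hle.trans hN)
      IsDomain (↥N' ⊗[AK A K] B01))
    (hdomQ : IsDomain (Qbar ⊗[AK A K] B01))
    (hH0 : letI := algAKL A hle; H0Const (c0.baseChange ↥N))
    (lc : letI := algAKL A hle; (↥N ⊗[AK A K] B01) →*₀ ↥N)
    (hlc0 : letI := algAKL A hle; ∀ x, x ≠ 0 → lc x ≠ 0)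
    (hlcL : letI := algAKL A hle; ∀ a : ↥N, lc (a ⊗ₜ[AK A K] (1 : B01)) = a)
    (hlcG : letI := algAKL A hle;
      ∀ (τ : Qbar ≃ₐ[ℚ] Qbar) (hτ : τ ∈ A.inertiaSubgroupIn ℚ) (x : ↥N ⊗[AK A K] B01),
        lc (galTensorHom (resW A hle τ (hK τ hτ)) B01 x) = resL N τ (lc x)) :
    DescAt A c0 hK N hle := by
  have hNN : IsDomain (@TensorProduct (AK A K) _ ↥N B01 _ _ (algAKL A hle).toModule _) :=
    hdom N inferInstance inferInstance le_rfl
  refine DescAtFinal.descAt_of_hub A hK N hle c0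
    (chart_facts A hle hd0K hnf0 hinj0 hNN).1 (chart_facts A hle hd1K hnf1 hinj1 hNN).1 hNN
    (chart_facts_Qbar A hd0K hinj0 hdomQ) (chart_facts_Qbar A hd1K hinj1 hdomQ) hdomQ
    hH0 lc hlc0 hlcL hlcG ?_ ?_
  · intro N' hfd hnorm hN
    exact (chart_facts A (hle.trans hN) hd0K hnf0 hinj0 (hdom N' hfd hnorm hN)).2
  · intro N' hfd hnorm hN
    exact (chart_facts A (hle.trans hN) hd1K hnf1 hinj1 (hdom N' hfd hnorm hN)).2

end Fermat.Agent.T1B.Desc8.DescAtBase
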