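/-
T1B (row 38), brick Phi4 DESC' (owner helper1), slice HUB GLUE, file 10 (helper8):
THE CONCRETE INSTANCE of `Node45.DescIface.DescAt` for the hub chart
`NodalFacts23.nodalChart D.model` of Program N's nodal model
(`R = AK A K`, `F = FK (M' q) K ⊂ K((q))`, `O1`, `O2` the Gauss valuation rings at the two cusps).

Inputs left: `IsGen ↥K t` (`t` a generator of the function field over `K`) and `fin1` (chart 1 is a
finite `R[t⁻¹]`-module).  Everything else is discharged by helper1's `DescSep1.descAt_hub`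
(Dedekind charts over all levels, normalisation from the `q`-expansion) and helper30's
`NodalCoh30.concrete_h0Const`.
-/
import Mathlib
import Fermat.Agent.T1B.DescSep1.NodalModel
import Fermat.Agent.T1B.NodalCoh30.Concrete
import Fermat.Agent.T1.Centres94.OfModel

set_option autoImplicit false
set_option linter.unusedSectionVars false
set_option linter.style.haveILetI false

noncomputable section

open TensorProduct Polynomial

namespace Fermat.Agent.T1B.Desc8.DescAtNodal

open HahnSeries Fermat.Agent.RED.Interface4 Fermat.Agent.RED.PUR.GaussGen8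
  Fermat.Agent.ES.N34.ModelDefs9 Fermat.Agent.T1.ModelCoh30
  Fermat.Agent.ES.N34.NumData13 Fermat.Agent.ES.N34.NodalCore13
  Fermat.Agent.T1.Coh60 Fermat.Agent.T1B.NodalFacts23
  Fermat.Agent.Jac Fermat.Agent.Jac.BaseChange75
  Fermat.Agent.T1B.Node45.DescIface Fermat.Agent.T1.HubInst98 Fermat.Agent.X0.FF
open scoped Fermat.Agent.Jac.BaseChange75

variable {A : ValuationSubring Qbar} {K : IntermediateField ℚ Qbar} (M' q : ℕ) [NeZero M']
  [NeZero q]

attribute [local instance] Fermat.Agent.RED.NumInst4.isScalarTower_OE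

/-- **Φ4 DESC′ for the concrete nodal hub.** -/
theorem descAt_nodal {π : ↥(AK A K)} (hπ : IsUnif (AK A K) π)
    (hE : FK (M' * q) K ≤ fracField (AK A K)) {t : ↥(FK (M' * q) K)}
    {B0 B1 : Subalgebra ↥(AK A K) ↥(FK (M' * q) K)}
    (D : NodalNumData ↥(AK A K) ↥K ↥(FK (M' * q) K) π t B0 B1 (O1 M' q hπ hE) (O2 M' q hπ hE))
    (fin1 : ∃ (r : ℕ) (e : Fin r → ↥(FK (M' * q) K)), (∀ i, e i ∈ B1) ∧
      ∀ x ∈ B1, ∃ P : Fin r → (↥(AK A K))[X], x = ∑ i, aeval t⁻¹ (P i) * e i)
    (ht : IsGen ↥K t)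
    (hK : ∀ τ ∈ A.inertiaSubgroupIn ℚ, ∀ x ∈ K, τ x = x)
    (N : IntermediateField ℚ Qbar) [FiniteDimensional ℚ N] [Normal ℚ N] (hle : K ≤ N) :
    letI := algebra0 B0 B1
    letI := algebra1 B0 B1
    haveI := isScalarTower0 B0 B1
    haveI := isScalarTower1 B0 B1
    DescAt A (nodalChart D.model) hK N hle := by
  letI := algebra0 B0 B1
  letI := algebra1 B0 B1
  haveI := isScalarTower0 B0 B1
  haveI := isScalarTower1 B0 B1
  haveI : Algebra.FiniteType ↥(AK A K) ↥B0 :=
    Fermat.Agent.T1.Centres94.OfModel.finiteType_of_fin D.model.t_mem D.model.fin0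
  haveI : Algebra.FiniteType ↥(AK A K) ↥B1 :=
    Fermat.Agent.T1.Centres94.OfModel.finiteType_of_fin D.model.tinv_mem fin1
  have he : ∀ c : ↥K, (FK (M' * q) K).val.toRingHom (algebraMap ↥K ↥(FK (M' * q) K) c) =
      HahnSeries.C c := by
    intro c
    show algebraMap ↥K (LaurentSeries ↥K) c = HahnSeries.C c
    rw [ModularCurve.algebraMap_laurentSeries_eq_single, HahnSeries.C_apply]
  refine Fermat.Agent.T1B.DescSep1.descAt_nodalModel A hK N hle
    (F := ↥(FK (M' * q) K)) ((FK (M' * q) K).val.toRingHom) he Subtype.val_injective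
    D.model ht ?_
  letI := algAKL A hle
  exact Fermat.Agent.T1B.NodalCoh30.concrete_h0Const hπ hE D ↥N

end Fermat.Agent.T1B.Desc8.DescAtNodal
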