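/-
T1B (row 38), brick Phi7 (helper45's report 1166), slice DESC AT THE p-ADIC LEVELS, file 2 (helper8):
THE HAUPTMODUL OF THE BAD LEVEL IS A TRANSCENDENTAL GENERATOR.

* `isGen_tN` : `X0.FF.IsGen ↥K (ModelDefs9.tN q ht)` (`tN q ht` transcendental over `K`,
  `FK (M' q) K` finite over `K(tN)`), at ONE number field `K`, from the leaf hypotheses `ht`, `hJ` of
  `ES/P36/ChartTorsion26.hfin_at`;
* `isGen_tS H` : the instance at the concrete hub of `Hub9` (`tS H`, `H : HubParams p M' K`).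
-/
import Mathlib
import Fermat.Agent.ES.P36.ChartTorsion26
import Fermat.Agent.ES.P36.CoeffField4
import Fermat.Agent.T1B.Hub9.Base

set_option autoImplicit false
set_option linter.unusedSectionVars false
set_option linter.style.haveILetI false

noncomputable section

open HahnSeries ModularCurve IntermediateField

namespace Fermat.Agent.T1B.Desc8.IsGenHub

open Fermat.Agent.RED.PUR.ChartGeneric22 Fermat.Agent.RED.ChartTransfer3
  Fermat.Agent.RED.ChartTransferInst3 Fermat.Agent.RED.PUR.IntClosBase13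
open Fermat.Agent.RED.PUR.GaussGen8 Fermat.Agent.RED.PUR.KtGauss8
  Fermat.Agent.RED.PUR.G1Package8 Fermat.Agent.RED.NumInst4 Fermat.Agent.RED.ModelAsm4
open Fermat.Agent.RED.Interface4
  Fermat.Agent.RED.ModelTargets4 Fermat.Agent.RED.BASE.EtaQuot12 Fermat.Agent.X0
  Fermat.Agent.RED.DESC.NumberFieldDVR27 Fermat.Agent.RED.ModelMain4
  Fermat.Agent.RED.BASE.Interface12
  Fermat.Agent.ES.N34.NodalCore13 Fermat.Agent.ES.N34.ChartN26 Fermat.Agent.ES.N34.ModelDefs9
open Fermat.Agent.X0.FF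

variable {n e M' : ℕ} [NeZero n] [NeZero M'] (q : ℕ) [NeZero q] {A : ValuationSubring Qbar}

/-- **`tN q ht` is a transcendental generator of `FK (M' q) K` over `K`.** -/
theorem isGen_tN {ℓ : ℕ} (hℓ : ℓ.Prime) (hA : A.LiesOverPrime ℓ)
    (K : IntermediateField ℚ Qbar) [FiniteDimensional ℚ K]
    (ht : tq (↥K) n e ∈ FK M' K)
    (hJ : jqModC K ∈ IntermediateField.adjoin K {tq (↥K) n e}) :
    IsGen ↥K (tN q ht) := by
  haveI hdvr : IsDiscreteValuationRing ↥(AK A K) := isDiscreteValuationRing_AK A K hℓ.ne_zero hA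
  obtain ⟨ϖ, hϖ⟩ := IsDiscreteValuationRing.exists_irreducible ↥(AK A K)
  have htq : ((tN q ht : ↥(FK (M' * q) K)) : LaurentSeries K) = tq (↥K) n e := coe_tN q ht
  have htG : ((tN q ht : ↥(FK (M' * q) K)) : LaurentSeries K) ∈ gaussRing (AK A K) := by
    rw [htq]; exact tq_mem_gaussRing (AK A K) n e
  have h1 : (⟨((tN q ht : ↥(FK (M' * q) K)) : LaurentSeries K), htG⟩ : ↥(gaussRing (AK A K))) =
      ⟨tq (↥K) n e, tq_mem_gaussRing (AK A K) n e⟩ := Subtype.ext htq
  have htr : Transcendental (Res (AK A K))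
      (gaussRed (AK A K) ⟨((tN q ht : ↥(FK (M' * q) K)) : LaurentSeries K), htG⟩) := by
    rw [h1]
    exact transcendental_gaussRed_tq (AK A K) n e
  have hjt : jqModC K ∈ Kt (AK A K) ⟨((tN q ht : ↥(FK (M' * q) K)) : LaurentSeries K), htG⟩ := by
    rw [h1]
    exact hJ
  have : NeZero (M' * q) := ⟨Nat.mul_ne_zero (NeZero.ne M') (NeZero.ne q)⟩
  have hn : relfinrank (Kt (AK A K) ⟨((tN q ht : ↥(FK (M' * q) K)) : LaurentSeries K), htG⟩)
      (FK (M' * q) K) ≠ 0 :=
    relfinrank_ne_zero (AK A K) (M' * q) _ (tN q ht).2 hjt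
  have : IsScalarTower ↥(AK A K) ↥K ↥(FK (M' * q) K) := isScalarTower_OE (AK A K) (FK (M' * q) K)
  exact ⟨transcendental_of_coe (tN q ht)
      (transcendental_t (tG := ⟨((tN q ht : ↥(FK (M' * q) K)) : LaurentSeries K), htG⟩) hϖ htr),
    finiteDimensional_adjoin (tN q ht) hn⟩

section Hub

open Fermat.Agent.T1B.Hub9
open Fermat.Agent.T1.Assembly41.Concrete Fermat.Agent.RED.BASE.Hauptmodul12

variable {p M' : ℕ} [Fact p.Prime] [NeZero p] [NeZero M'] {K : IntermediateField ℚ Qbar}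
  [FiniteDimensional ℚ K]

/-- **The Hauptmodul `tS H` of the concrete hub is a transcendental generator** of `FS p M' K / K`. -/
theorem isGen_tS (H : HubParams p M' K) : IsGen ↥K (tS H) :=
  isGen_tN p H.hp (hA p) K H.htq
    (Fermat.Agent.ES.P36.CoeffField4.j_mem_adjoin 4 8 (tGenBase' baseHyp_four) K)

end Hub

end Fermat.Agent.T1B.Desc8.IsGenHub
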