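/-
T1B (row 38), brick Phi7 (helper45's report 1166), slice DESC AT THE p-ADIC LEVELS, file 1 (helper8):
THE IMAGE OF THE LOCAL INERTIA GROUP IN `Aut_W(E)`.

`E : NLevel p K` a normal finite level of `Local66` (`E.E ⊂ ℚ̄_p` finite over `ℚ_p`, stable under
`G_p`), `W = Wb p K`, `K` inertial (`hK : InertFixed (padicPlace p) K`), `↥E.E` a `W`-algebra through
`algWE E.lev`.

* `galEEquiv hK E τ : ↥E.E ≃ₐ[W] ↥E.E` (`τ ∈ I_p`), `inertiaHomE hK E : I_p →* Aut_W(E)`;
* `GE hK E : Subgroup (↥E.E ≃ₐ[W] ↥E.E)` its image, `finite_GE`;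
* `galPic_inertiaHomE` : the action of `inertiaHomE hK E τ` on `Pic X_E` in the `Desc1` vocabulary
  (`Desc1.galPic`) is `Bridge54.IpInst.gE c0 E hK τ`;
* `galKbarEquiv hK τ : ℚ̄_p ≃ₐ[W] ℚ̄_p` and its compatibility with `galEEquiv`.
-/
import Mathlib
import Fermat.Agent.T1B.Bridge54.IpInst
import Fermat.Agent.T1B.Desc1.Iface

set_option autoImplicit false
set_option linter.unusedSectionVars false
set_option linter.style.haveILetI false

open Fermat.Agent.TW.B5.Iface Fermat.Agent.RED.Interface4 Fermat.Agent.T1.HubInst98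
open Fermat.Agent.T1.IntSub47 Fermat.Agent.Jac Fermat.Agent.T1.RedIface75
open Fermat.Agent.T1B.Local66.LocalBase Fermat.Agent.T1B.Local66.Union
open Fermat.Agent.T1B.Plumb66.Inertia (Ip mem_Ip)
open Fermat.Agent.T1B.Bridge54.IpAction Fermat.Agent.T1B.Bridge54.IpInst
open Fermat.Agent.ES.P36.InertField27 (InertFixed)
open Fermat.Agent.T1B.Desc1

noncomputable section

namespace Fermat.Agent.T1B.Desc8.LevelGroup

variable {p : ℕ} [Fact p.Prime] {K : IntermediateField ℚ Qbar}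
  (hK : InertFixed (padicPlace p) K) (E : NLevel p K)

/-- `τ ∈ I_p` as a ring automorphism of `E`. -/
def galERingEquiv (τ : ↥(Ip p)) : ↥E.E ≃+* ↥E.E :=
  RingEquiv.ofRingHom (galE E.nor (τ : Gp p)) (galE E.nor ((τ : Gp p)⁻¹))
    (RingHom.ext fun y => by
      show galE E.nor (τ : Gp p) (galE E.nor ((τ : Gp p)⁻¹) y) = y
      rw [← galE_mul, mul_inv_cancel, galE_one])
    (RingHom.ext fun y => by
      show galE E.nor ((τ : Gp p)⁻¹) (galE E.nor (τ : Gp p) y) = y
      rw [← galE_mul, inv_mul_cancel, galE_one])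

/-- **`τ ∈ I_p` as a `W`-algebra automorphism of `E`** (`K` inertial). -/
def galEEquiv (τ : ↥(Ip p)) :
    letI := algWE E.lev
    ↥E.E ≃ₐ[Wb p K] ↥E.E :=
  letI := algWE E.lev
  AlgEquiv.ofRingEquiv (f := galERingEquiv E τ) fun w => galE_toE hK E.lev E.nor τ (w : ↥K)

theorem galEEquiv_apply (τ : ↥(Ip p)) (y : ↥E.E) :
    letI := algWE E.lev
    galEEquiv hK E τ y = galE E.nor (τ : Gp p) y := rfl

/-- The inertia group acting on `E`. -/
def inertiaHomE :
    letI := algWE E.lev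
    ↥(Ip p) →* (↥E.E ≃ₐ[Wb p K] ↥E.E) :=
  letI := algWE E.lev
  { toFun := galEEquiv hK E
    map_one' := AlgEquiv.ext fun y => galE_one E.nor y
    map_mul' := fun σ τ => AlgEquiv.ext fun y => galE_mul E.nor (σ : Gp p) (τ : Gp p) y }

theorem inertiaHomE_apply (τ : ↥(Ip p)) (y : ↥E.E) :
    letI := algWE E.lev
    inertiaHomE hK E τ y = galE E.nor (τ : Gp p) y := rfl

/-- **The image of the inertia group in `Aut_W(E)`.** -/
def GE :
    letI := algWE E.lev
    Subgroup (↥E.E ≃ₐ[Wb p K] ↥E.E) :=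
  letI := algWE E.lev
  (inertiaHomE hK E).range

theorem inertiaHomE_mem_GE (τ : ↥(Ip p)) : inertiaHomE hK E τ ∈ GE hK E := ⟨τ, rfl⟩

/-- `galE τ` is `ℚ_p`-linear. -/
theorem galE_algebraMap (τ : Gp p) (r : ℚ_[p]) :
    galE E.nor τ (algebraMap ℚ_[p] ↥E.E r) = algebraMap ℚ_[p] ↥E.E r :=
  Subtype.ext (τ.commutes r)

/-- **`GE` is finite** (`E / ℚ_p` is finite and the elements of `GE` are `ℚ_p`-linear). -/
theorem finite_GE : Finite (GE hK E) := by
  letI := algWE E.lev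
  let f : GE hK E → (↥E.E →ₐ[ℚ_[p]] ↥E.E) := fun g =>
    { toRingHom := ((g.1 : ↥E.E ≃ₐ[Wb p K] ↥E.E) : ↥E.E →+* ↥E.E)
      commutes' := fun r => by
        obtain ⟨τ, hτ⟩ := g.2
        show g.1 (algebraMap ℚ_[p] ↥E.E r) = algebraMap ℚ_[p] ↥E.E r
        rw [← hτ]
        exact galE_algebraMap E (τ : Gp p) r }
  refine Finite.of_injective f ?_
  intro g g' h
  apply Subtype.ext
  exact AlgEquiv.ext fun y => DFunLike.congr_fun h y

/-! ### The action on `Pic X_E` -/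

universe u

variable {B0 B1 B01 : Type} [CommRing B0] [CommRing B1] [CommRing B01]
  [Algebra (Wb p K) B0] [Algebra (Wb p K) B1] [Algebra (Wb p K) B01] [Algebra B0 B01]
  [Algebra B1 B01] [IsScalarTower (Wb p K) B0 B01] [IsScalarTower (Wb p K) B1 B01]
  (c0 : TwoChart (Wb p K) B0 B1 B01)

/-- **The two vocabularies agree**: `Desc1.galPic` of the image of `τ` is `IpInst.gE τ`. -/
theorem galPic_inertiaHomE (τ : ↥(Ip p)) (y : PicE c0 E) :
    letI := algWE E.lev
    galPic c0 (inertiaHomE hK E τ) y = gE c0 E hK τ y := by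
  letI := algWE E.lev
  rfl

/-- A class of `Pic X_E` fixed by the inertia group (in the `IpInst` vocabulary) is fixed by `GE`
(in the `Desc1` vocabulary). -/
theorem galPic_eq_of_gE_eq {y : PicE c0 E} (h : ∀ τ : ↥(Ip p), gE c0 E hK τ y = y) :
    letI := algWE E.lev
    ∀ τ' ∈ GE hK E, galPic c0 τ' y = y := by
  letI := algWE E.lev
  rintro _ ⟨τ, rfl⟩
  rw [galPic_inertiaHomE]
  exact h τ

/-! ### The top level -/

/-- **`τ ∈ I_p` as a `W`-algebra automorphism of `ℚ̄_p`** (`K` inertial). -/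
def galKbarEquiv (τ : ↥(Ip p)) :
    letI := algWKbar p K
    Kbar p ≃ₐ[Wb p K] Kbar p :=
  letI := algWKbar p K
  AlgEquiv.ofRingEquiv (f := ((τ : Gp p) : Kbar p ≃+* Kbar p)) fun w => inertia_iotaW p K hK τ w

theorem galKbarEquiv_apply (τ : ↥(Ip p)) (x : Kbar p) :
    letI := algWKbar p K
    galKbarEquiv hK τ x = (τ : Gp p) x := rfl

/-- `galKbarEquiv τ` induces `inertiaHomE τ` on `E`. -/
theorem galKbarEquiv_algebraMap (τ : ↥(Ip p)) (a : ↥E.E) :
    letI := algWE E.lev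
    letI := algWKbar p K
    galKbarEquiv hK τ (algebraMap ↥E.E (Kbar p) a) =
      algebraMap ↥E.E (Kbar p) (inertiaHomE hK E τ a) := rfl

end Fermat.Agent.T1B.Desc8.LevelGroup
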