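/-
T1B (row 38), brick Phi7 (helper45's report 1166), slice DESC AT THE p-ADIC LEVELS, file 3 (helper8):
**`Desc1.DescStatement` AT THE p-ADIC LEVELS `E ⊂ ℚ̄_p` OF `Local66`**, for the hub chart of Program N's
concrete nodal model over `W = Wb p K = A ∩ K` (`A = padicPlace p`, `K` inertial):

    DescStatement c0 ↥E.E (Kbar p) (GE hK E)        (`E : NLevel p K`)

`GE hK E` = the image of the local inertia group `I_p` in `Aut_W(E)` (`Desc8/LevelGroup.lean`).
Inputs: helper1's `DescSep1.Dvr.descStatement_nodalModel` (arbitrary, NOT necessarily algebraic, fields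
over `K = Frac W`: Theorem T of `DescSep1/Transcendental.lean`) and helper30's
`NodalCoh30.concrete_h0Const` (`H⁰(X_{R'}, O) = R'` for every `W`-algebra `R'`).

* `descStatement_level` : generic in `D : NodalNumData (Wb p K) ↥K ↥(FK (M' q) K) π t B0 B1 O1 O2`
  (only input left: `ht : IsGen ↥K t`);
* **`descStatement_c0S`** : the instance at the concrete hub `c0S H` of `Hub9` (no hypothesis left).
-/
import Mathlib
import Fermat.Agent.T1B.Desc8.LevelGroup
import Fermat.Agent.T1B.Desc8.IsGenHub
import Fermat.Agent.T1B.DescSep1.NodalModelDvr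
import Fermat.Agent.T1B.NodalCoh30.Concrete
import Fermat.Agent.T1B.Hub9.Data

set_option autoImplicit false
set_option linter.unusedSectionVars false
set_option linter.style.haveILetI false

noncomputable section

open TensorProduct

namespace Fermat.Agent.T1B.Desc8.DescLevel

open HahnSeries Fermat.Agent.RED.Interface4 Fermat.Agent.RED.PUR.GaussGen8
  Fermat.Agent.ES.N34.ModelDefs9 Fermat.Agent.T1.ModelCoh30
  Fermat.Agent.ES.N34.NumData13 Fermat.Agent.ES.N34.NodalCore13
  Fermat.Agent.T1.Coh60 Fermat.Agent.T1B.NodalFacts23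
  Fermat.Agent.Jac Fermat.Agent.Jac.BaseChange75
  Fermat.Agent.T1.HubInst98 Fermat.Agent.X0.FF
  Fermat.Agent.TW.B5.Iface
  Fermat.Agent.T1B.Local66.LocalBase Fermat.Agent.T1B.Local66.Union
  Fermat.Agent.T1B.Desc1 Fermat.Agent.T1B.Desc8.LevelGroup
open Fermat.Agent.ES.P36.InertField27 (InertFixed)
open scoped Fermat.Agent.Jac.BaseChange75
open scoped Fermat.Agent.T1.Assembly41.FastInst

attribute [local instance] Fermat.Agent.RED.NumInst4.isScalarTower_OE

variable {p : ℕ} [Fact p.Prime] {K : IntermediateField ℚ Qbar} [FiniteDimensional ℚ K]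
  (M' q : ℕ) [NeZero M'] [NeZero q]

/-- the expansion at `∞` of `FK N K ⊂ K((q))` is the identity on constants. -/
theorem val_algebraMap (N : ℕ) (c : ↥K) :
    (FK N K).val.toRingHom (algebraMap ↥K ↥(FK N K) c) = HahnSeries.C c := by
  show algebraMap ↥K (LaurentSeries ↥K) c = HahnSeries.C c
  rw [ModularCurve.algebraMap_laurentSeries_eq_single, HahnSeries.C_apply]

variable {M' q}

/-- **Φ4 DESC′ at the `p`-adic levels for the concrete nodal hub** (generic in the `NodalNumData`
and in the finite group `G` of `W`-automorphisms of the level). -/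
theorem descStatement_level_of_finite
    {π : Wb p K} (hπ : IsUnif (AK (padicPlace p) K) π)
    (hE : FK (M' * q) K ≤ fracField (AK (padicPlace p) K)) {t : ↥(FK (M' * q) K)}
    {B0 B1 : Subalgebra (Wb p K) ↥(FK (M' * q) K)}
    (D : NodalNumData (Wb p K) ↥K ↥(FK (M' * q) K) π t B0 B1 (O1 M' q hπ hE) (O2 M' q hπ hE))
    (ht : IsGen ↥K t) (E : NLevel p K)
    (G : letI := algWE E.lev; Subgroup (↥E.E ≃ₐ[Wb p K] ↥E.E))
    (hG : letI := algWE E.lev; Finite G) :
    letI := algebra0 B0 B1
    letI := algebra1 B0 B1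
    haveI := isScalarTower0 B0 B1
    haveI := isScalarTower1 B0 B1
    letI := algWE E.lev
    letI := algWKbar p K
    haveI := tower_W_E_Kbar E.lev
    DescStatement (nodalChart D.model) ↥E.E (Kbar p) G := by
  letI := algebra0 B0 B1
  letI := algebra1 B0 B1
  haveI := isScalarTower0 B0 B1
  haveI := isScalarTower1 B0 B1
  letI := algWE E.lev
  letI := algWKbar p K
  haveI := tower_W_E_Kbar E.lev
  letI aKE : Algebra ↥K ↥E.E := (toE E.lev).toAlgebra
  letI aKΩ : Algebra ↥K (Kbar p) := (iotaK p K).toAlgebra
  haveI t1 : IsScalarTower (Wb p K) ↥K ↥E.E := IsScalarTower.of_algebraMap_eq' rfl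
  haveI t2 : IsScalarTower (Wb p K) ↥K (Kbar p) := IsScalarTower.of_algebraMap_eq' rfl
  haveI : IsDiscreteValuationRing (Wb p K) := Fermat.Agent.T1.Assembly41.Concrete.isDVR p K
  haveI : Finite G := hG
  exact Fermat.Agent.T1B.DescSep1.Dvr.descStatement_nodalModel
    (W := Wb p K) (F := ↥(FK (M' * q) K)) (K := ↥K)
    ((FK (M' * q) K).val.toRingHom) (val_algebraMap (M' * q)) Subtype.val_injective
    ↥E.E (Kbar p) D.model ht
    (Fermat.Agent.T1B.NodalCoh30.concrete_h0Const hπ hE D ↥E.E) G

/-- **Φ4 DESC′ at the `p`-adic levels for the concrete nodal hub**, `G` the image of the inertia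
group. -/
theorem descStatement_level (hK : InertFixed (padicPlace p) K)
    {π : Wb p K} (hπ : IsUnif (AK (padicPlace p) K) π)
    (hE : FK (M' * q) K ≤ fracField (AK (padicPlace p) K)) {t : ↥(FK (M' * q) K)}
    {B0 B1 : Subalgebra (Wb p K) ↥(FK (M' * q) K)}
    (D : NodalNumData (Wb p K) ↥K ↥(FK (M' * q) K) π t B0 B1 (O1 M' q hπ hE) (O2 M' q hπ hE))
    (ht : IsGen ↥K t) (E : NLevel p K) :
    letI := algebra0 B0 B1
    letI := algebra1 B0 B1
    haveI := isScalarTower0 B0 B1
    haveI := isScalarTower1 B0 B1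
    letI := algWE E.lev
    letI := algWKbar p K
    haveI := tower_W_E_Kbar E.lev
    DescStatement (nodalChart D.model) ↥E.E (Kbar p) (GE hK E) :=
  descStatement_level_of_finite hπ hE D ht E (GE hK E) (finite_GE hK E)

section Hub

open Fermat.Agent.T1B.Hub9 Fermat.Agent.T1B.Desc8.IsGenHub

attribute [local instance] Fermat.Agent.T1.Coh60.algebra0 Fermat.Agent.T1.Coh60.algebra1
  Fermat.Agent.T1.Coh60.isScalarTower0 Fermat.Agent.T1.Coh60.isScalarTower1

variable {M' : ℕ} [NeZero p] [NeZero M']

/-- **Φ4 DESC′ at the `p`-adic levels for the concrete hub `c0S H` of `Hub9`**, for ANY finite group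
`G` of `W`-automorphisms of the level `E` (e.g. `Node45.LocalPhi.GE hK E` with
`Node45.LocalPhi.finite_GE`). -/
theorem descStatement_c0S_of_finite (H : HubParams p M' K) (E : NLevel p K)
    (G : letI := algWE E.lev; Subgroup (↥E.E ≃ₐ[Wb p K] ↥E.E))
    (hG : letI := algWE E.lev; Finite G) :
    letI := algWE E.lev
    letI := algWKbar p K
    haveI := tower_W_E_Kbar E.lev
    DescStatement (c0S H) ↥E.E (Kbar p) G :=
  descStatement_level_of_finite (isUnif_piW p K) (hES p M' K) (numDataS H) (isGen_tS H) E G hG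

/-- **Φ4 DESC′ at the `p`-adic levels for the concrete hub `c0S H` of `Hub9`**: for every level
`E : NLevel p K`, every class of points of `Pic X_E` fixed by the inertia group becomes over `ℚ̄_p` a
quotient of products of point classes over multisets of points stable under every automorphism of
`ℚ̄_p / W` inducing an element of the inertia image on `E` (and the identity descends to every
intermediate field of definition). -/
theorem descStatement_c0S (H : HubParams p M' K) (E : NLevel p K) :
    letI := algWE E.lev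
    letI := algWKbar p K
    haveI := tower_W_E_Kbar E.lev
    DescStatement (c0S H) ↥E.E (Kbar p) (GE H.inertFixed E) :=
  descStatement_c0S_of_finite H E (GE H.inertFixed E) (finite_GE H.inertFixed E)

end Hub

end Fermat.Agent.T1B.Desc8.DescLevel
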