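/-
T1B (row 38), NODE/PHI cell, PHI6 plan (report 1070), brick (A) LOCAL DESC (helper8):
the ABSTRACT finite-level form of Φ4 DESC′.

`c0 : TwoChart W B0 B1 B01`, `E ⊆ Ω` fields over `W`, `Ω` algebraically closed and algebraic over
`E`, `G` a group of `W`-automorphisms of `E`.  From `Desc1.DescStatement c0 E Ω G`: every
`G`-invariant class `y ∈ PicPt(E)` becomes, over some finite normal `E ⊆ E' ⊆ Ω`, the quotient of
the classes of two multisets of `E'`-points which are stable under EVERY `W`-automorphism of `E'`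
restricting to an element of `G` on `E`.

* `exists_normal_level` : finite sets of `Ω` lie in finite normal intermediate fields;
* `descPt`, `DefinedOver`, `descIdx`, `bcIdx_descIdx`, `exists_level_definedOver`;
* `exists_extension` : `W`-automorphisms of an intermediate field extend to `Ω`;
* **`exists_stable_finite_level`**.
-/
import Mathlib
import Fermat.Agent.T1B.Desc8.DescAt

set_option autoImplicit false
set_option linter.unusedSectionVars false
set_option linter.style.haveILetI false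

open TensorProduct

namespace Fermat.Agent.T1B.Desc8.DescLoc

open Fermat.Agent.Jac Fermat.Agent.Jac.JSmooth85Alg Fermat.Agent.Jac.JGroup85Pic
open Fermat.Agent.Jac.BaseChange75 Fermat.Agent.Jac.LineOps39 Fermat.Agent.T1.RedIface75
open Fermat.Agent.T1.PtLine75 Fermat.Agent.T1.GalAct44 Fermat.Agent.T1.CentresClass47
open Fermat.Agent.T1B.Desc1
open scoped Fermat.Agent.Jac.BaseChange75

universe u

/-! ### Field theory -/

section FieldTheory

variable {E Ω : Type*} [Field E] [Field Ω] [Algebra E Ω] [IsAlgClosed Ω]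
  [Algebra.IsAlgebraic E Ω]

/-- A finite subset of `Ω` lies in a finite normal intermediate field. -/
theorem exists_normal_level (T : Finset Ω) :
    ∃ E' : IntermediateField E Ω, FiniteDimensional E E' ∧ Normal E E' ∧ ∀ t ∈ T, t ∈ E' := by
  classical
  let L₂ : IntermediateField E Ω := IntermediateField.adjoin E (T : Set Ω)
  haveI hcl : IsAlgClosure E Ω := ⟨inferInstance, inferInstance⟩
  haveI hnorm : Normal E Ω := IsAlgClosure.normal E Ω
  haveI hfin2 : FiniteDimensional E L₂ :=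
    IntermediateField.finiteDimensional_adjoin
      (fun x _ => (Algebra.IsAlgebraic.isAlgebraic x).isIntegral)
  refine ⟨IntermediateField.normalClosure E L₂ Ω,
    normalClosure.is_finiteDimensional E L₂ Ω, normalClosure.normal E L₂ Ω, ?_⟩
  intro x hx
  have h1 : x ∈ L₂ := IntermediateField.subset_adjoin E _ hx
  exact IntermediateField.le_normalClosure L₂ h1

end FieldTheory

section Main

variable {W : Type u} [CommRing W] {E Ω : Type u} [Field E] [Field Ω] [Algebra W E]
  [Algebra W Ω] [Algebra E Ω] [IsScalarTower W E Ω]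

theorem isScalarTower_mid (E' : IntermediateField E Ω) : IsScalarTower W ↥E' Ω :=
  IsScalarTower.of_algebraMap_eq' rfl

/-! ### Descent of points -/

section OnePoint

variable {B : Type u} [CommRing B] [Algebra W B] (E' : IntermediateField E Ω)

/-- A point with values in the intermediate field `E'` descends to `E'`. -/
noncomputable def descPt (q : B →ₐ[W] Ω) (h : ∀ b, q b ∈ E') : B →ₐ[W] ↥E' where
  toFun b := ⟨q b, h b⟩
  map_one' := Subtype.ext (map_one q)
  map_mul' a b := Subtype.ext (map_mul q a b)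
  map_zero' := Subtype.ext (map_zero q)
  map_add' a b := Subtype.ext (map_add q a b)
  commutes' w := Subtype.ext (q.commutes w)

theorem ptComp_descPt (q : B →ₐ[W] Ω) (h : ∀ b, q b ∈ E') :
    haveI := isScalarTower_mid (W := W) E'
    ptComp Ω (descPt E' q h) = q :=
  AlgHom.ext fun _ => rfl

end OnePoint

variable {B0 B1 B01 : Type u} [CommRing B0] [CommRing B1] [CommRing B01]
  [Algebra W B0] [Algebra W B1] [Algebra W B01] [Algebra B0 B01] [Algebra B1 B01]
  [IsScalarTower W B0 B01] [IsScalarTower W B1 B01]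
  (c0 : TwoChart W B0 B1 B01)

/-- The point index has all its values in `E'`. -/
def DefinedOver (E' : IntermediateField E Ω) : PtIdx c0 Ω → Prop
  | Sum.inl q => ∀ b, q.1 b ∈ E'
  | Sum.inr q => ∀ b, q.1 b ∈ E'

/-- Descent of a point index defined over `E'`. -/
noncomputable def descIdx (E' : IntermediateField E Ω)
    (hinv0 : ∀ q : B0 →ₐ[W] ↥E', Module.Invertible (↥E' ⊗[W] B0) (ptIdeal q))
    (hinv1 : ∀ q : B1 →ₐ[W] ↥E', Module.Invertible (↥E' ⊗[W] B1) (ptIdeal q)) :
    (x : PtIdx c0 Ω) → DefinedOver c0 E' x → PtIdx c0 ↥E'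
  | Sum.inl q, h => Sum.inl ⟨descPt E' q.1 h, hinv0 _⟩
  | Sum.inr q, h => Sum.inr ⟨descPt E' q.1 h, hinv1 _⟩

theorem bcIdx_descIdx (E' : IntermediateField E Ω)
    (hinv0 : ∀ q : B0 →ₐ[W] ↥E', Module.Invertible (↥E' ⊗[W] B0) (ptIdeal q))
    (hinv1 : ∀ q : B1 →ₐ[W] ↥E', Module.Invertible (↥E' ⊗[W] B1) (ptIdeal q))
    (x : PtIdx c0 Ω) (h : DefinedOver c0 E' x) :
    haveI := isScalarTower_mid (W := W) E'
    bcIdx c0 Ω (descIdx c0 E' hinv0 hinv1 x h) = x := by
  haveI := isScalarTower_mid (W := W) E'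
  rcases x with q | q
  · exact congrArg Sum.inl (Subtype.ext (ptComp_descPt E' q.1 h))
  · exact congrArg Sum.inr (Subtype.ext (ptComp_descPt E' q.1 h))

/-- Every multiset of `Ω`-points (and every finite subset of `Ω`) is defined over a finite normal
intermediate field. -/
theorem exists_level_definedOver [IsAlgClosed Ω] [Algebra.IsAlgebraic E Ω]
    [Algebra.FiniteType W B0] [Algebra.FiniteType W B1]
    (s : Multiset (PtIdx c0 Ω)) (T0 : Finset Ω) :
    ∃ E' : IntermediateField E Ω, FiniteDimensional E E' ∧ Normal E E' ∧ (∀ t ∈ T0, t ∈ E') ∧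
      ∀ x ∈ s, DefinedOver c0 E' x := by
  classical
  have hWL : ∀ (L : IntermediateField E Ω) (w : W), algebraMap W Ω w ∈ L := by
    intro L w
    rw [IsScalarTower.algebraMap_apply W E Ω]
    exact L.algebraMap_mem _
  have hT : ∀ x : PtIdx c0 Ω, ∃ T : Finset Ω, ∀ L : IntermediateField E Ω,
      (∀ t ∈ T, t ∈ L) → DefinedOver c0 L x := by
    rintro (q | q)
    · obtain ⟨T, hT⟩ := Fermat.Agent.T1.Centres94.FieldChoice.exists_finset_values q.1
      exact ⟨T, fun L hTL => hT L.toSubfield (hWL L) hTL⟩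
    · obtain ⟨T, hT⟩ := Fermat.Agent.T1.Centres94.FieldChoice.exists_finset_values q.1
      exact ⟨T, fun L hTL => hT L.toSubfield (hWL L) hTL⟩
  choose T hT using hT
  obtain ⟨E', hfd, hnorm, hmem⟩ := exists_normal_level (E := E) (T0 ∪ s.toFinset.biUnion T)
  refine ⟨E', hfd, hnorm, fun t ht => hmem t (Finset.mem_union_left _ ht), fun x hx =>
    hT x E' fun t ht => ?_⟩
  exact hmem t (Finset.mem_union_right _
    (Finset.mem_biUnion.2 ⟨x, Multiset.mem_toFinset.2 hx, ht⟩))

/-! ### Extension of automorphisms -/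

/-- Every `W`-algebra automorphism of an intermediate field extends to `Ω`. -/
theorem exists_extension [IsAlgClosed Ω] [Algebra.IsAlgebraic E Ω] (E' : IntermediateField E Ω)
    (γ' : ↥E' ≃ₐ[W] ↥E') :
    ∃ γ : Ω ≃ₐ[W] Ω, ∀ a : ↥E', γ (algebraMap ↥E' Ω a) = algebraMap ↥E' Ω (γ' a) := by
  haveI : Algebra.IsAlgebraic ↥E' Ω := Algebra.IsAlgebraic.tower_top (K := E) ↥E'
  haveI : IsAlgClosure ↥E' Ω := ⟨inferInstance, inferInstance⟩
  let g : Ω ≃+* Ω := IsAlgClosure.equivOfEquiv Ω Ω γ'.toRingEquiv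
  have hg : ∀ a : ↥E', g (algebraMap ↥E' Ω a) = algebraMap ↥E' Ω (γ' a) := fun a =>
    IsAlgClosure.equivOfEquiv_algebraMap Ω Ω γ'.toRingEquiv a
  haveI := isScalarTower_mid (W := W) E'
  refine ⟨AlgEquiv.ofRingEquiv (f := g) fun w => ?_, hg⟩
  rw [IsScalarTower.algebraMap_apply W ↥E' Ω, hg, γ'.commutes]

/-! ### The finite-level statement -/

/-- **Φ4 DESC′, abstract finite-level form.** -/
theorem exists_stable_finite_level [IsAlgClosed Ω] [Algebra.IsAlgebraic E Ω]
    [Algebra.FiniteType W B0] [Algebra.FiniteType W B1] (G : Subgroup (E ≃ₐ[W] E))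
    (hdesc : DescStatement c0 E Ω G)
    (hinv0 : ∀ E' : IntermediateField E Ω, FiniteDimensional E E' → Normal E E' →
      ∀ q : B0 →ₐ[W] ↥E', Module.Invertible (↥E' ⊗[W] B0) (ptIdeal q))
    (hinv1 : ∀ E' : IntermediateField E Ω, FiniteDimensional E E' → Normal E E' →
      ∀ q : B1 →ₐ[W] ↥E', Module.Invertible (↥E' ⊗[W] B1) (ptIdeal q))
    (T0 : Finset Ω)
    (y : PicX c0 E) (hy : y ∈ (pointClasses c0).PicPt E) (hfix : ∀ τ ∈ G, galPic c0 τ y = y) :
    ∃ (E' : IntermediateField E Ω) (_ : FiniteDimensional E E') (_ : Normal E E')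
      (sP' sN' : Multiset (PtIdx c0 ↥E')),
      (∀ t ∈ T0, t ∈ E') ∧
      PicX.map c0 E ↥E' y = (sP'.map (ptCls c0)).prod / (sN'.map (ptCls c0)).prod ∧
      ∀ (γ' : ↥E' ≃ₐ[W] ↥E') (τ : E ≃ₐ[W] E), τ ∈ G →
        (∀ a : E, γ' (algebraMap E ↥E' a) = algebraMap E ↥E' (τ a)) →
        sP'.map (twistIdx c0 γ') = sP' ∧ sN'.map (twistIdx c0 γ') = sN' := by
  obtain ⟨sP, sN, hcls, hstab, hfin⟩ := hdesc y hy hfix
  obtain ⟨E', hfd, hnorm, hT0, hdef⟩ := exists_level_definedOver (E := E) c0 (sP + sN) T0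
  haveI t2 := isScalarTower_mid (W := W) E'
  have i0 := hinv0 E' hfd hnorm
  have i1 := hinv1 E' hfd hnorm
  let sP' : Multiset (PtIdx c0 ↥E') := sP.attach.map fun x =>
    descIdx c0 E' i0 i1 x.1 (hdef x.1 (Multiset.mem_add.2 (Or.inl x.2)))
  let sN' : Multiset (PtIdx c0 ↥E') := sN.attach.map fun x =>
    descIdx c0 E' i0 i1 x.1 (hdef x.1 (Multiset.mem_add.2 (Or.inr x.2)))
  have hP' : sP'.map (bcIdx c0 Ω) = sP := by
    show (sP.attach.map _).map (bcIdx c0 Ω) = sP
    rw [Multiset.map_map]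
    conv_rhs => rw [← Multiset.attach_map_val sP]
    exact Multiset.map_congr rfl fun x _ => bcIdx_descIdx c0 E' i0 i1 x.1 _
  have hN' : sN'.map (bcIdx c0 Ω) = sN := by
    show (sN.attach.map _).map (bcIdx c0 Ω) = sN
    rw [Multiset.map_map]
    conv_rhs => rw [← Multiset.attach_map_val sN]
    exact Multiset.map_congr rfl fun x _ => bcIdx_descIdx c0 E' i0 i1 x.1 _
  refine ⟨E', hfd, hnorm, sP', sN', hT0, hfin ↥E' sP' sN' hP' hN', ?_⟩
  intro γ' τ hτ hγ'
  obtain ⟨γ, hγ⟩ := exists_extension (W := W) E' γ'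
  have hγE : ∀ a : E, γ (algebraMap E Ω a) = algebraMap E Ω (τ a) := by
    intro a
    rw [IsScalarTower.algebraMap_apply E ↥E' Ω, hγ, hγ', ← IsScalarTower.algebraMap_apply]
  have h1 := hstab γ τ hτ hγE
  constructor
  · apply DescAt.stable_of_bcIdx_stable c0 Ω (algebraMap ↥E' Ω).injective γ γ' hγ
    rw [hP']
    exact h1.1
  · apply DescAt.stable_of_bcIdx_stable c0 Ω (algebraMap ↥E' Ω).injective γ γ' hγ
    rw [hN']
    exact h1.2

end Main

end Fermat.Agent.T1B.Desc8.DescLoc
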