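/-
T1B (row 38), brick Phi4 DESC' (owner helper1), slice HUB GLUE, file 8 (helper8):
THE NORMALISATION `lc` FROM A `q`-EXPANSION.

`E : L ⊗[W] B01 →+* L((q))` an injective ring homomorphism with `E (a ⊗ 1) = C a`, equivariant
coefficientwise under a group of automorphisms.  Then `lcOfExp E := leadingCoeff ∘ E` is the
normalisation `lc : (L ⊗[W] B01) →*₀ L` required by `Desc1.HubAct.exists_stable_pair` /
`Desc1.Final.descStatement`, with `hlc0`, `hlcL`, `hlcG`.
-/
import Mathlib
import Fermat.Prelude.Def_ModularCurve_LaurentCoeff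
import Fermat.Agent.T1B.Desc1.Iface

set_option autoImplicit false
set_option linter.unusedSectionVars false
set_option linter.style.haveILetI false

open TensorProduct

namespace Fermat.Agent.T1B.Desc8.LcOfExp

open HahnSeries ModularCurve Fermat.Agent.T1B.Desc1

universe u

/-- The leading coefficient commutes with an injective coefficient map. -/
theorem leadingCoeff_coeffMap {R S : Type*} [CommRing R] [CommRing S] (f : R →+* S)
    (hf : Function.Injective f) (x : LaurentSeries R) :
    (coeffMap f x).leadingCoeff = f x.leadingCoeff := by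
  by_cases hx : x = 0
  · subst hx
    rw [map_zero, HahnSeries.leadingCoeff_zero, HahnSeries.leadingCoeff_zero, map_zero]
  · have hne : coeffMap f x ≠ 0 := by
      intro h
      apply hx
      apply HahnSeries.ext
      funext k
      have hk : (coeffMap f x).coeff k = 0 := by rw [h, HahnSeries.coeff_zero]
      rw [coeffMap_coeff] at hk
      rw [HahnSeries.coeff_zero]
      exact hf (hk.trans (map_zero f).symm)
    have hord : (coeffMap f x).order = x.order := by
      apply le_antisymm
      · apply HahnSeries.order_le_of_coeff_ne_zero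
        rw [coeffMap_coeff]
        intro h
        exact hx (HahnSeries.coeff_order_eq_zero.1 (hf (h.trans (map_zero f).symm)))
      · by_contra hlt
        push Not at hlt
        have h0 : x.coeff (coeffMap f x).order = 0 := HahnSeries.coeff_eq_zero_of_lt_order hlt
        apply hne
        apply HahnSeries.coeff_order_eq_zero.1
        rw [coeffMap_coeff, h0, map_zero]
    rw [HahnSeries.leadingCoeff_eq, HahnSeries.leadingCoeff_eq, hord, coeffMap_coeff]

variable {W B01 : Type u} [CommRing W] [CommRing B01] [Algebra W B01]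
  {L : Type u} [Field L] [Algebra W L]
  (E : L ⊗[W] B01 →+* LaurentSeries L)

/-- **The normalisation attached to an expansion**: the leading coefficient of `E x`. -/
noncomputable def lcOfExp : (L ⊗[W] B01) →*₀ L where
  toFun x := (E x).leadingCoeff
  map_zero' := by rw [map_zero, HahnSeries.leadingCoeff_zero]
  map_one' := by rw [map_one, HahnSeries.leadingCoeff_one]
  map_mul' x y := by rw [map_mul, HahnSeries.leadingCoeff_mul]

theorem lcOfExp_apply (x : L ⊗[W] B01) : lcOfExp E x = (E x).leadingCoeff := rfl

/-- `hlc0`. -/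
theorem lcOfExp_ne_zero (hE : Function.Injective E) (x : L ⊗[W] B01) (hx : x ≠ 0) :
    lcOfExp E x ≠ 0 := by
  rw [lcOfExp_apply, HahnSeries.leadingCoeff_ne_zero]
  exact fun h => hx (hE (h.trans (map_zero E).symm))

/-- `hlcL`. -/
theorem lcOfExp_tmul_one (hEL : ∀ a : L, E (a ⊗ₜ[W] (1 : B01)) = HahnSeries.C a) (a : L) :
    lcOfExp E (a ⊗ₜ[W] (1 : B01)) = a := by
  rw [lcOfExp_apply, hEL]
  exact HahnSeries.leadingCoeff_of_single

/-- `hlcG`, for one automorphism. -/
theorem lcOfExp_gal (τ : L ≃ₐ[W] L)
    (hτ : ∀ x, E (galTensorHom τ B01 x) = coeffMap (τ : L →+* L) (E x)) (x : L ⊗[W] B01) :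
    lcOfExp E (galTensorHom τ B01 x) = τ (lcOfExp E x) := by
  rw [lcOfExp_apply, hτ, leadingCoeff_coeffMap _ τ.injective]
  rfl

/-- The equivariance hypothesis `hτ` can be checked on pure tensors. -/
theorem equivariant_of_tmul (τ : L ≃ₐ[W] L)
    (h : ∀ (a : L) (b : B01), E ((τ a) ⊗ₜ[W] b) = coeffMap (τ : L →+* L) (E (a ⊗ₜ[W] b)))
    (x : L ⊗[W] B01) : E (galTensorHom τ B01 x) = coeffMap (τ : L →+* L) (E x) := by
  induction x using TensorProduct.induction_on with
  | zero => simp
  | tmul a b => exact h a b
  | add x y hx hy => rw [map_add, map_add, map_add, map_add, hx, hy]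

end Fermat.Agent.T1B.Desc8.LcOfExp
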