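/-
T1B (row 38), brick Phi4 DESC' (owner helper1), slice HUB GLUE, file 9 (helper8):
THE `q`-EXPANSION OF `L ⊗[W] B` FROM AN EXPANSION OF `B` OVER `K = Frac W`.

`W` a domain with fraction field `K`, `L/K` a field extension, `B` a `W`-algebra with a ring
homomorphism `e : B →+* K((q))` which is `C` on the constants `W`.

* `expW e he : L ⊗[W] B →+* L((q))`, `a ⊗ b ↦ C a * coeffMap (K → L) (e b)`;
* `expW_injective` (for `e` injective): localisation step + helper3's
  `Hecke3.Omega.tensorExp_injective`;
* `expW_tmul_one`, `expW_gal` (equivariance under every `τ : L ≃ₐ[W] L`);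
* `isDomain_tensor_of_expW : IsDomain (L ⊗[W] B)`;
* `lcW e he := LcOfExp.lcOfExp (expW e he)` with `hlc0`, `hlcL`, `hlcG`.
-/
import Mathlib
import Fermat.Agent.T1B.Hecke3.Omega.TensorInj
import Fermat.Agent.T1B.Desc8.LcOfExp

set_option autoImplicit false
set_option linter.unusedSectionVars false
set_option linter.style.haveILetI false

open TensorProduct

namespace Fermat.Agent.T1B.Desc8.ExpW

open HahnSeries ModularCurve Fermat.Agent.T1B.Desc1 Fermat.Agent.T1B.Hecke3.Omega

universe u

variable {W K L B : Type u} [CommRing W] [Field K] [Field L] [Algebra W K] [Algebra K L]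
  [Algebra W L] [IsScalarTower W K L] [CommRing B] [Algebra W B]
  (e : B →+* LaurentSeries K)
  (he : ∀ w : W, e (algebraMap W B w) = HahnSeries.C (algebraMap W K w))

/-- The `W`-algebra structure `w ↦ C (w : L)` on `L((q))` (local). -/
@[reducible] noncomputable def algWL : Algebra W (LaurentSeries L) :=
  ((HahnSeries.C : L →+* LaurentSeries L).comp (algebraMap W L)).toAlgebra

/-- **The expansion on `L ⊗[W] B`**: `a ⊗ b ↦ C a * coeffMap (K → L) (e b)`. -/
noncomputable def expW : L ⊗[W] B →+* LaurentSeries L :=
  letI : Algebra W (LaurentSeries L) := algWL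
  let cW : L →ₐ[W] LaurentSeries L :=
    { (HahnSeries.C : L →+* LaurentSeries L) with commutes' := fun _ => rfl }
  let eW : B →ₐ[W] LaurentSeries L :=
    { (coeffMap (algebraMap K L)).comp e with
      commutes' := fun w => by
        show coeffMap (algebraMap K L) (e (algebraMap W B w)) = HahnSeries.C (algebraMap W L w)
        rw [he, IsScalarTower.algebraMap_apply W K L]
        exact coeffMap_single (algebraMap K L) 0 _ }
  (Algebra.TensorProduct.productMap cW eW).toRingHom

@[simp] theorem expW_tmul (a : L) (b : B) :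
    expW (L := L) e he (a ⊗ₜ[W] b) = HahnSeries.C a * coeffMap (algebraMap K L) (e b) := by
  let _ : Algebra W (LaurentSeries L) := algWL
  unfold expW
  exact Algebra.TensorProduct.productMap_apply_tmul _ _ a b

theorem expW_tmul_one (a : L) : expW (L := L) e he (a ⊗ₜ[W] (1 : B)) = HahnSeries.C a := by
  rw [expW_tmul, map_one, map_one, mul_one]

/-- Equivariance: `τ` fixes `K` because it is `W`-linear and `K = Frac W`. -/
theorem algEquiv_algebraMap [IsFractionRing W K] (τ : L ≃ₐ[W] L) (k : K) :
    τ (algebraMap K L k) = algebraMap K L k := by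
  haveI : Nontrivial W := (algebraMap W K).domain_nontrivial
  obtain ⟨a, s, hs, rfl⟩ := IsFractionRing.div_surjective (A := W) k
  have hsK : algebraMap W K s ≠ 0 :=
    (map_ne_zero_iff _ (IsFractionRing.injective W K)).2 (nonZeroDivisors.ne_zero hs)
  rw [map_div₀, map_div₀, ← IsScalarTower.algebraMap_apply W K L,
    ← IsScalarTower.algebraMap_apply W K L, τ.commutes, τ.commutes]

theorem expW_gal [IsFractionRing W K] (τ : L ≃ₐ[W] L) (x : L ⊗[W] B) :
    expW (L := L) e he (galTensorHom τ B x) = coeffMap (τ : L →+* L) (expW (L := L) e he x) := by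
  refine LcOfExp.equivariant_of_tmul (expW (L := L) e he) τ (fun a b => ?_) x
  rw [expW_tmul, expW_tmul, map_mul]
  congr 1
  · exact (coeffMap_single (τ : L →+* L) 0 a).symm
  · apply HahnSeries.ext
    funext n
    rw [coeffMap_coeff, coeffMap_coeff, coeffMap_coeff]
    exact (algEquiv_algebraMap τ _).symm

/-! ### Injectivity -/

section Inj

variable [IsFractionRing W K]

/-- Every element of `K ⊗[W] B` becomes a pure tensor `1 ⊗ b` after multiplication by a nonzero
constant. -/
theorem exists_smul_eq_one_tmul (x : K ⊗[W] B) :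
    ∃ (w : W) (b : B), algebraMap W K w ≠ 0 ∧ (algebraMap W K w) • x = (1 : K) ⊗ₜ[W] b := by
  haveI : Nontrivial W := (algebraMap W K).domain_nontrivial
  induction x using TensorProduct.induction_on with
  | zero => exact ⟨1, 0, by rw [map_one]; exact one_ne_zero, by simp⟩
  | tmul k b =>
    obtain ⟨a, s, hs, rfl⟩ := IsFractionRing.div_surjective (A := W) k
    have hsK : algebraMap W K s ≠ 0 :=
      (map_ne_zero_iff _ (IsFractionRing.injective W K)).2 (nonZeroDivisors.ne_zero hs)
    refine ⟨s, a • b, hsK, ?_⟩
    rw [TensorProduct.smul_tmul', smul_eq_mul, mul_div_cancel₀ _ hsK,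
      TensorProduct.tmul_smul, TensorProduct.smul_tmul', Algebra.smul_def, mul_one]
  | add x y hx hy =>
    obtain ⟨w1, b1, hw1, h1⟩ := hx
    obtain ⟨w2, b2, hw2, h2⟩ := hy
    refine ⟨w1 * w2, w2 • b1 + w1 • b2, by rw [map_mul]; exact mul_ne_zero hw1 hw2, ?_⟩
    rw [smul_add, map_mul, mul_comm (algebraMap W K w1), mul_smul, h1,
      mul_comm (algebraMap W K w2), mul_smul, h2, TensorProduct.tmul_add,
      TensorProduct.tmul_smul, TensorProduct.tmul_smul, algebraMap_smul, algebraMap_smul]

/-- The expansion of `K ⊗[W] B` is injective when `e` is. -/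
theorem expW_injective_base (hinj : Function.Injective e) :
    Function.Injective (expW (L := K) e he) := by
  rw [injective_iff_map_eq_zero]
  intro x hx
  obtain ⟨w, b, hw, hwx⟩ := exists_smul_eq_one_tmul x
  have h1 : expW (L := K) e he ((algebraMap W K w) • x) = 0 := by
    rw [Algebra.smul_def, map_mul, hx, mul_zero]
  rw [hwx, expW_tmul, map_one, one_mul] at h1
  have hb : b = 0 := by
    apply hinj
    rw [map_zero]
    apply HahnSeries.ext
    funext n
    have hn : (coeffMap (algebraMap K K) (e b)).coeff n = 0 := by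
      rw [h1, HahnSeries.coeff_zero]
    rw [coeffMap_coeff] at hn
    rw [HahnSeries.coeff_zero]
    exact hn
  rw [hb, TensorProduct.tmul_zero] at hwx
  exact (smul_eq_zero.1 hwx).resolve_left hw

/-- The constants: the expansion of `K ⊗[W] B` is `C` on `K`. -/
theorem expW_base_algebraMap (c : K) :
    expW (L := K) e he (algebraMap K (K ⊗[W] B) c) = HahnSeries.C c := by
  rw [Algebra.TensorProduct.algebraMap_apply, Algebra.algebraMap_self, RingHom.id_apply,
    expW_tmul_one]

/-- The expansion over `L` is the base change of the expansion over `K`. -/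
theorem expW_eq_tensorExp (x : L ⊗[K] (K ⊗[W] B)) :
    expW (L := L) e he ((Algebra.TensorProduct.cancelBaseChange W K K L B) x) =
      tensorExp (L := L) (expW (L := K) e he) (expW_base_algebraMap e he) x := by
  induction x using TensorProduct.induction_on with
  | zero => simp
  | tmul l y =>
    induction y using TensorProduct.induction_on with
    | zero => simp
    | tmul k b =>
      rw [Algebra.TensorProduct.cancelBaseChange_tmul, tensorExp_tmul, expW_tmul, expW_tmul,
        map_mul, ← mul_assoc]
      congr 1
      · rw [Algebra.smul_def, map_mul, mul_comm]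
        congr 1
        exact (coeffMap_single (algebraMap K L) 0 k).symm
    | add y z hy hz =>
      rw [TensorProduct.tmul_add, map_add, map_add, map_add, hy, hz]
  | add x y hx hy => rw [map_add, map_add, map_add, hx, hy]

/-- **The expansion of `L ⊗[W] B` is injective when `e` is.** -/
theorem expW_injective (hinj : Function.Injective e) :
    Function.Injective (expW (L := L) e he) := by
  have h1 := tensorExp_injective (L := L) (expW (L := K) e he) (expW_base_algebraMap e he)
    (expW_injective_base e he hinj)
  intro x y hxy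
  obtain ⟨x', rfl⟩ := (Algebra.TensorProduct.cancelBaseChange W K K L B).surjective x
  obtain ⟨y', rfl⟩ := (Algebra.TensorProduct.cancelBaseChange W K K L B).surjective y
  rw [expW_eq_tensorExp, expW_eq_tensorExp] at hxy
  rw [h1 hxy]

include e he in
/-- `L ⊗[W] B` is a domain as soon as `B` has an injective expansion over `K = Frac W`. -/
theorem isDomain_tensor_of_expW (hinj : Function.Injective e) : IsDomain (L ⊗[W] B) :=
  (expW_injective (L := L) e he hinj).isDomain (expW (L := L) e he)

/-! ### The normalisation -/

/-- The normalisation `lc` of `L ⊗[W] B` attached to the expansion `e`. -/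
noncomputable def lcW : (L ⊗[W] B) →*₀ L := LcOfExp.lcOfExp (expW (L := L) e he)

theorem lcW_ne_zero (hinj : Function.Injective e) (x : L ⊗[W] B) (hx : x ≠ 0) :
    lcW (L := L) e he x ≠ 0 :=
  LcOfExp.lcOfExp_ne_zero _ (expW_injective (L := L) e he hinj) x hx

theorem lcW_tmul_one (a : L) : lcW (L := L) e he (a ⊗ₜ[W] (1 : B)) = a :=
  LcOfExp.lcOfExp_tmul_one _ (expW_tmul_one e he) a

theorem lcW_gal (τ : L ≃ₐ[W] L) (x : L ⊗[W] B) :
    lcW (L := L) e he (galTensorHom τ B x) = τ (lcW (L := L) e he x) :=
  LcOfExp.lcOfExp_gal _ τ (expW_gal e he τ) x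

end Inj

end Fermat.Agent.T1B.Desc8.ExpW
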