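/-
T1B (row 38), brick Phi4 DESC' (owner helper1), slice HUB GLUE, file 1 (helper8).

* Part A (abstract two-chart ring `c : TwoChart A R0 R1 R01` with domain charts): the function
  field `F` (any fraction field of `R01`) receives `R0`, `R1`, `R01` compatibly
  (`Adapt96.EmbedsIn`) and is the fraction field of `R0` and of `R1`.
* Part B: for `τ : L ≃ₐ[W] L`, the ring automorphism `galTensor τ = τ ⊗ id` of `L ⊗[W] B`
  (equal to `RedIface75.semiTensor (RingHom.id W) τ (RingHom.id B)`), its group law and its
  compatibilities.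
* Part C: its extension `sF τ` to a fraction field `F` of `L ⊗[W] B01`.
* Part D: extension of a multiplicative "leading coefficient" `lc : L ⊗[W] B01 →* L` to
  `lcF : F →*₀ L`, equivariance.
-/
import Mathlib
import Fermat.Agent.T1.RedIface75
import Fermat.Agent.T1.Adapt96.IdealIso

set_option autoImplicit false
set_option linter.unusedSectionVars false
set_option linter.style.haveILetI false

open TensorProduct

namespace Fermat.Agent.T1B.Desc8.FracAct

open Fermat.Agent.Jac Fermat.Agent.T1.RedIface75 Fermat.Agent.T1.Adapt96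
open Fermat.Agent.Jac.BaseChange75
open scoped Fermat.Agent.Jac.BaseChange75

universe u

/-! ### Part A: the function field of a two-chart ring -/

section PartA

variable {A R0 R1 R01 : Type u} [CommRing A] [CommRing R0] [CommRing R1] [CommRing R01]
  [Algebra A R0] [Algebra A R1] [Algebra A R01] [Algebra R0 R01] [Algebra R1 R01]
  [IsScalarTower A R0 R01] [IsScalarTower A R1 R01]

/-- `R0 → R01 → F`, as an algebra structure (use with `letI`). -/
@[reducible] def algVia (R R01 F : Type*) [CommRing R] [CommRing R01] [CommRing F]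
    [Algebra R R01] [Algebra R01 F] : Algebra R F :=
  ((algebraMap R01 F).comp (algebraMap R R01)).toAlgebra

theorem tower_algVia (R R01 F : Type*) [CommRing R] [CommRing R01] [CommRing F]
    [Algebra R R01] [Algebra R01 F] :
    letI := algVia R R01 F
    IsScalarTower R R01 F := by
  letI := algVia R R01 F
  exact IsScalarTower.of_algebraMap_eq fun _ => rfl

variable (c : TwoChart A R0 R1 R01)

include c in
theorem t_ne_zero [Nontrivial R01] : c.t ≠ 0 := by
  intro h
  have hu : IsUnit (algebraMap R0 R01 c.t) := by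
    have := c.away0
    exact IsLocalization.Away.algebraMap_isUnit c.t
  rw [h, map_zero] at hu
  exact not_isUnit_zero hu

include c in
theorem s_ne_zero [Nontrivial R01] : c.s ≠ 0 := by
  intro h
  have hu : IsUnit (algebraMap R1 R01 c.s) := by
    have := c.away1
    exact IsLocalization.Away.algebraMap_isUnit c.s
  rw [h, map_zero] at hu
  exact not_isUnit_zero hu

include c in
/-- `R0 → R01` is injective (localisation of a domain away from `t ≠ 0`). -/
theorem injective_algebraMap0 [IsDomain R0] [Nontrivial R01] :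
    Function.Injective (algebraMap R0 R01) := by
  have : IsLocalization (Submonoid.powers c.t) R01 := c.away0
  exact IsLocalization.injective R01
    (powers_le_nonZeroDivisors_of_noZeroDivisors (t_ne_zero c))

include c in
theorem injective_algebraMap1 [IsDomain R1] [Nontrivial R01] :
    Function.Injective (algebraMap R1 R01) := by
  have : IsLocalization (Submonoid.powers c.s) R01 := c.away1
  exact IsLocalization.injective R01
    (powers_le_nonZeroDivisors_of_noZeroDivisors (s_ne_zero c))

variable {F : Type*} [Field F] [Algebra R01 F] [IsFractionRing R01 F]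
  [Algebra R0 F] [Algebra R1 F] [IsScalarTower R0 R01 F] [IsScalarTower R1 R01 F]

include c in
/-- The three chart rings embed in the function field. -/
theorem embedsIn [IsDomain R0] [IsDomain R1] [IsDomain R01] : EmbedsIn R0 R1 R01 F where
  inj0 := by
    rw [IsScalarTower.algebraMap_eq R0 R01 F]
    exact (IsFractionRing.injective R01 F).comp (injective_algebraMap0 c)
  inj1 := by
    rw [IsScalarTower.algebraMap_eq R1 R01 F]
    exact (IsFractionRing.injective R01 F).comp (injective_algebraMap1 c)
  inj01 := IsFractionRing.injective R01 F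

/-- Generic: a fraction field of a localisation `S = R[1/t]` of a domain is a fraction field of
`R`. -/
theorem isFractionRing_of_away {R S : Type*} [CommRing R] [CommRing S] [IsDomain R]
    [Algebra R S] (t : R) [IsLocalization.Away t S] (K : Type*) [Field K] [Algebra S K]
    [IsFractionRing S K] [Algebra R K] [IsScalarTower R S K]
    (hinj : Function.Injective (algebraMap R S)) : IsFractionRing R K := by
  have hinjK : Function.Injective (algebraMap R K) := by
    rw [IsScalarTower.algebraMap_eq R S K]
    exact (IsFractionRing.injective S K).comp hinj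
  haveI : FaithfulSMul R K := (faithfulSMul_iff_algebraMap_injective R K).2 hinjK
  refine IsFractionRing.of_field R K fun z => ?_
  haveI : Nontrivial S := (algebraMap S K).domain_nontrivial
  obtain ⟨a, b, hb, rfl⟩ := IsFractionRing.div_surjective (A := S) z
  obtain ⟨n, a', ha'⟩ := IsLocalization.Away.surj t a
  obtain ⟨m, b', hb'⟩ := IsLocalization.Away.surj t b
  have htS : IsUnit (algebraMap R S t) := IsLocalization.Away.algebraMap_isUnit t
  have htK : algebraMap R K t ≠ 0 := by
    rw [IsScalarTower.algebraMap_apply R S K]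
    exact (htS.map (algebraMap S K)).ne_zero
  have hbK : algebraMap S K b ≠ 0 := by
    rw [Ne, map_eq_zero_iff _ (IsFractionRing.injective S K)]
    exact nonZeroDivisors.ne_zero hb
  refine ⟨a' * t ^ m, b' * t ^ n, ?_⟩
  have ha'' : algebraMap S K a * algebraMap R K t ^ n = algebraMap R K a' := by
    rw [IsScalarTower.algebraMap_apply R S K, IsScalarTower.algebraMap_apply R S K, ← map_pow,
      ← map_mul, ha']
  have hb'' : algebraMap S K b * algebraMap R K t ^ m = algebraMap R K b' := by
    rw [IsScalarTower.algebraMap_apply R S K, IsScalarTower.algebraMap_apply R S K, ← map_pow,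
      ← map_mul, hb']
  rw [map_mul, map_mul, map_pow, map_pow, ← ha'', ← hb'']
  have h1 : algebraMap R K t ^ n ≠ 0 := pow_ne_zero n htK
  have h2 : algebraMap R K t ^ m ≠ 0 := pow_ne_zero m htK
  field_simp

include c in
theorem isFractionRing0 [IsDomain R0] [IsDomain R01] : IsFractionRing R0 F := by
  have := c.away0
  exact isFractionRing_of_away c.t F (injective_algebraMap0 c)

include c in
theorem isFractionRing1 [IsDomain R1] [IsDomain R01] : IsFractionRing R1 F := by
  have := c.away1
  exact isFractionRing_of_away c.s F (injective_algebraMap1 c)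

end PartA

/-! ### Part B: `τ ⊗ id` on `L ⊗[W] B` -/

section PartB

variable {W : Type u} [CommRing W] (L : Type u) [CommRing L] [Algebra W L]
  (B : Type u) [CommRing B] [Algebra W B]

/-- `τ ⊗ id` as a ring automorphism of `L ⊗[W] B`. -/
noncomputable def galTensor (τ : L ≃ₐ[W] L) : (L ⊗[W] B) ≃+* (L ⊗[W] B) :=
  (Algebra.TensorProduct.congr τ (AlgEquiv.refl : B ≃ₐ[W] B)).toRingEquiv

variable {L B}

@[simp] theorem galTensor_tmul (τ : L ≃ₐ[W] L) (a : L) (b : B) :
    galTensor L B τ (a ⊗ₜ[W] b) = τ a ⊗ₜ[W] b := rfl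

theorem galTensor_one (x : L ⊗[W] B) : galTensor L B (1 : L ≃ₐ[W] L) x = x := by
  induction x using TensorProduct.induction_on with
  | zero => simp
  | add x y hx hy => rw [map_add, hx, hy]
  | tmul a b => simp

theorem galTensor_mul (τ τ' : L ≃ₐ[W] L) (x : L ⊗[W] B) :
    galTensor L B (τ * τ') x = galTensor L B τ (galTensor L B τ' x) := by
  induction x using TensorProduct.induction_on with
  | zero => simp
  | add x y hx hy => rw [map_add, hx, hy, map_add, map_add]
  | tmul a b => simp [AlgEquiv.mul_apply]

theorem galTensor_symm_apply (τ : L ≃ₐ[W] L) (x : L ⊗[W] B) :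
    (galTensor L B τ).symm x = galTensor L B τ⁻¹ x := by
  rw [RingEquiv.symm_apply_eq, ← galTensor_mul, mul_inv_cancel, galTensor_one]

/-- `galTensor` is the semilinear tensor map of `RedIface75` for the identity chart
automorphism. -/
theorem galTensor_eq_semiTensor (τ : L ≃ₐ[W] L)
    (hf : ∀ (w : W) (a : L), (τ : L →+* L) (w • a) = (RingHom.id W) w • (τ : L →+* L) a)
    (hτ : ∀ (w : W) (b : B), (RingHom.id B) (w • b) = (RingHom.id W) w • (RingHom.id B) b) :
    ((galTensor L B τ : (L ⊗[W] B) ≃+* (L ⊗[W] B)) : (L ⊗[W] B) →+* (L ⊗[W] B)) =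
      semiTensor (RingHom.id W) (τ : L →+* L) (RingHom.id B) hf hτ := by
  refine RingHom.ext fun x => ?_
  induction x using TensorProduct.induction_on with
  | zero => simp
  | add x y hx hy => rw [map_add, map_add, hx, hy]
  | tmul a b => rfl

/-- Constants. -/
theorem galTensor_algebraMap (τ : L ≃ₐ[W] L) (a : L) :
    galTensor L B τ (algebraMap L (L ⊗[W] B) a) = algebraMap L (L ⊗[W] B) (τ a) := by
  rw [Algebra.TensorProduct.algebraMap_apply, Algebra.TensorProduct.algebraMap_apply]
  simp

/-- Compatibility with the chart maps `L ⊗ B → L ⊗ C`. -/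
theorem galTensor_algebraMap_right {C : Type u} [CommRing C] [Algebra W C] [Algebra B C]
    [IsScalarTower W B C] (τ : L ≃ₐ[W] L) (x : L ⊗[W] B) :
    galTensor L C τ (algebraMap (L ⊗[W] B) (L ⊗[W] C) x) =
      algebraMap (L ⊗[W] B) (L ⊗[W] C) (galTensor L B τ x) := by
  induction x using TensorProduct.induction_on with
  | zero => simp
  | add x y hx hy => rw [map_add, map_add, hx, hy, map_add, map_add]
  | tmul a b => simp

end PartB

/-! ### Part C: the action on the function field -/

section PartC

variable {W : Type u} [CommRing W] {L : Type u} [CommRing L] [Algebra W L]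
  {B01 : Type u} [CommRing B01] [Algebra W B01]
  (F : Type*) [Field F] [Algebra (L ⊗[W] B01) F] [IsFractionRing (L ⊗[W] B01) F]

variable (B01) in
/-- The extension of `τ ⊗ id` to the function field. -/
noncomputable def sF (τ : L ≃ₐ[W] L) : F ≃+* F :=
  IsFractionRing.ringEquivOfRingEquiv (galTensor L B01 τ)

variable {F}

@[simp] theorem sF_algebraMap (τ : L ≃ₐ[W] L) (x : L ⊗[W] B01) :
    sF B01 F τ (algebraMap (L ⊗[W] B01) F x) = algebraMap (L ⊗[W] B01) F (galTensor L B01 τ x) :=
  IsFractionRing.ringEquivOfRingEquiv_algebraMap _ x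

theorem sF_one (z : F) : sF B01 F (1 : L ≃ₐ[W] L) z = z := by
  obtain ⟨a, b, _, rfl⟩ := IsFractionRing.div_surjective (A := L ⊗[W] B01) z
  rw [map_div₀, sF_algebraMap, sF_algebraMap, galTensor_one, galTensor_one]

theorem sF_mul (τ τ' : L ≃ₐ[W] L) (z : F) : sF B01 F (τ * τ') z = sF B01 F τ (sF B01 F τ' z) := by
  obtain ⟨a, b, _, rfl⟩ := IsFractionRing.div_surjective (A := L ⊗[W] B01) z
  simp only [map_div₀, sF_algebraMap, galTensor_mul]

theorem sF_symm_apply (τ : L ≃ₐ[W] L) (z : F) : (sF B01 F τ).symm z = sF B01 F τ⁻¹ z := by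
  rw [RingEquiv.symm_apply_eq, ← sF_mul, mul_inv_cancel, sF_one]

/-- Compatibility with a chart ring `L ⊗ B → L ⊗ B01 → F`. -/
theorem sF_algebraMap_chart {B : Type u} [CommRing B] [Algebra W B] [Algebra B B01]
    [IsScalarTower W B B01] [Algebra (L ⊗[W] B) F] [IsScalarTower (L ⊗[W] B) (L ⊗[W] B01) F]
    (τ : L ≃ₐ[W] L) (x : L ⊗[W] B) :
    sF B01 F τ (algebraMap (L ⊗[W] B) F x) = algebraMap (L ⊗[W] B) F (galTensor L B τ x) := by
  rw [IsScalarTower.algebraMap_apply (L ⊗[W] B) (L ⊗[W] B01) F, sF_algebraMap,
    galTensor_algebraMap_right, ← IsScalarTower.algebraMap_apply]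

/-- Faithfulness: if `L → L ⊗ B01` is injective, `sF` is injective on `L ≃ₐ[W] L`. -/
theorem sF_injective (hinj : Function.Injective (algebraMap L (L ⊗[W] B01)))
    {τ τ' : L ≃ₐ[W] L} (h : ∀ z : F, sF B01 F τ z = sF B01 F τ' z) : τ = τ' := by
  ext a
  have h1 := h (algebraMap (L ⊗[W] B01) F (algebraMap L (L ⊗[W] B01) a))
  rw [sF_algebraMap, sF_algebraMap, galTensor_algebraMap, galTensor_algebraMap] at h1
  exact hinj (IsFractionRing.injective (L ⊗[W] B01) F h1)

end PartC

/-! ### Part D: leading coefficients -/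

section PartD

variable {R : Type*} [CommRing R] [IsDomain R] {K : Type*} [Field K]
  (F : Type*) [Field F] [Algebra R F] [IsFractionRing R F]

/-- Extension of a multiplicative map `lc : R →* K` with `lc x = 0 ↔ x = 0` to the fraction
field. -/
noncomputable def lcF (lc : R →* K) (h0 : ∀ x, lc x = 0 ↔ x = 0) : F →*₀ K where
  toFun z := lc (IsLocalization.sec (nonZeroDivisors R) z).1 /
    lc ((IsLocalization.sec (nonZeroDivisors R) z).2 : R)
  map_zero' := by
    have hs := IsLocalization.sec_spec (nonZeroDivisors R) (0 : F)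
    rw [zero_mul] at hs
    have h1 : (IsLocalization.sec (nonZeroDivisors R) (0 : F)).1 = 0 := by
      have := hs.symm
      rwa [map_eq_zero_iff _ (IsFractionRing.injective R F)] at this
    rw [h1, (h0 0).2 rfl, zero_div]
  map_one' := by
    have hs := IsLocalization.sec_spec (nonZeroDivisors R) (1 : F)
    rw [one_mul] at hs
    have h1 : ((IsLocalization.sec (nonZeroDivisors R) (1 : F)).2 : R) =
        (IsLocalization.sec (nonZeroDivisors R) (1 : F)).1 :=
      IsFractionRing.injective R F hs
    have h2 : lc ((IsLocalization.sec (nonZeroDivisors R) (1 : F)).2 : R) ≠ 0 := by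
      rw [Ne, h0]
      exact nonZeroDivisors.ne_zero (IsLocalization.sec (nonZeroDivisors R) (1 : F)).2.2
    rw [← h1, div_self h2]
  map_mul' z w := by
    set sz := IsLocalization.sec (nonZeroDivisors R) z with hsz
    set sw := IsLocalization.sec (nonZeroDivisors R) w with hsw
    set szw := IsLocalization.sec (nonZeroDivisors R) (z * w) with hszw
    have ez := IsLocalization.sec_spec (nonZeroDivisors R) z
    have ew := IsLocalization.sec_spec (nonZeroDivisors R) w
    have ezw := IsLocalization.sec_spec (nonZeroDivisors R) (z * w)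
    have hz2 : lc (sz.2 : R) ≠ 0 := by
      rw [Ne, h0]; exact nonZeroDivisors.ne_zero sz.2.2
    have hw2 : lc (sw.2 : R) ≠ 0 := by
      rw [Ne, h0]; exact nonZeroDivisors.ne_zero sw.2.2
    have hzw2 : lc (szw.2 : R) ≠ 0 := by
      rw [Ne, h0]; exact nonZeroDivisors.ne_zero szw.2.2
    -- `szw.1 * sz.2 * sw.2 = sz.1 * sw.1 * szw.2` in `R`
    have key : szw.1 * ((sz.2 : R) * (sw.2 : R)) = sz.1 * sw.1 * (szw.2 : R) := by
      apply IsFractionRing.injective R F
      rw [map_mul, map_mul, map_mul, map_mul, ← ezw, ← ez, ← ew]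
      ring
    have key' := congrArg lc key
    rw [map_mul, map_mul, map_mul, map_mul] at key'
    show lc szw.1 / lc (szw.2 : R) = lc sz.1 / lc (sz.2 : R) * (lc sw.1 / lc (sw.2 : R))
    field_simp
    linear_combination key'

variable {F}

theorem lcF_algebraMap (lc : R →* K) (h0 : ∀ x, lc x = 0 ↔ x = 0) (x : R) :
    lcF F lc h0 (algebraMap R F x) = lc x := by
  set s := IsLocalization.sec (nonZeroDivisors R) (algebraMap R F x) with hs
  have e := IsLocalization.sec_spec (nonZeroDivisors R) (algebraMap R F x)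
  have h2 : lc (s.2 : R) ≠ 0 := by
    rw [Ne, h0]; exact nonZeroDivisors.ne_zero s.2.2
  have key : x * (s.2 : R) = s.1 := by
    apply IsFractionRing.injective R F
    rw [map_mul]
    exact e
  show lc s.1 / lc (s.2 : R) = lc x
  rw [← key, map_mul, mul_div_assoc, div_self h2, mul_one]

theorem lcF_div (lc : R →* K) (h0 : ∀ x, lc x = 0 ↔ x = 0) (a b : R) :
    lcF F lc h0 (algebraMap R F a / algebraMap R F b) = lc a / lc b := by
  rw [map_div₀, lcF_algebraMap, lcF_algebraMap]

/-- Equivariance of `lcF`: if `lc (g x) = τ (lc x)` on `R` then `lcF (gF z) = τ (lcF z)` for the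
extension `gF` of `g` to `F`. -/
theorem lcF_equivariant (lc : R →* K) (h0 : ∀ x, lc x = 0 ↔ x = 0) (g : R ≃+* R) (τ : K →+* K)
    (h : ∀ x, lc (g x) = τ (lc x)) (z : F) :
    lcF F lc h0 (IsFractionRing.ringEquivOfRingEquiv (K := F) (L := F) g z) =
      τ (lcF F lc h0 z) := by
  obtain ⟨a, b, _, rfl⟩ := IsFractionRing.div_surjective (A := R) z
  rw [map_div₀, IsFractionRing.ringEquivOfRingEquiv_algebraMap,
    IsFractionRing.ringEquivOfRingEquiv_algebraMap, lcF_div, lcF_div, h, h, map_div₀]

end PartD

/-! ### Part D': specialisation to `L ⊗[W] B01` -/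

section PartD'

variable {W : Type u} [CommRing W] {L : Type u} [Field L] [Algebra W L]
  {B01 : Type u} [CommRing B01] [Algebra W B01] [IsDomain (L ⊗[W] B01)]
  {F : Type*} [Field F] [Algebra (L ⊗[W] B01) F] [IsFractionRing (L ⊗[W] B01) F]

theorem lcF_sF (lc : (L ⊗[W] B01) →* L) (h0 : ∀ x, lc x = 0 ↔ x = 0) (τ : L ≃ₐ[W] L)
    (h : ∀ x, lc (galTensor L B01 τ x) = τ (lc x)) (z : F) :
    lcF F lc h0 (sF B01 F τ z) = τ (lcF F lc h0 z) :=
  lcF_equivariant lc h0 (galTensor L B01 τ) (τ : L →+* L) h z

theorem lcF_const (lc : (L ⊗[W] B01) →* L) (h0 : ∀ x, lc x = 0 ↔ x = 0)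
    (hc : ∀ a : L, lc (a ⊗ₜ[W] (1 : B01)) = a) (a : L) :
    lcF F lc h0 (algebraMap (L ⊗[W] B01) F (a ⊗ₜ[W] (1 : B01))) = a := by
  rw [lcF_algebraMap, hc]

end PartD'

end Fermat.Agent.T1B.Desc8.FracAct
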