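/-
T1B (row 38), brick Phi7 (helper45's reports 1166 / 1337), slice DESC AT THE p-ADIC LEVELS, file 5
(helper8): THE REMAINING GENERIC-FIBRE INPUTS OF `Node45.LocalPhi` AT THE CONCRETE HUB.

For Program N's concrete nodal model over `W = Wb p K` (generic in
`D : NodalNumData (Wb p K) ↥K ↥(FK (M' q) K) π t B0 B1 O1 O2`, `c0 = nodalChart D.model`, `ht : IsGen ↥K t`)
and then for the hub `c0S H` of `Hub9` (no hypothesis left):

* `finiteType0/1`  : the charts are of finite type over `W`;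
* `hinv0/hinv1`    : over every level `E : NLevel p K` the point ideals of `E ⊗[W] B_j` are invertible
  (`hinv_j` of `LocalPhi.PtTop_eq_top`, `hinvL0/hinvL1` of `Phi.LevelHyp`);
* `hinvTop0/1`     : the same over `ℚ̄_p`;
* `picPt_top`      : `(pointClasses c0).PicPt (Kbar p) = ⊤` (`hgen`; helper60's PT-GEN);
* `bcE_injective`  : `Pic X_E → Pic X_{ℚ̄_p}` is injective (`hinj`; helper43's EXT-INJ-FIELD +
  `H⁰(X_{ℚ̄_p}, O) = ℚ̄_p`).
-/
import Mathlib
import Fermat.Agent.T1B.Desc8.DescLevel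
import Fermat.Agent.T1B.Bal60.PtGen
import Fermat.Agent.T1B.Bridge43.ExtInjField

set_option autoImplicit false
set_option linter.unusedSectionVars false
set_option linter.style.haveILetI false

noncomputable section

open TensorProduct

namespace Fermat.Agent.T1B.Desc8.HubInputs

open HahnSeries Fermat.Agent.RED.Interface4 Fermat.Agent.RED.PUR.GaussGen8
  Fermat.Agent.ES.N34.ModelDefs9 Fermat.Agent.T1.ModelCoh30
  Fermat.Agent.ES.N34.NumData13 Fermat.Agent.ES.N34.NodalCore13
  Fermat.Agent.T1.Coh60 Fermat.Agent.T1B.NodalFacts23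
  Fermat.Agent.Jac Fermat.Agent.Jac.BaseChange75
  Fermat.Agent.T1.HubInst98 Fermat.Agent.X0.FF
  Fermat.Agent.TW.B5.Iface Fermat.Agent.T1.PtLine75 Fermat.Agent.T1.RedIface75
  Fermat.Agent.T1B.Local66.LocalBase Fermat.Agent.T1B.Local66.Union
  Fermat.Agent.T1B.Desc1 Fermat.Agent.T1B.Desc8.DescLevel
open scoped Fermat.Agent.Jac.BaseChange75
open scoped Fermat.Agent.T1.Assembly41.FastInst

attribute [local instance] Fermat.Agent.RED.NumInst4.isScalarTower_OE

variable {p : ℕ} [Fact p.Prime] {K : IntermediateField ℚ Qbar} [FiniteDimensional ℚ K]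
  {M' q : ℕ} [NeZero M'] [NeZero q]
  {π : Wb p K} (hπ : IsUnif (AK (padicPlace p) K) π)
  (hE : FK (M' * q) K ≤ fracField (AK (padicPlace p) K)) {t : ↥(FK (M' * q) K)}
  {B0 B1 : Subalgebra (Wb p K) ↥(FK (M' * q) K)}
  (D : NodalNumData (Wb p K) ↥K ↥(FK (M' * q) K) π t B0 B1 (O1 M' q hπ hE) (O2 M' q hπ hE))
  (ht : IsGen ↥K t)

include D ht in
/-- Chart 0 of the concrete nodal hub is of finite type over `W`. -/
theorem finiteType0 : Algebra.FiniteType (Wb p K) ↥B0 :=
  haveI : IsDiscreteValuationRing (Wb p K) := Fermat.Agent.T1.Assembly41.Concrete.isDVR p K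
  Fermat.Agent.T1B.DescSep1.NodalFinType.finiteType_chart0 (K := ↥K) D.model ht

include D ht in
/-- Chart 1 of the concrete nodal hub is of finite type over `W`. -/
theorem finiteType1 : Algebra.FiniteType (Wb p K) ↥B1 :=
  haveI : IsDiscreteValuationRing (Wb p K) := Fermat.Agent.T1.Assembly41.Concrete.isDVR p K
  Fermat.Agent.T1B.DescSep1.NodalFinType.finiteType_chart1 (K := ↥K) D.model ht

/-! ### Arbitrary fields over `K` -/

section Field

variable (L : Type) [Field L] [Algebra ↥K L] [Algebra (Wb p K) L] [IsScalarTower (Wb p K) ↥K L]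

include D ht in
theorem isDedekindDomain0 : IsDedekindDomain (L ⊗[Wb p K] ↥B0) :=
  haveI : IsDiscreteValuationRing (Wb p K) := Fermat.Agent.T1.Assembly41.Concrete.isDVR p K
  Fermat.Agent.T1B.DescSep1.Dvr.isDedekindDomain_nodalChart0
    (W := Wb p K) (F := ↥(FK (M' * q) K)) (K := ↥K)
    ((FK (M' * q) K).val.toRingHom) (val_algebraMap (M' * q)) Subtype.val_injective L D.model ht

include D ht in
theorem isDedekindDomain1 : IsDedekindDomain (L ⊗[Wb p K] ↥B1) :=
  haveI : IsDiscreteValuationRing (Wb p K) := Fermat.Agent.T1.Assembly41.Concrete.isDVR p K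
  Fermat.Agent.T1B.DescSep1.Dvr.isDedekindDomain_nodalChart1
    (W := Wb p K) (F := ↥(FK (M' * q) K)) (K := ↥K)
    ((FK (M' * q) K).val.toRingHom) (val_algebraMap (M' * q)) Subtype.val_injective L D.model ht

theorem isDomain01 : IsDomain (L ⊗[Wb p K] ↥(B0 ⊔ B1)) :=
  haveI : IsDiscreteValuationRing (Wb p K) := Fermat.Agent.T1.Assembly41.Concrete.isDVR p K
  Fermat.Agent.T1B.DescSep1.Dvr.isDomain_nodalOverlap
    (W := Wb p K) (F := ↥(FK (M' * q) K)) (K := ↥K) (B0 := B0) (B1 := B1)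
    ((FK (M' * q) K).val.toRingHom) (val_algebraMap (M' * q)) Subtype.val_injective L

include D ht in
/-- Over any field `L ⊇ K` the point ideals of chart 0 are invertible. -/
theorem invertible_ptIdeal0 (qq : ↥B0 →ₐ[Wb p K] L) :
    Module.Invertible (L ⊗[Wb p K] ↥B0) (ptIdeal qq) :=
  haveI : IsDiscreteValuationRing (Wb p K) := Fermat.Agent.T1.Assembly41.Concrete.isDVR p K
  haveI := isDedekindDomain0 hπ hE D ht L
  Fermat.Agent.T1B.Desc8.DescAt.invertible_ptIdeal_of_isDedekindDomain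
    (Fermat.Agent.T1B.DescSep1.Dvr.not_isField_nodalChart0 (K := ↥K) L D.model ht) qq

include D ht in
/-- Over any field `L ⊇ K` the point ideals of chart 1 are invertible. -/
theorem invertible_ptIdeal1 (qq : ↥B1 →ₐ[Wb p K] L) :
    Module.Invertible (L ⊗[Wb p K] ↥B1) (ptIdeal qq) :=
  haveI : IsDiscreteValuationRing (Wb p K) := Fermat.Agent.T1.Assembly41.Concrete.isDVR p K
  haveI := isDedekindDomain1 hπ hE D ht L
  Fermat.Agent.T1B.Desc8.DescAt.invertible_ptIdeal_of_isDedekindDomain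
    (Fermat.Agent.T1B.DescSep1.Dvr.not_isField_nodalChart1 (K := ↥K) L D.model ht) qq

end Field

/-! ### The levels and the top -/

include D ht in
/-- **`hinv0`**: over every level the point ideals of chart 0 are invertible. -/
theorem hinv0 (E : NLevel p K) :
    letI := algWE E.lev
    ∀ qq : ↥B0 →ₐ[Wb p K] ↥E.E, Module.Invertible (↥E.E ⊗[Wb p K] ↥B0) (ptIdeal qq) := by
  letI := algWE E.lev
  letI aKE : Algebra ↥K ↥E.E := (toE E.lev).toAlgebra
  haveI t1 : IsScalarTower (Wb p K) ↥K ↥E.E := IsScalarTower.of_algebraMap_eq' rfl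
  exact invertible_ptIdeal0 hπ hE D ht ↥E.E

include D ht in
/-- **`hinv1`**: over every level the point ideals of chart 1 are invertible. -/
theorem hinv1 (E : NLevel p K) :
    letI := algWE E.lev
    ∀ qq : ↥B1 →ₐ[Wb p K] ↥E.E, Module.Invertible (↥E.E ⊗[Wb p K] ↥B1) (ptIdeal qq) := by
  letI := algWE E.lev
  letI aKE : Algebra ↥K ↥E.E := (toE E.lev).toAlgebra
  haveI t1 : IsScalarTower (Wb p K) ↥K ↥E.E := IsScalarTower.of_algebraMap_eq' rfl
  exact invertible_ptIdeal1 hπ hE D ht ↥E.E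

include D ht in
/-- Over `ℚ̄_p` the point ideals of chart 0 are invertible. -/
theorem hinvTop0 :
    letI := algWKbar p K
    ∀ qq : ↥B0 →ₐ[Wb p K] Kbar p, Module.Invertible (Kbar p ⊗[Wb p K] ↥B0) (ptIdeal qq) := by
  letI := algWKbar p K
  letI aKΩ : Algebra ↥K (Kbar p) := (iotaK p K).toAlgebra
  haveI t2 : IsScalarTower (Wb p K) ↥K (Kbar p) := IsScalarTower.of_algebraMap_eq' rfl
  exact invertible_ptIdeal0 hπ hE D ht (Kbar p)

include D ht in
/-- Over `ℚ̄_p` the point ideals of chart 1 are invertible. -/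
theorem hinvTop1 :
    letI := algWKbar p K
    ∀ qq : ↥B1 →ₐ[Wb p K] Kbar p, Module.Invertible (Kbar p ⊗[Wb p K] ↥B1) (ptIdeal qq) := by
  letI := algWKbar p K
  letI aKΩ : Algebra ↥K (Kbar p) := (iotaK p K).toAlgebra
  haveI t2 : IsScalarTower (Wb p K) ↥K (Kbar p) := IsScalarTower.of_algebraMap_eq' rfl
  exact invertible_ptIdeal1 hπ hE D ht (Kbar p)

include ht in
/-- **`hgen`**: over `ℚ̄_p` the classes of points generate `Pic X_{ℚ̄_p}`. -/
theorem picPt_top :
    letI := algebra0 B0 B1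
    letI := algebra1 B0 B1
    haveI := isScalarTower0 B0 B1
    haveI := isScalarTower1 B0 B1
    letI := algWKbar p K
    (pointClasses (nodalChart D.model)).PicPt (Kbar p) = ⊤ := by
  letI := algebra0 B0 B1
  letI := algebra1 B0 B1
  haveI := isScalarTower0 B0 B1
  haveI := isScalarTower1 B0 B1
  letI := algWKbar p K
  letI aKΩ : Algebra ↥K (Kbar p) := (iotaK p K).toAlgebra
  haveI t2 : IsScalarTower (Wb p K) ↥K (Kbar p) := IsScalarTower.of_algebraMap_eq' rfl
  haveI := finiteType0 hπ hE D ht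
  haveI := finiteType1 hπ hE D ht
  haveI := isDedekindDomain0 hπ hE D ht (Kbar p)
  haveI := isDedekindDomain1 hπ hE D ht (Kbar p)
  haveI := isDomain01 (B0 := B0) (B1 := B1) (Kbar p)
  exact Fermat.Agent.T1B.Bal60.PtGen.picPt_eq_top (nodalChart D.model) (Kbar p)

include ht in
/-- **`hinj`**: `Pic X_E → Pic X_{ℚ̄_p}` is injective for every level `E`. -/
theorem bcE_injective (E : NLevel p K) :
    letI := algebra0 B0 B1
    letI := algebra1 B0 B1
    haveI := isScalarTower0 B0 B1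
    haveI := isScalarTower1 B0 B1
    Function.Injective (bcE (nodalChart D.model) E) := by
  letI := algebra0 B0 B1
  letI := algebra1 B0 B1
  haveI := isScalarTower0 B0 B1
  haveI := isScalarTower1 B0 B1
  letI := algWE E.lev
  letI := algWKbar p K
  letI := algEKbar E.E
  haveI := tower_W_E_Kbar E.lev
  letI aKΩ : Algebra ↥K (Kbar p) := (iotaK p K).toAlgebra
  haveI t2 : IsScalarTower (Wb p K) ↥K (Kbar p) := IsScalarTower.of_algebraMap_eq' rfl
  haveI := isDedekindDomain0 hπ hE D ht (Kbar p)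
  exact Fermat.Agent.T1B.Bridge43.picMap_injective_of_field (nodalChart D.model) ↥E.E (Kbar p)
    (Fermat.Agent.T1B.NodalCoh30.concrete_h0Const hπ hE D (Kbar p))

/-! ### The concrete hub `c0S H` -/

section Hub

open Fermat.Agent.T1B.Hub9 Fermat.Agent.T1B.Desc8.IsGenHub

attribute [local instance] Fermat.Agent.T1.Coh60.algebra0 Fermat.Agent.T1.Coh60.algebra1
  Fermat.Agent.T1.Coh60.isScalarTower0 Fermat.Agent.T1.Coh60.isScalarTower1

variable {M' : ℕ} [NeZero p] [NeZero M'] (H : HubParams p M' K)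

theorem finiteType0_c0S : Algebra.FiniteType (Wb p K) ↥(B0S H) :=
  finiteType0 (isUnif_piW p K) (hES p M' K) (numDataS H) (isGen_tS H)

theorem finiteType1_c0S : Algebra.FiniteType (Wb p K) ↥(B1S H) :=
  finiteType1 (isUnif_piW p K) (hES p M' K) (numDataS H) (isGen_tS H)

/-- **`hinv0` at the hub.** -/
theorem hinv0_c0S (E : NLevel p K) :
    letI := algWE E.lev
    ∀ qq : ↥(B0S H) →ₐ[Wb p K] ↥E.E,
      Module.Invertible (↥E.E ⊗[Wb p K] ↥(B0S H)) (ptIdeal qq) :=
  hinv0 (isUnif_piW p K) (hES p M' K) (numDataS H) (isGen_tS H) E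

/-- **`hinv1` at the hub.** -/
theorem hinv1_c0S (E : NLevel p K) :
    letI := algWE E.lev
    ∀ qq : ↥(B1S H) →ₐ[Wb p K] ↥E.E,
      Module.Invertible (↥E.E ⊗[Wb p K] ↥(B1S H)) (ptIdeal qq) :=
  hinv1 (isUnif_piW p K) (hES p M' K) (numDataS H) (isGen_tS H) E

/-- **`hgen` at the hub.** -/
theorem picPt_top_c0S :
    letI := algWKbar p K
    (pointClasses (c0S H)).PicPt (Kbar p) = ⊤ :=
  picPt_top (isUnif_piW p K) (hES p M' K) (numDataS H) (isGen_tS H)

/-- **`hinj` at the hub.** -/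
theorem bcE_injective_c0S (E : NLevel p K) : Function.Injective (bcE (c0S H) E) :=
  bcE_injective (isUnif_piW p K) (hES p M' K) (numDataS H) (isGen_tS H) E

end Hub

end Fermat.Agent.T1B.Desc8.HubInputs
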