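/-
T1B (row 38), brick Phi7 (helper45's report 1166), slice DESC AT THE p-ADIC LEVELS, file 4 (helper8):
**FROM `DescStatement` AT A LEVEL TO STABLE MULTISETS OF POINTS AT A HIGHER LEVEL** (the `p`-adic twin of
`Desc8.DescAt.descAt_of_descStatement`; step "stable `sP sN` over `ℚ̄_p` ⇒ a level `E₃` over which they
are defined + the class identity over `E₃`" of the chain (G4) of report 1166).

`c0 : TwoChart (Wb p K) B0 B1 B01`, `K` inertial, `E : NLevel p K`.  If
`DescStatement c0 ↥E.E (Kbar p) (GE hK E)` holds and the point ideals over all levels are invertible,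
then for every class of points `y ∈ PicPt(E)` fixed by the inertia group (`gE c0 E hK τ y = y`) there
are a level `E' ≥ E` and multisets `sP sN` of `E'`-points, stable under the inertia group
(`twistIdx c0 (inertiaHomE hK E' τ)`), with `bcEE hE y = msCls sP / msCls sN` in `Pic X_{E'}`:

* `descPtK`, `DefinedOverK`, `descIdxK`, `bcIdx_descIdxK` : descent of `ℚ̄_p`-points with values in an
  intermediate field;
* `exists_level_definedOver` : a multiset of `ℚ̄_p`-points is defined over a level above a given one;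
* **`exists_stable_level`**.
-/
import Mathlib
import Fermat.Agent.T1B.Desc8.LevelGroup
import Fermat.Agent.T1B.Desc8.DescAt

set_option autoImplicit false
set_option linter.unusedSectionVars false
set_option linter.style.haveILetI false

open TensorProduct

noncomputable section

namespace Fermat.Agent.T1B.Desc8.LevelOut

open Fermat.Agent.TW.B5.Iface Fermat.Agent.RED.Interface4 Fermat.Agent.T1.HubInst98
open Fermat.Agent.T1.IntSub47 Fermat.Agent.Jac Fermat.Agent.T1.RedIface75
open Fermat.Agent.T1.PtLine75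
open Fermat.Agent.T1B.Local66.LocalBase Fermat.Agent.T1B.Local66.Union
open Fermat.Agent.T1B.Plumb66.Inertia (Ip mem_Ip)
open Fermat.Agent.T1B.Bridge54.IpAction Fermat.Agent.T1B.Bridge54.IpInst
open Fermat.Agent.ES.P36.InertField27 (InertFixed)
open Fermat.Agent.T1B.Desc1 Fermat.Agent.T1B.Desc8.LevelGroup Fermat.Agent.T1B.Desc8.DescAt
open Fermat.Agent.T1B.Desc8.Effective
open Fermat.Agent.Jac.BaseChange75
open scoped Fermat.Agent.Jac.BaseChange75

/-! ### Descent of points with values in an intermediate field -/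

section Descend

variable {W k Ω : Type} [CommRing W] [Field k] [Field Ω] [Algebra k Ω] [Algebra W Ω]

section OnePoint

variable {B : Type} [CommRing B] [Algebra W B]
  (E' : IntermediateField k Ω) [Algebra W ↥E'] [IsScalarTower W ↥E' Ω]

/-- A point with values in the intermediate field `E'` descends to `E'`. -/
def descPtK (q : B →ₐ[W] Ω) (h : ∀ b, q b ∈ E') : B →ₐ[W] ↥E' where
  toFun b := ⟨q b, h b⟩
  map_one' := Subtype.ext (map_one q)
  map_mul' a b := Subtype.ext (map_mul q a b)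
  map_zero' := Subtype.ext (map_zero q)
  map_add' a b := Subtype.ext (map_add q a b)
  commutes' w := Subtype.ext (by
    show q (algebraMap W B w) = algebraMap ↥E' Ω (algebraMap W ↥E' w)
    rw [q.commutes, ← IsScalarTower.algebraMap_apply])

theorem ptComp_descPtK (q : B →ₐ[W] Ω) (h : ∀ b, q b ∈ E') :
    ptComp Ω (descPtK E' q h) = q :=
  AlgHom.ext fun _ => rfl

end OnePoint

variable {B0 B1 B01 : Type} [CommRing B0] [CommRing B1] [CommRing B01]
  [Algebra W B0] [Algebra W B1] [Algebra W B01] [Algebra B0 B01] [Algebra B1 B01]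
  [IsScalarTower W B0 B01] [IsScalarTower W B1 B01]
  (c0 : TwoChart W B0 B1 B01)

/-- The point index has all its values in `E'`. -/
def DefinedOverK (E' : IntermediateField k Ω) : PtIdx c0 Ω → Prop
  | Sum.inl q => ∀ b, q.1 b ∈ E'
  | Sum.inr q => ∀ b, q.1 b ∈ E'

/-- Descent of a point index defined over `E'`. -/
def descIdxK (E' : IntermediateField k Ω) [Algebra W ↥E'] [IsScalarTower W ↥E' Ω]
    (hinv0 : ∀ q : B0 →ₐ[W] ↥E', Module.Invertible (↥E' ⊗[W] B0) (ptIdeal q))
    (hinv1 : ∀ q : B1 →ₐ[W] ↥E', Module.Invertible (↥E' ⊗[W] B1) (ptIdeal q)) :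
    (x : PtIdx c0 Ω) → DefinedOverK c0 E' x → PtIdx c0 ↥E'
  | Sum.inl q, h => Sum.inl ⟨descPtK E' q.1 h, hinv0 _⟩
  | Sum.inr q, h => Sum.inr ⟨descPtK E' q.1 h, hinv1 _⟩

theorem bcIdx_descIdxK (E' : IntermediateField k Ω) [Algebra W ↥E'] [IsScalarTower W ↥E' Ω]
    (hinv0 : ∀ q : B0 →ₐ[W] ↥E', Module.Invertible (↥E' ⊗[W] B0) (ptIdeal q))
    (hinv1 : ∀ q : B1 →ₐ[W] ↥E', Module.Invertible (↥E' ⊗[W] B1) (ptIdeal q))
    (x : PtIdx c0 Ω) (h : DefinedOverK c0 E' x) :
    bcIdx c0 Ω (descIdxK c0 E' hinv0 hinv1 x h) = x := by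
  rcases x with q | q
  · exact congrArg Sum.inl (Subtype.ext (ptComp_descPtK E' q.1 h))
  · exact congrArg Sum.inr (Subtype.ext (ptComp_descPtK E' q.1 h))

/-- Finitely many values control the field of definition of a point index. -/
theorem exists_finset_definedOverK [Algebra.FiniteType W B0] [Algebra.FiniteType W B1]
    (x : PtIdx c0 Ω) :
    ∃ T : Finset Ω, ∀ E' : IntermediateField k Ω,
      (∀ w : W, algebraMap W Ω w ∈ E') → (∀ t ∈ T, t ∈ E') → DefinedOverK c0 E' x := by
  rcases x with q | q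
  · obtain ⟨T, hT⟩ := Fermat.Agent.T1.Centres94.FieldChoice.exists_finset_values q.1
    exact ⟨T, fun E' hWL hTL => hT E'.toSubfield hWL hTL⟩
  · obtain ⟨T, hT⟩ := Fermat.Agent.T1.Centres94.FieldChoice.exists_finset_values q.1
    exact ⟨T, fun E' hWL hTL => hT E'.toSubfield hWL hTL⟩

end Descend

/-! ### The levels -/

variable {p : ℕ} [Fact p.Prime] {K : IntermediateField ℚ Qbar}
  {B0 B1 B01 : Type} [CommRing B0] [CommRing B1] [CommRing B01]
  [Algebra (Wb p K) B0] [Algebra (Wb p K) B1] [Algebra (Wb p K) B01] [Algebra B0 B01]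
  [Algebra B1 B01] [IsScalarTower (Wb p K) B0 B01] [IsScalarTower (Wb p K) B1 B01]
  (c0 : TwoChart (Wb p K) B0 B1 B01)

/-- **Every multiset of `ℚ̄_p`-points is defined over a level above a given one** (Krasner, via
`NLevel.exists_ge_adjoin`). -/
theorem exists_level_definedOver [Algebra.FiniteType (Wb p K) B0] [Algebra.FiniteType (Wb p K) B1]
    (E : NLevel p K)
    (s : letI := algWKbar p K; Multiset (PtIdx c0 (Kbar p))) :
    letI := algWKbar p K
    ∃ E' : NLevel p K, E ≤ E' ∧ ∀ x ∈ s, DefinedOverK c0 E'.E x := by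
  classical
  letI := algWKbar p K
  have hT := fun x : PtIdx c0 (Kbar p) => exists_finset_definedOverK (k := ℚ_[p]) c0 x
  choose T hT using hT
  obtain ⟨E', hE, hmem⟩ := E.exists_ge_adjoin (↑(s.toFinset.biUnion T) : Set (Kbar p))
    (Finset.finite_toSet _)
  refine ⟨E', hE, fun x hx => hT x E'.E (fun w => E'.lev (w : ↥K)) fun t ht => ?_⟩
  exact hmem t (Finset.mem_coe.2 (Finset.mem_biUnion.2 ⟨x, Multiset.mem_toFinset.2 hx, ht⟩))

variable (hK : InertFixed (padicPlace p) K)

/-- **From `DescStatement` at the level `E` to inertia-stable multisets of points at a level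
`E' ≥ E`.** -/
theorem exists_stable_level [Algebra.FiniteType (Wb p K) B0] [Algebra.FiniteType (Wb p K) B1]
    (hinv0 : ∀ E' : NLevel p K,
      letI := algWE E'.lev
      ∀ q : B0 →ₐ[Wb p K] ↥E'.E, Module.Invertible (↥E'.E ⊗[Wb p K] B0) (ptIdeal q))
    (hinv1 : ∀ E' : NLevel p K,
      letI := algWE E'.lev
      ∀ q : B1 →ₐ[Wb p K] ↥E'.E, Module.Invertible (↥E'.E ⊗[Wb p K] B1) (ptIdeal q))
    (E : NLevel p K)
    (hdesc :
      letI := algWE E.lev
      letI := algWKbar p K
      haveI := tower_W_E_Kbar E.lev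
      DescStatement c0 ↥E.E (Kbar p) (GE hK E))
    (y : PicE c0 E)
    (hy : letI := algWE E.lev; y ∈ (pointClasses c0).PicPt ↥E.E)
    (hyinv : ∀ τ : ↥(Ip p), gE c0 E hK τ y = y) :
    ∃ (E' : NLevel p K) (hE : E ≤ E'),
      letI := algWE E'.lev
      ∃ sP sN : Multiset (PtIdx c0 ↥E'.E),
        bcEE c0 hE y = msCls c0 sP / msCls c0 sN ∧
        (∀ τ : ↥(Ip p), sP.map (twistIdx c0 (inertiaHomE hK E' τ)) = sP) ∧
        (∀ τ : ↥(Ip p), sN.map (twistIdx c0 (inertiaHomE hK E' τ)) = sN) := by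
  letI := algWE E.lev
  letI := algWKbar p K
  haveI := tower_W_E_Kbar E.lev
  obtain ⟨sP, sN, _, hstab, hfin⟩ := hdesc y hy (galPic_eq_of_gE_eq hK E c0 hyinv)
  obtain ⟨E', hE, hdef⟩ := exists_level_definedOver c0 E (sP + sN)
  refine ⟨E', hE, ?_⟩
  letI := algWE E'.lev
  letI := algEE (p := p) (NLevel.E_le hE)
  haveI t1 := tower_W_E_E E.lev (NLevel.E_le hE)
  haveI t2 := tower_W_E_Kbar E'.lev
  haveI t3 := tower_E_E_Kbar (p := p) (NLevel.E_le hE)
  have i0 := hinv0 E'
  have i1 := hinv1 E'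
  -- the descended multisets
  let sP' : Multiset (PtIdx c0 ↥E'.E) := sP.attach.map fun x =>
    descIdxK c0 E'.E i0 i1 x.1 (hdef x.1 (Multiset.mem_add.2 (Or.inl x.2)))
  let sN' : Multiset (PtIdx c0 ↥E'.E) := sN.attach.map fun x =>
    descIdxK c0 E'.E i0 i1 x.1 (hdef x.1 (Multiset.mem_add.2 (Or.inr x.2)))
  have hP' : sP'.map (bcIdx c0 (Kbar p)) = sP := by
    show (sP.attach.map _).map (bcIdx c0 (Kbar p)) = sP
    rw [Multiset.map_map]
    conv_rhs => rw [← Multiset.attach_map_val sP]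
    exact Multiset.map_congr rfl fun x _ => bcIdx_descIdxK c0 E'.E i0 i1 x.1 _
  have hN' : sN'.map (bcIdx c0 (Kbar p)) = sN := by
    show (sN.attach.map _).map (bcIdx c0 (Kbar p)) = sN
    rw [Multiset.map_map]
    conv_rhs => rw [← Multiset.attach_map_val sN]
    exact Multiset.map_congr rfl fun x _ => bcIdx_descIdxK c0 E'.E i0 i1 x.1 _
  have hinj : Function.Injective (algebraMap ↥E'.E (Kbar p)) := Subtype.val_injective
  refine ⟨sP', sN', hfin ↥E'.E sP' sN' hP' hN', fun τ => ?_, fun τ => ?_⟩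
  · obtain ⟨h1, _⟩ := hstab (galKbarEquiv hK τ) (inertiaHomE hK E τ) (inertiaHomE_mem_GE hK E τ)
      (galKbarEquiv_algebraMap hK E τ)
    refine stable_of_bcIdx_stable c0 (Kbar p) hinj (galKbarEquiv hK τ) (inertiaHomE hK E' τ)
      (galKbarEquiv_algebraMap hK E' τ) sP' ?_
    rw [hP']
    exact h1
  · obtain ⟨_, h2⟩ := hstab (galKbarEquiv hK τ) (inertiaHomE hK E τ) (inertiaHomE_mem_GE hK E τ)
      (galKbarEquiv_algebraMap hK E τ)
    refine stable_of_bcIdx_stable c0 (Kbar p) hinj (galKbarEquiv hK τ) (inertiaHomE hK E' τ)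
      (galKbarEquiv_algebraMap hK E' τ) sN' ?_
    rw [hN']
    exact h2

end Fermat.Agent.T1B.Desc8.LevelOut
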